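/-
S17 project, package WA (weak Mordell–Weil, W1) — LIB leaf by helper7618.

"Galois descent without Hilbert 90" for subspaces of `LaurentSeries E` under the
coefficientwise maps `ModularCurve.coeffMap φ` (the Prelude's arithmetic Galois action on
`laurentBaseChange L F₀` is of this form).

Main results (Mathlib + Prelude `coeffMap` only):

* `exists_pivots`            : a finite-dimensional subspace `V` of a module with a separating family
                               of functionals has a finite set `P` of "pivots" such that restriction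
                               to `P` is a linear isomorphism `V ≃ (P → E)`.
* `exists_basis_fixed`       : a finite-dimensional subspace `V ⊆ E((q))` stable under a set `S` of
                               coefficientwise maps has a basis of vectors fixed by every `φ ∈ S`
                               (reduced echelon basis).  E.g. `V = L(D)` for a Galois-stable `D`.
* `span_fixed_eq`            : such a `V` is spanned by its fixed vectors.
* `exists_fixed_notMem`      : (char 0) such a `V` contains a FIXED vector outside finitely many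
                               subspaces not containing `V` (core of the rational moving lemma).
* `coeffMap_leadingCoeff_inv_smul` : if `σ f = c • f` then `f / leadingCoeff f` is fixed by `σ`
                               (replaces Hilbert 90 in W1: a function whose divisor is stable has a
                               fixed scalar multiple, namely the one with leading coefficient 1).
-/
import Mathlib
import Fermat.Prelude.Def_ModularCurve_ArithmeticGalois

set_option autoImplicit false

open Module ModularCurve

namespace Fermat.Agent.S17.WA.H7618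

section Pivots

variable {E M ι : Type*} [Field E] [AddCommGroup M] [Module E M]

/-- Finitely many functionals of a separating family already separate a finite-dimensional
subspace, and `finrank` many suffice. -/
theorem exists_finset_card_le (ℓ : ι → M →ₗ[E] E) (hℓ : ∀ x : M, (∀ i, ℓ i x = 0) → x = 0) :
    ∀ (n : ℕ) (U : Submodule E M), FiniteDimensional E U → finrank E U ≤ n →
      ∃ P : Finset ι, P.card ≤ n ∧ ∀ u ∈ U, (∀ p ∈ P, ℓ p u = 0) → u = 0 := by
  classical
  intro n
  induction n with
  | zero =>
    intro U hU hn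
    refine ⟨∅, by simp, fun u hu _ => ?_⟩
    have h0 : finrank E U = 0 := Nat.le_zero.mp hn
    have hbot : U = ⊥ := Submodule.finrank_eq_zero.mp h0
    rw [hbot] at hu
    simpa using hu
  | succ n ih =>
    intro U hU hn
    by_cases hbot : U = ⊥
    · refine ⟨∅, by simp, fun u hu _ => ?_⟩
      rw [hbot] at hu
      simpa using hu
    · obtain ⟨u, hu, hu0⟩ := Submodule.exists_mem_ne_zero_of_ne_bot hbot
      obtain ⟨p, hp⟩ : ∃ p, ℓ p u ≠ 0 := by
        by_contra h
        exact hu0 (hℓ u fun i => not_not.mp fun hi => h ⟨i, hi⟩)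
      have hle : U ⊓ LinearMap.ker (ℓ p) ≤ U := inf_le_left
      have hlt : U ⊓ LinearMap.ker (ℓ p) < U := by
        refine lt_of_le_of_ne hle fun heq => hp ?_
        have : u ∈ U ⊓ LinearMap.ker (ℓ p) := by rw [heq]; exact hu
        exact this.2
      have hfin' : FiniteDimensional E ↥(U ⊓ LinearMap.ker (ℓ p)) :=
        Submodule.finiteDimensional_of_le hle
      have hrank : finrank E ↥(U ⊓ LinearMap.ker (ℓ p)) ≤ n := by
        have := Submodule.finrank_lt_finrank_of_lt hlt
        omega
      obtain ⟨P', hP'card, hP'⟩ := ih _ hfin' hrank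
      refine ⟨insert p P', ?_, fun v hv hvP => ?_⟩
      · exact (Finset.card_insert_le _ _).trans (by omega)
      · have hvp : ℓ p v = 0 := hvP p (Finset.mem_insert_self _ _)
        exact hP' v ⟨hv, hvp⟩ (fun q hq => hvP q (Finset.mem_insert_of_mem hq))

/-- Restriction of a subspace to a finite set of functionals. -/
def pivotMap (ℓ : ι → M →ₗ[E] E) (V : Submodule E M) (P : Finset ι) : V →ₗ[E] (P → E) :=
  LinearMap.pi fun p => (ℓ p).comp V.subtype

@[simp]
theorem pivotMap_apply (ℓ : ι → M →ₗ[E] E) (V : Submodule E M) (P : Finset ι) (v : V) (p : P) :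
    pivotMap ℓ V P v p = ℓ p v := rfl

/-- **Pivots.** A finite-dimensional subspace of a module with a separating family of functionals
is mapped isomorphically onto `P → E` by a suitable finite subfamily `P`. -/
theorem exists_pivots (ℓ : ι → M →ₗ[E] E) (hℓ : ∀ x : M, (∀ i, ℓ i x = 0) → x = 0)
    (V : Submodule E M) [FiniteDimensional E V] :
    ∃ P : Finset ι, Function.Bijective (pivotMap ℓ V P) := by
  obtain ⟨P, hcard, hP⟩ := exists_finset_card_le ℓ hℓ (finrank E V) V inferInstance le_rfl
  refine ⟨P, ?_⟩
  have hinj : Function.Injective (pivotMap ℓ V P) := by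
    rw [injective_iff_map_eq_zero]
    intro v hv
    apply Subtype.ext
    apply hP v v.2
    intro p hp
    have := congrFun hv ⟨p, hp⟩
    simpa using this
  have hle : finrank E V ≤ finrank E (P → E) := LinearMap.finrank_le_finrank_of_injective hinj
  have hcard' : finrank E (P → E) = P.card := by simp
  have heq : finrank E V = finrank E (P → E) := by omega
  exact ⟨hinj, (LinearMap.injective_iff_surjective_of_finrank_eq_finrank heq).mp hinj⟩

end Pivots

section Laurent

variable {E : Type*} [Field E]

/-- The `n`-th coefficient as a linear functional on `E((q))`. -/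
def coeffFun (n : ℤ) : LaurentSeries E →ₗ[E] E where
  toFun x := x.coeff n
  map_add' x y := by simp
  map_smul' c x := by simp

@[simp]
theorem coeffFun_apply (n : ℤ) (x : LaurentSeries E) : coeffFun n x = x.coeff n := rfl

theorem coeffFun_separating (x : LaurentSeries E) (h : ∀ n, coeffFun n x = 0) : x = 0 := by
  ext n
  simpa using h n

theorem coeffMap_smul (φ : E →+* E) (c : E) (x : LaurentSeries E) :
    coeffMap φ (c • x) = φ c • coeffMap φ x := by
  ext n
  simp

/-- An element of `V` whose pivot coefficients are fixed by `φ` is fixed by `coeffMap φ`. -/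
theorem coeffMap_eq_self_of_pivots (V : Submodule E (LaurentSeries E)) (P : Finset ℤ)
    (hP : Function.Injective (pivotMap coeffFun V P))
    (φ : E →+* E) (hφ : ∀ x ∈ V, coeffMap φ x ∈ V) (x : LaurentSeries E) (hx : x ∈ V)
    (hfix : ∀ p ∈ P, φ (x.coeff p) = x.coeff p) : coeffMap φ x = x := by
  have h : (⟨coeffMap φ x, hφ x hx⟩ : V) = ⟨x, hx⟩ := by
    apply hP
    funext p
    simp [hfix p p.2]
  exact congrArg Subtype.val h

/-- **Reduced echelon basis.** A finite-dimensional subspace of `E((q))` stable under a set `S` of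
coefficientwise maps has a basis of vectors fixed by all of `S`. -/
theorem exists_basis_fixed (V : Submodule E (LaurentSeries E)) [FiniteDimensional E V]
    (S : Set (E →+* E)) (hS : ∀ φ ∈ S, ∀ x ∈ V, coeffMap φ x ∈ V) :
    ∃ b : Basis (Fin (finrank E V)) E V,
      ∀ i, ∀ φ ∈ S, coeffMap φ (b i : LaurentSeries E) = (b i : LaurentSeries E) := by
  classical
  obtain ⟨P, hbij⟩ := exists_pivots (coeffFun (E := E)) coeffFun_separating V
  let e : V ≃ₗ[E] (P → E) := LinearEquiv.ofBijective (pivotMap coeffFun V P) hbij
  let b₀ : Basis P E V := (Pi.basisFun E P).map e.symm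
  have hfix : ∀ p : P, ∀ φ ∈ S, coeffMap φ (b₀ p : LaurentSeries E) = (b₀ p : LaurentSeries E) := by
    intro p φ hφ
    refine coeffMap_eq_self_of_pivots V P hbij.1 φ (hS φ hφ) _ (b₀ p).2 fun q hq => ?_
    have h1 : (b₀ p : LaurentSeries E).coeff q = e (b₀ p) ⟨q, hq⟩ := rfl
    have h2 : e (b₀ p) = Pi.single p (1 : E) := by
      simp [b₀]
    rw [h1, h2]
    by_cases hpq : (⟨q, hq⟩ : P) = p
    · rw [hpq]; simp
    · rw [Pi.single_eq_of_ne hpq]; simp
  have hcard : Fintype.card P = finrank E V := by
    rw [Module.finrank_eq_card_basis b₀]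
  let eqv : P ≃ Fin (finrank E V) := Fintype.equivFinOfCardEq hcard
  refine ⟨b₀.reindex eqv, fun i φ hφ => ?_⟩
  rw [Basis.reindex_apply]
  exact hfix _ φ hφ

/-- A stable finite-dimensional subspace of `E((q))` is spanned by its fixed vectors. -/
theorem span_fixed_eq (V : Submodule E (LaurentSeries E)) [FiniteDimensional E V]
    (S : Set (E →+* E)) (hS : ∀ φ ∈ S, ∀ x ∈ V, coeffMap φ x ∈ V) :
    Submodule.span E {x : LaurentSeries E | x ∈ V ∧ ∀ φ ∈ S, coeffMap φ x = x} = V := by
  obtain ⟨b, hb⟩ := exists_basis_fixed V S hS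
  apply le_antisymm
  · exact Submodule.span_le.mpr fun x hx => hx.1
  · intro x hx
    have hx' : (⟨x, hx⟩ : V) ∈ Submodule.span E (Set.range b) := by
      rw [b.span_eq]; exact Submodule.mem_top
    have hmap : x ∈ Submodule.map V.subtype (Submodule.span E (Set.range b)) :=
      ⟨⟨x, hx⟩, hx', rfl⟩
    rw [Submodule.map_span] at hmap
    refine Submodule.span_mono ?_ hmap
    rintro _ ⟨_, ⟨i, rfl⟩, rfl⟩
    exact ⟨(b i).2, hb i⟩

/-- **Rational moving lemma, linear-algebra core.** In characteristic `0`, a stable
finite-dimensional subspace `V ⊆ E((q))` contains a vector fixed by all of `S` and lying in none of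
finitely many subspaces `U` with `¬ V ≤ U`. -/
theorem exists_fixed_notMem [CharZero E] (V : Submodule E (LaurentSeries E)) [FiniteDimensional E V]
    (S : Set (E →+* E)) (hS : ∀ φ ∈ S, ∀ x ∈ V, coeffMap φ x ∈ V)
    (W : Finset (Submodule E (LaurentSeries E))) (hW : ∀ U ∈ W, ¬ V ≤ U) :
    ∃ w ∈ V, (∀ φ ∈ S, coeffMap φ w = w) ∧ ∀ U ∈ W, w ∉ U := by
  classical
  obtain ⟨b, hb⟩ := exists_basis_fixed V S hS
  -- the candidate vectors
  let w : ℕ → V := fun t => ∑ i : Fin (finrank E V), ((t : E) ^ (i : ℕ)) • b i
  have hwfix : ∀ t, ∀ φ ∈ S, coeffMap φ (w t : LaurentSeries E) = (w t : LaurentSeries E) := by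
    intro t φ hφ
    simp only [w, Submodule.coe_sum, Submodule.coe_smul, map_sum, coeffMap_smul, map_pow,
      map_natCast, hb _ φ hφ]
  -- for each bad subspace a functional on `V` killing `U ∩ V`
  have hfun : ∀ U ∈ W, ∃ f : V →ₗ[E] E, f ≠ 0 ∧ Submodule.comap V.subtype U ≤ LinearMap.ker f := by
    intro U hU
    have hlt : Submodule.comap V.subtype U < ⊤ := by
      rw [lt_top_iff_ne_top]
      intro htop
      apply hW U hU
      intro x hx
      have : (⟨x, hx⟩ : V) ∈ Submodule.comap V.subtype U := htop ▸ Submodule.mem_top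
      exact this
    exact Submodule.exists_le_ker_of_lt_top _ hlt
  choose! f hf0 hfker using hfun
  -- polynomials
  let pol : Submodule E (LaurentSeries E) → Polynomial E := fun U =>
    ∑ i : Fin (finrank E V), Polynomial.C (f U (b i)) * Polynomial.X ^ (i : ℕ)
  have hpol0 : ∀ U ∈ W, pol U ≠ 0 := by
    intro U hU h0
    apply hf0 U hU
    apply b.ext
    intro i
    have hc : (pol U).coeff (i : ℕ) = f U (b i) := by
      simp only [pol, Polynomial.finsetSum_coeff, Polynomial.coeff_C_mul, Polynomial.coeff_X_pow]
      rw [Finset.sum_eq_single i]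
      · simp
      · intro j _ hj
        have : (i : ℕ) ≠ (j : ℕ) := fun h => hj (Fin.ext h.symm)
        simp [this]
      · intro h; exact absurd (Finset.mem_univ i) h
    rw [LinearMap.zero_apply, ← hc, h0, Polynomial.coeff_zero]
  have hprod : (∏ U ∈ W, pol U) ≠ 0 := Finset.prod_ne_zero_iff.mpr hpol0
  have hex : ∃ t : ℕ, ¬ Polynomial.IsRoot (∏ U ∈ W, pol U) (t : E) := by
    by_contra hall
    have hall : ∀ t : ℕ, Polynomial.IsRoot (∏ U ∈ W, pol U) (t : E) :=
      fun t => not_not.mp fun ht => hall ⟨t, ht⟩
    apply hprod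
    apply Polynomial.eq_zero_of_infinite_isRoot
    refine Set.Infinite.mono ?_ (Set.infinite_range_of_injective (Nat.cast_injective (R := E)))
    rintro _ ⟨t, rfl⟩
    exact hall t
  obtain ⟨t, ht⟩ := hex
  refine ⟨w t, (w t).2, hwfix t, fun U hU hmem => ht ?_⟩
  have hval : Polynomial.eval (t : E) (pol U) = f U (w t) := by
    simp only [pol, w, Polynomial.eval_finsetSum, Polynomial.eval_mul, Polynomial.eval_C,
      Polynomial.eval_pow, Polynomial.eval_X, map_sum, map_smul, smul_eq_mul]
    exact Finset.sum_congr rfl fun i _ => mul_comm _ _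
  have hz : f U (w t) = 0 := hfker U hU (show w t ∈ Submodule.comap V.subtype U from hmem)
  rw [Polynomial.IsRoot, Polynomial.eval_prod]
  exact Finset.prod_eq_zero hU (hval.trans hz)

/-- **Normalisation instead of Hilbert 90.** If `coeffMap φ f = c • f` (e.g. `φ` preserves the
divisor of `f`), then the scalar multiple of `f` with leading coefficient `1` is fixed. -/
theorem coeffMap_leadingCoeff_inv_smul (φ : E →+* E) (f : LaurentSeries E) (c : E)
    (h : coeffMap φ f = c • f) :
    coeffMap φ (f.leadingCoeff⁻¹ • f) = f.leadingCoeff⁻¹ • f := by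
  rcases eq_or_ne f 0 with rfl | hf
  · simp
  have hlc : f.leadingCoeff ≠ 0 := HahnSeries.leadingCoeff_ne_zero.mpr hf
  have hc : φ f.leadingCoeff = c * f.leadingCoeff := by
    have := congrArg (fun x : LaurentSeries E => x.coeff f.order) h
    simpa [HahnSeries.leadingCoeff_eq] using this
  rw [coeffMap_smul, h, smul_smul, map_inv₀, hc]
  congr 1
  have hc0 : c ≠ 0 := by
    rintro rfl
    rw [zero_mul] at hc
    exact hlc ((map_eq_zero φ).mp hc)
  field_simp

/-- Scaling by a nonzero constant does not change the order. -/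
theorem order_smul_of_ne_zero (c : E) (hc : c ≠ 0) (f : LaurentSeries E) :
    (c • f).order = f.order := by
  rcases eq_or_ne f 0 with rfl | hf
  · simp
  have hne : c • f ≠ 0 := smul_ne_zero hc hf
  apply le_antisymm
  · apply HahnSeries.order_le_of_coeff_ne_zero
    simp only [HahnSeries.coeff_smul, smul_eq_mul]
    exact mul_ne_zero hc (fun h => hf (HahnSeries.coeff_order_eq_zero.mp h))
  · apply HahnSeries.order_le_of_coeff_ne_zero
    intro h0
    apply hne
    apply HahnSeries.coeff_order_eq_zero.mp
    simp only [HahnSeries.coeff_smul, smul_eq_mul, h0, mul_zero]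

/-- The normalised function has leading coefficient `1`. -/
theorem leadingCoeff_inv_smul_leadingCoeff (f : LaurentSeries E) (hf : f ≠ 0) :
    (f.leadingCoeff⁻¹ • f).leadingCoeff = 1 := by
  have hlc : f.leadingCoeff ≠ 0 := HahnSeries.leadingCoeff_ne_zero.mpr hf
  rw [HahnSeries.leadingCoeff_eq, order_smul_of_ne_zero _ (inv_ne_zero hlc), HahnSeries.coeff_smul,
    smul_eq_mul, ← HahnSeries.leadingCoeff_eq, inv_mul_cancel₀ hlc]

end Laurent

section IntermediateField

variable {E : Type*} [Field E]

/-- The two `E`-module structures on `E((q))` (coefficientwise, and via the algebra structure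
through power series) agree. -/
theorem algebraMap_mul_eq_smul (c : E) (x : LaurentSeries E) :
    algebraMap E (LaurentSeries E) c * x = c • x := by
  rw [ModularCurve.algebraMap_laurentSeries_eq_single, HahnSeries.single_zero_mul_eq_smul]

/-- Scalar multiplication in an intermediate field of `E((q))` is coefficientwise. -/
theorem coe_smul_intermediateField (F : IntermediateField E (LaurentSeries E)) (c : E) (x : F) :
    ((c • x : F) : LaurentSeries E) = c • (x : LaurentSeries E) := by
  rw [Algebra.smul_def, ← algebraMap_mul_eq_smul]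
  rfl

/-- The inclusion of an intermediate field of `E((q))`, linear for the coefficientwise module
structure on `E((q))`. -/
def inclLinear (F : IntermediateField E (LaurentSeries E)) : F →ₗ[E] LaurentSeries E where
  toFun x := (x : LaurentSeries E)
  map_add' _ _ := rfl
  map_smul' c x := coe_smul_intermediateField F c x

@[simp]
theorem inclLinear_apply (F : IntermediateField E (LaurentSeries E)) (x : F) :
    inclLinear F x = (x : LaurentSeries E) := rfl

theorem inclLinear_injective (F : IntermediateField E (LaurentSeries E)) :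
    Function.Injective (inclLinear F) := Subtype.val_injective

/-- Version of `exists_fixed_notMem` for subspaces of an intermediate field `F ⊆ E((q))`
(e.g. Riemann–Roch spaces inside a function field given by `q`-expansions). -/
theorem exists_fixed_notMem_intermediateField [CharZero E]
    (F : IntermediateField E (LaurentSeries E)) (V : Submodule E F) [FiniteDimensional E V]
    (S : Set (E →+* E))
    (hS : ∀ φ ∈ S, ∀ x ∈ V, ∃ y ∈ V, (y : LaurentSeries E) = coeffMap φ (x : LaurentSeries E))
    (W : Finset (Submodule E F)) (hW : ∀ U ∈ W, ¬ V ≤ U) :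
    ∃ w ∈ V, (∀ φ ∈ S, coeffMap φ (w : LaurentSeries E) = (w : LaurentSeries E)) ∧
      ∀ U ∈ W, w ∉ U := by
  classical
  let ι : F →ₗ[E] LaurentSeries E := inclLinear F
  have hι : Function.Injective ι := inclLinear_injective F
  have hS' : ∀ φ ∈ S, ∀ x ∈ V.map ι, coeffMap φ x ∈ V.map ι := by
    rintro φ hφ _ ⟨x, hx, rfl⟩
    obtain ⟨y, hy, hyx⟩ := hS φ hφ x hx
    exact ⟨y, hy, hyx⟩
  have hW' : ∀ U' ∈ W.image (Submodule.map ι), ¬ V.map ι ≤ U' := by
    intro U' hU' hle
    obtain ⟨U, hU, rfl⟩ := Finset.mem_image.mp hU'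
    exact hW U hU ((Submodule.map_le_map_iff_of_injective hι V U).mp hle)
  obtain ⟨w', ⟨w, hw, rfl⟩, hfix, hnot⟩ := exists_fixed_notMem (V.map ι) S hS' _ hW'
  refine ⟨w, hw, hfix, fun U hU hwU => ?_⟩
  exact hnot (U.map ι) (Finset.mem_image_of_mem _ hU) ⟨w, hwU, rfl⟩

/-- Version of `exists_basis_fixed` for subspaces of an intermediate field `F ⊆ E((q))`. -/
theorem exists_basis_fixed_intermediateField
    (F : IntermediateField E (LaurentSeries E)) (V : Submodule E F) [FiniteDimensional E V]
    (S : Set (E →+* E))
    (hS : ∀ φ ∈ S, ∀ x ∈ V, ∃ y ∈ V, (y : LaurentSeries E) = coeffMap φ (x : LaurentSeries E)) :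
    ∃ b : Basis (Fin (finrank E V)) E V,
      ∀ i, ∀ φ ∈ S, coeffMap φ ((b i : F) : LaurentSeries E) = ((b i : F) : LaurentSeries E) := by
  classical
  let ι : F →ₗ[E] LaurentSeries E := inclLinear F
  have hι : Function.Injective ι := inclLinear_injective F
  have hS' : ∀ φ ∈ S, ∀ x ∈ V.map ι, coeffMap φ x ∈ V.map ι := by
    rintro φ hφ _ ⟨x, hx, rfl⟩
    obtain ⟨y, hy, hyx⟩ := hS φ hφ x hx
    exact ⟨y, hy, hyx⟩
  let e : V ≃ₗ[E] V.map ι := Submodule.equivMapOfInjective ι hι V
  have hrank : finrank E (V.map ι) = finrank E V := e.finrank_eq.symm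
  obtain ⟨b', hb'⟩ := exists_basis_fixed (V.map ι) S hS'
  refine ⟨(b'.map e.symm).reindex (finCongr hrank), fun i φ hφ => ?_⟩
  have key : ∀ j, (((b'.map e.symm) j : V) : F) = (⟨(b' j : LaurentSeries E), by
      obtain ⟨x, _, hx⟩ := (b' j).2
      rw [← hx]; exact x.2⟩ : F) := by
    intro j
    apply Subtype.ext
    have h1 : e ((b'.map e.symm) j) = b' j := by simp
    have h2 : ((e ((b'.map e.symm) j) : V.map ι) : LaurentSeries E)
        = ι (((b'.map e.symm) j : V) : F) := rfl
    rw [h1] at h2
    exact h2.symm
  rw [Basis.reindex_apply, key]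
  exact hb' _ φ hφ

end IntermediateField

section Arithmetic

variable {L : Type*} [Field L] [Algebra ℚ L] (F₀ : IntermediateField ℚ (LaurentSeries ℚ))

/-- **Rational moving lemma, linear-algebra core, for the Prelude's arithmetic Galois action.**
A finite-dimensional subspace of `laurentBaseChange L F₀` stable under a set `H` of Galois
automorphisms contains a vector fixed by all of `H` and lying in none of finitely many subspaces
not containing it. -/
theorem exists_galois_fixed_notMem [CharZero L] (H : Set (L ≃ₐ[ℚ] L))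
    (V : Submodule L (laurentBaseChange L F₀)) [FiniteDimensional L V]
    (hV : ∀ σ ∈ H, ∀ x ∈ V, arithmeticGalois F₀ σ • x ∈ V)
    (W : Finset (Submodule L (laurentBaseChange L F₀))) (hW : ∀ U ∈ W, ¬ V ≤ U) :
    ∃ w ∈ V, (∀ σ ∈ H, arithmeticGalois F₀ σ • w = w) ∧ ∀ U ∈ W, w ∉ U := by
  obtain ⟨w, hw, hfix, hnot⟩ := exists_fixed_notMem_intermediateField (laurentBaseChange L F₀) V
    ((fun σ : L ≃ₐ[ℚ] L => (σ : L →+* L)) '' H)
    (by
      rintro _ ⟨σ, hσ, rfl⟩ x hx
      exact ⟨arithmeticGalois F₀ σ • x, hV σ hσ x hx, rfl⟩) W hW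
  refine ⟨w, hw, fun σ hσ => ?_, hnot⟩
  apply Subtype.ext
  rw [coe_arithmeticGalois_smul]
  exact hfix _ ⟨σ, hσ, rfl⟩

/-- A stable finite-dimensional subspace of `laurentBaseChange L F₀` has a basis of Galois-fixed
vectors. -/
theorem exists_galois_fixed_basis (H : Set (L ≃ₐ[ℚ] L))
    (V : Submodule L (laurentBaseChange L F₀)) [FiniteDimensional L V]
    (hV : ∀ σ ∈ H, ∀ x ∈ V, arithmeticGalois F₀ σ • x ∈ V) :
    ∃ b : Basis (Fin (finrank L V)) L V,
      ∀ i, ∀ σ ∈ H, arithmeticGalois F₀ σ • (b i : laurentBaseChange L F₀) = b i := by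
  obtain ⟨b, hb⟩ := exists_basis_fixed_intermediateField (laurentBaseChange L F₀) V
    ((fun σ : L ≃ₐ[ℚ] L => (σ : L →+* L)) '' H)
    (by
      rintro _ ⟨σ, hσ, rfl⟩ x hx
      exact ⟨arithmeticGalois F₀ σ • x, hV σ hσ x hx, rfl⟩)
  refine ⟨b, fun i σ hσ => ?_⟩
  apply Subtype.ext
  rw [coe_arithmeticGalois_smul]
  exact hb i _ ⟨σ, hσ, rfl⟩

/-- **Normalisation instead of Hilbert 90, arithmetic form.** If `σ • f = c • f` for a constant
`c`, then `f / leadingCoeff f` is fixed by `σ`. -/
theorem galois_smul_normalize (σ : L ≃ₐ[ℚ] L) (f : laurentBaseChange L F₀) (c : L)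
    (h : arithmeticGalois F₀ σ • f = c • f) :
    arithmeticGalois F₀ σ • ((f : LaurentSeries L).leadingCoeff⁻¹ • f)
      = (f : LaurentSeries L).leadingCoeff⁻¹ • f := by
  apply Subtype.ext
  rw [coe_arithmeticGalois_smul]
  have h' : coeffMap (σ : L →+* L) (f : LaurentSeries L) = c • (f : LaurentSeries L) := by
    have := congrArg (Subtype.val) h
    rw [coe_arithmeticGalois_smul, coe_smul_intermediateField] at this
    exact this
  rw [coe_smul_intermediateField]
  exact coeffMap_leadingCoeff_inv_smul (σ : L →+* L) (f : LaurentSeries L) c h'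

/-- A Galois-fixed element has all its coefficients fixed (and conversely). -/
theorem galois_smul_eq_self_iff (σ : L ≃ₐ[ℚ] L) (f : laurentBaseChange L F₀) :
    arithmeticGalois F₀ σ • f = f ↔ ∀ n : ℤ, σ ((f : LaurentSeries L).coeff n)
      = (f : LaurentSeries L).coeff n := by
  constructor
  · intro h n
    have := congrArg (fun x : laurentBaseChange L F₀ => (x : LaurentSeries L).coeff n) h
    simpa [coe_arithmeticGalois_smul] using this
  · intro h
    apply Subtype.ext
    rw [coe_arithmeticGalois_smul]
    ext n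
    simpa using h n

end Arithmetic

end Fermat.Agent.S17.WA.H7618
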