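import Mathlib
import Fermat.Prelude.Def_ModularCurve_ArithmeticGalois
import Fermat.Prelude.Def_AlgebraicCurve_IsCurveOver

/-!
# S17 / WA (helper396): the place `q = 0` of `laurentBaseChange L F₀`, self-contained

`qRing L F₀` = functions whose Laurent expansion is a power series; `qPlace L F₀` the corresponding
`Place` (for a curve), and `arithmeticGalois_smul_qPlace` : it is fixed by the arithmetic Galois
action.  (Private copy for leaf WA1 so that it does not depend on the BR skeleton; Mathlib and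
Prelude only.)
-/

set_option autoImplicit false

open ModularCurve AlgebraicCurve

open scoped Pointwise

namespace Fermat.Agent.S17.WA.H396

variable (L : Type*) [Field L] [Algebra ℚ L] (F₀ : IntermediateField ℚ (LaurentSeries ℚ))

/-- The `q`-adic valuation of `L((q))` restricted to `laurentBaseChange L F₀`. -/
noncomputable def qVal : Valuation ↥(laurentBaseChange L F₀) (WithZero (Multiplicative ℤ)) :=
  (Valued.v : Valuation (LaurentSeries L) (WithZero (Multiplicative ℤ))).comap
    (algebraMap ↥(laurentBaseChange L F₀) (LaurentSeries L))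

theorem qVal_le_exp_iff (f : ↥(laurentBaseChange L F₀)) (D : ℤ) :
    qVal L F₀ f ≤ WithZero.exp (-D) ↔
      ∀ n : ℤ, n < D → (f : LaurentSeries L).coeff n = 0 :=
  LaurentSeries.valuation_le_iff_coeff_lt_eq_zero L (D := D) (f := (f : LaurentSeries L))

theorem qVal_le_one_iff (f : ↥(laurentBaseChange L F₀)) :
    qVal L F₀ f ≤ 1 ↔ ∀ n : ℤ, n < 0 → (f : LaurentSeries L).coeff n = 0 := by
  have h := qVal_le_exp_iff L F₀ f 0
  rwa [neg_zero, WithZero.exp_zero] at h

/-- The valuation subring of functions that are power series in `q`. -/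
noncomputable def qRing : ValuationSubring ↥(laurentBaseChange L F₀) :=
  (qVal L F₀).valuationSubring

theorem mem_qRing_iff (f : ↥(laurentBaseChange L F₀)) :
    f ∈ qRing L F₀ ↔ ∀ n : ℤ, n < 0 → (f : LaurentSeries L).coeff n = 0 := by
  rw [← qVal_le_one_iff]
  exact Valuation.mem_valuationSubring_iff _ _

theorem mem_qRing_iff_qVal (f : ↥(laurentBaseChange L F₀)) :
    f ∈ qRing L F₀ ↔ qVal L F₀ f ≤ 1 :=
  Valuation.mem_valuationSubring_iff _ _

theorem coe_algebraMap_laurentBaseChange (a : L) :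
    ((algebraMap L ↥(laurentBaseChange L F₀) a : ↥(laurentBaseChange L F₀)) : LaurentSeries L)
      = HahnSeries.single 0 a := by
  rw [← algebraMap_laurentSeries_eq_single]
  rfl

theorem algebraMap_mem_qRing (a : L) :
    algebraMap L ↥(laurentBaseChange L F₀) a ∈ qRing L F₀ := by
  rw [mem_qRing_iff]
  intro n hn
  rw [coe_algebraMap_laurentBaseChange, HahnSeries.coeff_single_of_ne hn.ne]

/-- A curve has a function with a pole at `q = 0`. -/
theorem qRing_ne_top [IsCurveOver L ↥(laurentBaseChange L F₀)] : qRing L F₀ ≠ ⊤ := by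
  intro htop
  have hall : ∀ f : ↥(laurentBaseChange L F₀), qVal L F₀ f ≤ 1 := fun f =>
    (mem_qRing_iff_qVal L F₀ f).mp (htop ▸ ValuationSubring.mem_top f)
  have hsurj : Function.Surjective (algebraMap L ↥(laurentBaseChange L F₀)) := by
    intro f
    refine ⟨(f : LaurentSeries L).coeff 0, ?_⟩
    by_contra hne
    set g : ↥(laurentBaseChange L F₀) :=
      f - algebraMap L ↥(laurentBaseChange L F₀) ((f : LaurentSeries L).coeff 0) with hg
    have hg0 : g ≠ 0 := by
      intro h
      apply hne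
      rw [hg, sub_eq_zero] at h
      exact h.symm
    have hle : qVal L F₀ g ≤ WithZero.exp (-1 : ℤ) := by
      rw [qVal_le_exp_iff]
      intro n hn
      have hcoe : (g : LaurentSeries L) = (f : LaurentSeries L)
          - HahnSeries.single 0 ((f : LaurentSeries L).coeff 0) := by
        rw [hg, AddSubgroupClass.coe_sub, coe_algebraMap_laurentBaseChange]
      rw [hcoe, HahnSeries.coeff_sub]
      have hn' : n ≤ 0 := by omega
      rcases lt_or_eq_of_le hn' with h | h
      · rw [HahnSeries.coeff_single_of_ne h.ne, sub_zero]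
        exact (qVal_le_one_iff L F₀ f).mp (hall f) n h
      · rw [h, HahnSeries.coeff_single_same, sub_self]
    have hinv := hall g⁻¹
    have h1 : qVal L F₀ g * qVal L F₀ g⁻¹ = 1 := by
      rw [← map_mul, mul_inv_cancel₀ hg0, map_one]
    have h2 : qVal L F₀ g * qVal L F₀ g⁻¹ ≤ WithZero.exp (-1 : ℤ) * 1 := mul_le_mul' hle hinv
    rw [h1, mul_one, ← WithZero.exp_zero, WithZero.exp_le_exp] at h2
    omega
  have hsub := KaehlerDifferential.subsingleton_of_surjective L ↥(laurentBaseChange L F₀) hsurj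
  exact (not_subsingleton_iff_nontrivial.mpr
    (IsCurveOver.instNontrivialKaehler (K := L) (F := ↥(laurentBaseChange L F₀)))) hsub

theorem qRing_isPrincipalIdealRing : IsPrincipalIdealRing (qRing L F₀) := by
  classical
  refine ⟨fun I => ?_⟩
  by_cases hI : I = ⊥
  · rw [hI]
    exact bot_isPrincipal
  obtain ⟨a0, ha0I, ha00⟩ := Submodule.exists_mem_ne_zero_of_ne_bot hI
  let N : (qRing L F₀) → ℕ := fun a =>
    (-(WithZero.log (qVal L F₀ (a : ↥(laurentBaseChange L F₀))))).toNat
  let S : Set ℕ := N '' {a | a ∈ I ∧ a ≠ 0}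
  have hS : S.Nonempty := ⟨N a0, a0, ⟨ha0I, ha00⟩, rfl⟩
  obtain ⟨a, ⟨haI, ha0⟩, hamin⟩ :
      ∃ a, (a ∈ I ∧ a ≠ 0) ∧ ∀ b, b ∈ I → b ≠ 0 → N a ≤ N b := by
    obtain ⟨a, ha, haN⟩ := Nat.sInf_mem hS
    exact ⟨a, ha, fun b hb hb0 => by
      rw [haN]; exact Nat.sInf_le ⟨b, ⟨hb, hb0⟩, rfl⟩⟩
  -- facts on valuations of nonzero elements of the ring
  have hval : ∀ c : qRing L F₀, c ≠ 0 →
      qVal L F₀ (c : ↥(laurentBaseChange L F₀)) ≠ 0 ∧
      WithZero.log (qVal L F₀ (c : ↥(laurentBaseChange L F₀))) ≤ 0 := by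
    intro c hc
    have hc0 : (c : ↥(laurentBaseChange L F₀)) ≠ 0 := fun h => hc (Subtype.ext h)
    have hv0 : qVal L F₀ (c : ↥(laurentBaseChange L F₀)) ≠ 0 := (Valuation.ne_zero_iff _).mpr hc0
    refine ⟨hv0, ?_⟩
    have h1 : qVal L F₀ (c : ↥(laurentBaseChange L F₀)) ≤ 1 := (mem_qRing_iff_qVal L F₀ _).mp c.2
    rw [← WithZero.exp_log hv0, ← WithZero.exp_zero, WithZero.exp_le_exp] at h1
    exact h1
  have haF : (a : ↥(laurentBaseChange L F₀)) ≠ 0 := fun h => ha0 (Subtype.ext h)
  obtain ⟨hva0, hla⟩ := hval a ha0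
  refine ⟨⟨a, le_antisymm ?_ ?_⟩⟩
  · intro b hb
    rw [Submodule.mem_span_singleton]
    by_cases hb0 : b = 0
    · exact ⟨0, by simp [hb0]⟩
    obtain ⟨hvb0, hlb⟩ := hval b hb0
    have hN : N a ≤ N b := hamin b hb hb0
    have hle : qVal L F₀ (b : ↥(laurentBaseChange L F₀)) ≤ qVal L F₀ (a : ↥(laurentBaseChange L F₀)) := by
      rw [← WithZero.exp_log hvb0, ← WithZero.exp_log hva0, WithZero.exp_le_exp]
      have : (-(WithZero.log (qVal L F₀ (a : ↥(laurentBaseChange L F₀))))).toNat
          ≤ (-(WithZero.log (qVal L F₀ (b : ↥(laurentBaseChange L F₀))))).toNat := hN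
      omega
    have hmem : (b : ↥(laurentBaseChange L F₀)) * (a : ↥(laurentBaseChange L F₀))⁻¹ ∈ qRing L F₀ := by
      rw [mem_qRing_iff_qVal, map_mul, map_inv₀]
      calc qVal L F₀ (b : ↥(laurentBaseChange L F₀)) * (qVal L F₀ (a : ↥(laurentBaseChange L F₀)))⁻¹
          ≤ qVal L F₀ (a : ↥(laurentBaseChange L F₀)) * (qVal L F₀ (a : ↥(laurentBaseChange L F₀)))⁻¹ :=
            mul_le_mul' hle le_rfl
        _ = 1 := mul_inv_cancel₀ hva0
    refine ⟨⟨_, hmem⟩, Subtype.ext ?_⟩
    show (b : ↥(laurentBaseChange L F₀)) * (a : ↥(laurentBaseChange L F₀))⁻¹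
      * (a : ↥(laurentBaseChange L F₀)) = b
    rw [inv_mul_cancel_right₀ haF]
  · rw [Submodule.span_singleton_le_iff_mem]
    exact haI

/-- The place `q = 0` of a curve `laurentBaseChange L F₀`. -/
noncomputable def qPlace [IsCurveOver L ↥(laurentBaseChange L F₀)] :
    Place L ↥(laurentBaseChange L F₀) where
  toValuationSubring := qRing L F₀
  algebraMap_mem' := algebraMap_mem_qRing L F₀
  ne_top' := qRing_ne_top L F₀
  isPrincipalIdealRing' := qRing_isPrincipalIdealRing L F₀

/-- The place `q = 0` is fixed by the arithmetic Galois action. -/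
theorem arithmeticGalois_smul_qPlace [IsCurveOver L ↥(laurentBaseChange L F₀)]
    (σ : L ≃ₐ[ℚ] L) : arithmeticGalois F₀ σ • qPlace L F₀ = qPlace L F₀ := by
  apply Place.ext
  rw [SemilinearAut.smul_toValuationSubring]
  show arithmeticGalois F₀ σ • qRing L F₀ = qRing L F₀
  ext x
  rw [ValuationSubring.mem_pointwise_smul_iff_inv_smul_mem, mem_qRing_iff, mem_qRing_iff,
    ← map_inv]
  have hcoe : ∀ n : ℤ, ((arithmeticGalois F₀ σ⁻¹ • x : ↥(laurentBaseChange L F₀)) :
      LaurentSeries L).coeff n = σ⁻¹ ((x : LaurentSeries L).coeff n) := fun n => by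
    rw [coe_arithmeticGalois_smul, coeffMap_coeff]
    rfl
  constructor
  · intro h n hn
    have := h n hn
    rw [hcoe] at this
    exact (map_eq_zero_iff _ (σ⁻¹).injective).mp this
  · intro h n hn
    rw [hcoe, h n hn, map_zero]

end Fermat.Agent.S17.WA.H396
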