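import Mathlib
import Fermat.Prelude.Def_AlgebraicCurve_IsCurveOver
import Fermat.Prelude.Def_AlgebraicCurve_Repartitions
import Fermat.Prelude.Def_AlgebraicCurve_BaseChangeGalois

/-!
# S17 / WA : W1, canonical effective representatives and stable divisors (helper396)

For a function field `F` over an algebraically closed field `K` (`IsCurveOver K F`), a place `P0`
and the Riemann hypothesis `hR : ∀ D, ∃ n, L(D + n P0) ≠ 0`, every class `c : Pic0 K F` has a
canonical representative `Z_c - n_c P0` with `Z_c` effective of degree `n_c`, `Z_c` being the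
unique effective divisor in its linear equivalence class.  Consequently every semilinear
automorphism fixing `P0` and `c` fixes the divisor `Z_c - n_c P0`.

Main statements:
* `exists_sub_smul_mem` : jump lemma, `L(D + P) / L(D)` is at most one-dimensional.
* `riemannRochSpace_eq_bot_of_degree_neg`.
* `exists_canonical_rep`, `exists_stable_divisor`.
-/

set_option autoImplicit false

namespace Fermat.Agent.S17.WA.H396

open AlgebraicCurve

variable {K F : Type*} [Field K] [Field F] [Algebra K F]

/-! ### Basic facts on places -/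

theorem place_mem_of_ord_nonneg (v : Place K F) {f : F} (h : 0 ≤ v.ord f) :
    f ∈ v.toValuationSubring := by
  rcases eq_or_ne f 0 with rfl | hf
  · exact zero_mem _
  obtain ⟨π, hπ⟩ := IsDiscreteValuationRing.exists_irreducible v.toValuationSubring
  obtain ⟨u, hu⟩ := v.exists_unit_mul_zpow hf hπ
  rw [hu]
  obtain ⟨n, hn⟩ := Int.eq_ofNat_of_zero_le h
  rw [hn, zpow_natCast]
  exact mul_mem (u : v.toValuationSubring).2 (pow_mem π.2 n)

theorem place_ord_nonneg_of_mem (v : Place K F) {f : F} (h : f ∈ v.toValuationSubring) :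
    0 ≤ v.ord f := by
  rcases eq_or_ne f 0 with rfl | hf
  · simp
  have := (v.adicValuation_le_one_iff (f := f)).mp (v.adicValuation_le_one_of_mem h)
  tauto

theorem place_ord_algebraMap (v : Place K F) (c : K) : v.ord (algebraMap K F c) = 0 := by
  rcases eq_or_ne c 0 with rfl | hc
  · simp
  have h1 := place_ord_nonneg_of_mem v (v.algebraMap_mem' c)
  have h2 := place_ord_nonneg_of_mem v (v.algebraMap_mem' c⁻¹)
  rw [map_inv₀, v.ord_inv] at h2
  omega

/-- A nonzero non-unit of the valuation ring has order at least one. -/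
theorem place_one_le_ord_of_not_isUnit (v : Place K F) (a : v.toValuationSubring)
    (ha0 : a ≠ 0) (ha : ¬ IsUnit a) : 1 ≤ v.ord (a : F) := by
  have haF : (a : F) ≠ 0 := fun h => ha0 (Subtype.ext h)
  have h1 : v.adicValuation (a : F) ≤ 1 := v.adicValuation_le_one_of_mem a.2
  have h2 : v.adicValuation (a : F) ≠ 1 := fun h => ha ((v.adicValuation_coe_eq_one_iff a).mp h)
  have h3 : v.adicValuation (a : F) < 1 := lt_of_le_of_ne h1 h2
  rw [v.adicValuation_eq_exp_neg_ord haF, ← WithZero.exp_zero, WithZero.exp_lt_exp] at h3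
  omega

/-! ### Degree of effective divisors -/

theorem degree_nonneg_of_nonneg {Z : Divisor K F} (h : ∀ v, 0 ≤ Z v) :
    0 ≤ Divisor.degree Z := by
  have : Divisor.degree Z = Z.sum fun v n => n * (v.deg : ℤ) := by
    simp [Divisor.degree, Finsupp.liftAddHom_apply]
  rw [this]
  exact Finset.sum_nonneg fun v _ => mul_nonneg (h v) (Int.natCast_nonneg _)

theorem riemannRochSpace_eq_bot_of_degree_neg [HasPrincipalDivisors K F] {D : Divisor K F}
    (hD : Divisor.degree D < 0) : riemannRochSpace D = ⊥ := by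
  rw [Submodule.eq_bot_iff]
  intro h hh
  by_contra h0
  obtain ⟨E, hE, hE0⟩ := HasPrincipalDivisors.exists_divisor (K := K) h h0
  have hZ : ∀ v, 0 ≤ (D + E) v := fun v => by
    have := (mem_riemannRochSpace_iff.mp hh v).resolve_left h0
    rw [Finsupp.add_apply, hE v]
    omega
  have := degree_nonneg_of_nonneg hZ
  rw [map_add, hE0, add_zero] at this
  omega

/-! ### The jump lemma -/

theorem exists_sub_smul_mem [IsAlgClosed K] (P : Place K F) [Module.Finite K P.ResidueField]
    (D : Divisor K F) {f f' : F}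
    (hf : f ∈ riemannRochSpace (D + Finsupp.single P 1)) (hfD : f ∉ riemannRochSpace D)
    (hf' : f' ∈ riemannRochSpace (D + Finsupp.single P 1)) :
    ∃ a : K, f' - a • f ∈ riemannRochSpace D := by
  classical
  have hf0 : f ≠ 0 := fun h => hfD (h ▸ Submodule.zero_mem _)
  have hfv : ∀ v : Place K F, -(D + Finsupp.single P (1 : ℤ) : Divisor K F) v ≤ v.ord f :=
    fun v => (mem_riemannRochSpace_iff.mp hf v).resolve_left hf0
  have hne : ∀ v : Place K F, v ≠ P →
      (D + Finsupp.single P (1 : ℤ) : Divisor K F) v = D v := fun v hv => by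
    rw [Finsupp.add_apply, Finsupp.single_apply, if_neg (Ne.symm hv), add_zero]
  have hP : (D + Finsupp.single P (1 : ℤ) : Divisor K F) P = D P + 1 := by
    rw [Finsupp.add_apply, Finsupp.single_apply, if_pos rfl]
  -- the order of `f` at `P` is exactly `-D P - 1`
  have hordf : P.ord f = -D P - 1 := by
    rw [mem_riemannRochSpace_iff] at hfD
    simp only [not_forall, not_or, not_le] at hfD
    obtain ⟨v, -, hv⟩ := hfD
    by_cases hvP : v = P
    · subst hvP
      have := hfv v
      rw [hP] at this
      omega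
    · have := hfv v
      rw [hne v hvP] at this
      omega
  rcases eq_or_ne f' 0 with rfl | hf'0
  · exact ⟨0, by simp⟩
  have hf'P : -D P - 1 ≤ P.ord f' := by
    have := (mem_riemannRochSpace_iff.mp hf' P).resolve_left hf'0
    rw [hP] at this
    omega
  -- the quotient `u = f'/f` is regular at `P`
  have hu : f' * f⁻¹ ∈ P.toValuationSubring := by
    apply place_mem_of_ord_nonneg
    rw [P.ord_mul hf'0 (inv_ne_zero hf0), P.ord_inv]
    omega
  have hint : Algebra.IsIntegral K P.ResidueField := Algebra.IsIntegral.of_finite K P.ResidueField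
  have hbij : Function.Bijective (algebraMap K P.ResidueField) :=
    IsAlgClosed.algebraMap_bijective_of_isIntegral
  obtain ⟨a, ha⟩ := hbij.2 (IsLocalRing.residue P.toValuationSubring ⟨f' * f⁻¹, hu⟩)
  refine ⟨a, ?_⟩
  set w : P.toValuationSubring := ⟨f' * f⁻¹, hu⟩ - algebraMap K P.toValuationSubring a with hw
  have hwres : IsLocalRing.residue P.toValuationSubring w = 0 := by
    rw [hw, map_sub, ← ha]
    exact sub_eq_zero.mpr rfl
  have hwnu : ¬ IsUnit w := by
    rw [IsLocalRing.residue_eq_zero_iff] at hwres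
    exact (IsLocalRing.mem_maximalIdeal w).mp hwres
  have hwF : (w : F) = f' * f⁻¹ - algebraMap K F a := by
    rw [hw]; rfl
  have hkey : f' - a • f = (w : F) * f := by
    rw [hwF, Algebra.smul_def, sub_mul, inv_mul_cancel_right₀ hf0]
  have hmem : f' - a • f ∈ riemannRochSpace (D + Finsupp.single P 1) :=
    Submodule.sub_mem _ hf' (Submodule.smul_mem _ a hf)
  rw [mem_riemannRochSpace_iff]
  intro v
  by_cases h0 : f' - a • f = 0
  · exact Or.inl h0
  right
  by_cases hvP : v = P
  · subst hvP
    have hw0 : w ≠ 0 := by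
      intro hw0
      apply h0
      rw [hkey, hw0]
      simp
    have hwF0 : (w : F) ≠ 0 := fun h => hw0 (Subtype.ext h)
    have h1 := place_one_le_ord_of_not_isUnit v w hw0 hwnu
    rw [hkey, v.ord_mul hwF0 hf0, hordf]
    omega
  · have := (mem_riemannRochSpace_iff.mp hmem v).resolve_left h0
    rwa [hne v hvP] at this

/-! ### Canonical representatives -/

/-- **W1, canonical representatives.** Under Riemann's hypothesis `hR` at the place `P0`, every
class `c` of `Pic0` is represented by `Z - n P0` with `Z` effective of degree `n`, and `Z` is the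
unique effective divisor in its linear equivalence class.  Every semilinear automorphism fixing
`P0` and `c` fixes `Z`. -/
theorem exists_canonical_rep [IsAlgClosed K] [IsCurveOver K F] (P0 : Place K F)
    (hR : ∀ D : Divisor K F, ∃ n : ℕ,
      riemannRochSpace (D + n • Finsupp.single P0 (1 : ℤ)) ≠ ⊥)
    (c : Pic0 K F) :
    ∃ (n : ℕ) (Z : Divisor K F), (∀ v, 0 ≤ Z v) ∧ Divisor.degree Z = n ∧
      (∃ hD : Z - n • Finsupp.single P0 (1 : ℤ) ∈ Divisor.degZero (K := K) (F := F),
        Pic0.mk ⟨_, hD⟩ = c) ∧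
      (∀ Z' : Divisor K F, (∀ v, 0 ≤ Z' v) →
        Z' - Z ∈ Divisor.principal (K := K) (F := F) → Z' = Z) ∧
      ∀ g : SemilinearAut K F, g • P0 = P0 → g • c = c → g • Z = Z := by
  classical
  obtain ⟨D₀, rfl⟩ := Pic0.mk_surjective c
  have hD₀ : Divisor.degree (D₀ : Divisor K F) = 0 := D₀.2
  set s : Divisor K F := Finsupp.single P0 (1 : ℤ) with hs
  have hdegs : Divisor.degree s = 1 := by
    rw [hs, Divisor.degree_single, IsCurveOver.deg_eq_one_of_isAlgClosed]
    simp
  have hex := hR (D₀ : Divisor K F)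
  set n0 : ℕ := Nat.find hex with hn0
  have hn0spec : riemannRochSpace ((D₀ : Divisor K F) + n0 • s) ≠ ⊥ := Nat.find_spec hex
  set A : Divisor K F := (D₀ : Divisor K F) + n0 • s - s with hA
  have hAs : A + s = (D₀ : Divisor K F) + n0 • s := by rw [hA]; abel
  -- `L(A) = 0`
  have hAbot : riemannRochSpace A = ⊥ := by
    rcases Nat.eq_zero_or_pos n0 with h0 | hpos
    · apply riemannRochSpace_eq_bot_of_degree_neg
      rw [hA, h0, zero_smul, add_zero, map_sub, hD₀, hdegs]
      norm_num
    · obtain ⟨m, hm⟩ := Nat.exists_eq_succ_of_ne_zero hpos.ne'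
      have hmin : ¬ (riemannRochSpace ((D₀ : Divisor K F) + m • s) ≠ ⊥) :=
        Nat.find_min hex (by rw [← hn0, hm]; exact Nat.lt_succ_self m)
      have hAm : A = (D₀ : Divisor K F) + m • s := by
        rw [hA, hm, succ_nsmul]; abel
      rw [hAm]
      exact not_not.mp hmin
  rw [← hAs] at hn0spec
  obtain ⟨h, hh, hh0⟩ := (Submodule.ne_bot_iff _).mp hn0spec
  have hhA : h ∉ riemannRochSpace A := by
    rw [hAbot, Submodule.mem_bot]; exact hh0
  obtain ⟨E, hE, hE0⟩ := HasPrincipalDivisors.exists_divisor (K := K) h hh0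
  have hEprin : E ∈ Divisor.principal (K := K) (F := F) := ⟨h, hh0, hE⟩
  have hhv : ∀ v, -(A + s) v ≤ v.ord h := fun v =>
    (mem_riemannRochSpace_iff.mp hh v).resolve_left hh0
  set Z : Divisor K F := A + s + E with hZ
  have hZeff : ∀ v, 0 ≤ Z v := fun v => by
    have := hhv v
    rw [hZ, Finsupp.add_apply, hE v]
    omega
  have hZdeg : Divisor.degree Z = n0 := by
    rw [hZ, hAs, map_add, map_add, hD₀, hE0, map_nsmul, hdegs]
    simp
  have hZsub : Z - n0 • s = (D₀ : Divisor K F) + E := by
    rw [hZ, hAs]; abel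
  have hDz : Z - n0 • s ∈ Divisor.degZero (K := K) (F := F) := by
    rw [Divisor.mem_degZero, hZsub, map_add, hD₀, hE0, add_zero]
  have hmk : Pic0.mk ⟨Z - n0 • s, hDz⟩ = Pic0.mk D₀ := by
    refine (QuotientAddGroup.eq).mpr ?_
    rw [AddSubgroup.mem_addSubgroupOf]
    have : ((-(⟨Z - n0 • s, hDz⟩ : Divisor.degZero (K := K) (F := F)) + D₀ :
        Divisor.degZero (K := K) (F := F)) : Divisor K F) = -E := by
      rw [AddSubgroup.coe_add, AddSubgroup.coe_neg]
      show -(Z - n0 • s) + (D₀ : Divisor K F) = -E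
      rw [hZsub]; abel
    rw [this]
    exact neg_mem hEprin
  -- uniqueness of the effective divisor
  have huniq : ∀ Z' : Divisor K F, (∀ v, 0 ≤ Z' v) →
      Z' - Z ∈ Divisor.principal (K := K) (F := F) → Z' = Z := by
    intro Z' hZ' hprin
    obtain ⟨u, hu0, hu⟩ := hprin
    have hhu : h * u ∈ riemannRochSpace (A + s) := by
      rw [mem_riemannRochSpace_iff]
      intro v
      right
      have h1 := hu v
      have h2 := hZ' v
      rw [Finsupp.sub_apply, hZ, Finsupp.add_apply, hE v] at h1
      rw [v.ord_mul hh0 hu0]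
      omega
    have : Module.Finite K P0.ResidueField := IsCurveOver.finiteResidue P0
    obtain ⟨a, ha⟩ := exists_sub_smul_mem P0 A hh hhA hhu
    rw [hAbot, Submodule.mem_bot, sub_eq_zero, Algebra.smul_def, mul_comm h u] at ha
    have hua : u = algebraMap K F a := mul_right_cancel₀ hh0 ha
    ext v
    have h1 := hu v
    rw [hua, place_ord_algebraMap, Finsupp.sub_apply] at h1
    omega
  refine ⟨n0, Z, hZeff, hZdeg, ⟨hDz, hmk⟩, huniq, ?_⟩
  intro g hgP hgc
  apply huniq
  · intro v
    rw [SemilinearAut.divisor_smul_apply]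
    exact hZeff _
  · rw [← hmk, SemilinearAut.pic0_smul_mk] at hgc
    have h1 := (QuotientAddGroup.eq).mp hgc
    rw [AddSubgroup.mem_addSubgroupOf] at h1
    have h2 : ((-(SemilinearAut.degZeroSMulHom g ⟨Z - n0 • s, hDz⟩) + ⟨Z - n0 • s, hDz⟩ :
        Divisor.degZero (K := K) (F := F)) : Divisor K F) = -(g • Z - Z) := by
      rw [AddSubgroup.coe_add, AddSubgroup.coe_neg, SemilinearAut.coe_degZeroSMulHom]
      show -(g • (Z - n0 • s)) + (Z - n0 • s) = -(g • Z - Z)
      rw [smul_sub, smul_comm g n0 s, hs, SemilinearAut.smul_single, hgP]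
      abel
    rw [h2] at h1
    simpa using neg_mem h1

/-- **W1, stable divisors.** Every class `c` of `Pic0` has a representative of degree zero that is
fixed by every semilinear automorphism fixing `P0` and `c`. -/
theorem exists_stable_divisor [IsAlgClosed K] [IsCurveOver K F] (P0 : Place K F)
    (hR : ∀ D : Divisor K F, ∃ n : ℕ,
      riemannRochSpace (D + n • Finsupp.single P0 (1 : ℤ)) ≠ ⊥)
    (c : Pic0 K F) :
    ∃ D : Divisor.degZero (K := K) (F := F), Pic0.mk D = c ∧
      ∀ g : SemilinearAut K F, g • P0 = P0 → g • c = c → g • (D : Divisor K F) = D := by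
  obtain ⟨n, Z, -, -, ⟨hD, hmk⟩, -, hg⟩ := exists_canonical_rep P0 hR c
  refine ⟨⟨_, hD⟩, hmk, fun g hgP hgc => ?_⟩
  show g • (Z - n • Finsupp.single P0 (1 : ℤ)) = Z - n • Finsupp.single P0 (1 : ℤ)
  rw [smul_sub, smul_comm g n, SemilinearAut.smul_single, hgP, hg g hgP hgc]

end Fermat.Agent.S17.WA.H396
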