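import Fermat.Agent.S17.WA.Hilbert90H396
import Fermat.Agent.S17.WA.StableDivisorH396

/-!
# S17 / WA : W1 assembled for the arithmetic Galois action (helper396)

`F = laurentBaseChange ℚ̄ F₀`, `G_K = K.fixingSubgroup ≤ Gal(ℚ̄/ℚ)` acting through
`arithmeticGalois F₀`.  `P0` is a Galois-fixed place (package BR: the place `q = 0`) and `hR` is
Riemann's hypothesis `∀ D, ∃ n, L(D + n P0) ≠ 0` (package FND).

* `exists_eq_algebraMap_of_mem_riemannRochSpace_zero` : `L(0) = K` (functions without poles are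
  constant), `exists_eq_algebraMap_mul_of_ord_eq` : functions with the same divisor differ by a
  nonzero constant.
* `exists_galois_stable_divisor` : a class has a representative fixed by every `σ` fixing the class.
* `exists_const_mul_fixed_of_ord` : if `div f` is `G_K`-stable, a constant multiple of `f` is
  `G_K`-fixed.
* `exists_rational_torsion_data` : for `t ∈ Pic0[l]` fixed by `G_K` there are a `G_K`-stable
  divisor `E` in the class `t` and a `G_K`-fixed function `f` with `div f = l E`.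
-/

set_option autoImplicit false

open IntermediateField ModularCurve AlgebraicCurve

namespace Fermat.Agent.S17.WA.H396

section General

variable {K F : Type*} [Field K] [Field F] [Algebra K F]

/-- A function without poles is constant. -/
theorem exists_eq_algebraMap_of_mem_riemannRochSpace_zero [IsAlgClosed K] [IsCurveOver K F]
    (P0 : Place K F) {u : F} (hu : u ∈ riemannRochSpace (0 : Divisor K F)) :
    ∃ a : K, u = algebraMap K F a := by
  have hfin : Module.Finite K P0.ResidueField := IsCurveOver.finiteResidue P0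
  set D : Divisor K F := -Finsupp.single P0 (1 : ℤ) with hD
  have hD0 : D + Finsupp.single P0 (1 : ℤ) = 0 := by rw [hD]; abel
  have hbot : riemannRochSpace D = ⊥ := by
    apply riemannRochSpace_eq_bot_of_degree_neg
    rw [hD, map_neg, Divisor.degree_single, IsCurveOver.deg_eq_one_of_isAlgClosed]
    norm_num
  have h1 : (1 : F) ∈ riemannRochSpace (D + Finsupp.single P0 (1 : ℤ)) := by
    rw [hD0, mem_riemannRochSpace_iff]
    intro v
    right
    simp
  have h1' : (1 : F) ∉ riemannRochSpace D := by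
    rw [hbot, Submodule.mem_bot]
    exact one_ne_zero
  have hu' : u ∈ riemannRochSpace (D + Finsupp.single P0 (1 : ℤ)) := by rw [hD0]; exact hu
  obtain ⟨a, ha⟩ := exists_sub_smul_mem P0 D h1 h1' hu'
  rw [hbot, Submodule.mem_bot, sub_eq_zero, Algebra.smul_def, mul_one] at ha
  exact ⟨a, ha⟩

/-- Two nonzero functions with the same divisor differ by a nonzero constant. -/
theorem exists_eq_algebraMap_mul_of_ord_eq [IsAlgClosed K] [IsCurveOver K F]
    (P0 : Place K F) {f f' : F} (hf : f ≠ 0) (hf' : f' ≠ 0)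
    (h : ∀ v : Place K F, v.ord f' = v.ord f) :
    ∃ a : K, a ≠ 0 ∧ f' = algebraMap K F a * f := by
  have hu : f' * f⁻¹ ∈ riemannRochSpace (0 : Divisor K F) := by
    rw [mem_riemannRochSpace_iff]
    intro v
    right
    rw [v.ord_mul hf' (inv_ne_zero hf), v.ord_inv, h v]
    simp
  obtain ⟨a, ha⟩ := exists_eq_algebraMap_of_mem_riemannRochSpace_zero P0 hu
  have ha0 : a ≠ 0 := by
    rintro rfl
    rw [map_zero] at ha
    exact mul_ne_zero hf' (inv_ne_zero hf) ha
  refine ⟨a, ha0, ?_⟩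
  rw [← ha, inv_mul_cancel_right₀ hf]

end General

local notation "Qb" => AlgebraicClosure ℚ
local notation "GQ" => (AlgebraicClosure ℚ ≃ₐ[ℚ] AlgebraicClosure ℚ)

variable (F₀ : IntermediateField ℚ (LaurentSeries ℚ))

/-- **W1 (divisors).** Every class `c` has a degree-zero representative `D` fixed by every `σ`
that fixes `P0` and `c`. -/
theorem exists_galois_stable_divisor [IsCurveOver Qb ↥(laurentBaseChange Qb F₀)]
    (P0 : Place Qb ↥(laurentBaseChange Qb F₀))
    (hR : ∀ D : Divisor Qb ↥(laurentBaseChange Qb F₀), ∃ n : ℕ,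
      riemannRochSpace (D + n • Finsupp.single P0 (1 : ℤ)) ≠ ⊥)
    (c : Pic0 Qb ↥(laurentBaseChange Qb F₀)) :
    ∃ D : Divisor.degZero (K := Qb) (F := ↥(laurentBaseChange Qb F₀)), Pic0.mk D = c ∧
      ∀ σ : GQ, arithmeticGalois F₀ σ • P0 = P0 → σ • c = c →
        arithmeticGalois F₀ σ • (D : Divisor Qb ↥(laurentBaseChange Qb F₀)) = D := by
  obtain ⟨D, hD, h⟩ := exists_stable_divisor P0 hR c
  exact ⟨D, hD, fun σ hP hc => h _ hP hc⟩

/-- **W1 (functions).** If the divisor of `f ≠ 0` is stable under `G_K`, then a nonzero constant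
multiple of `f` is fixed by `G_K`. -/
theorem exists_const_mul_fixed_of_ord [IsCurveOver Qb ↥(laurentBaseChange Qb F₀)]
    (P0 : Place Qb ↥(laurentBaseChange Qb F₀))
    (K : IntermediateField ℚ Qb) [FiniteDimensional ℚ K]
    (f : ↥(laurentBaseChange Qb F₀)) (hf : f ≠ 0)
    (h : ∀ σ ∈ K.fixingSubgroup, ∀ v : Place Qb ↥(laurentBaseChange Qb F₀),
      (arithmeticGalois F₀ σ • v).ord f = v.ord f) :
    ∃ b : Qb, b ≠ 0 ∧ ∀ σ ∈ K.fixingSubgroup,
      arithmeticRingAut F₀ σ (algebraMap Qb ↥(laurentBaseChange Qb F₀) b * f)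
        = algebraMap Qb ↥(laurentBaseChange Qb F₀) b * f := by
  apply exists_const_mul_fixed F₀ K f hf
  intro σ hσ
  have hσf : arithmeticRingAut F₀ σ f ≠ 0 := by
    simpa using hf
  have hord : ∀ v : Place Qb ↥(laurentBaseChange Qb F₀),
      v.ord (arithmeticRingAut F₀ σ f) = v.ord f := by
    intro v
    have h1 := SemilinearAut.ord_smul (arithmeticGalois F₀ σ)
      ((arithmeticGalois F₀ σ)⁻¹ • v) f
    rw [smul_inv_smul] at h1
    have h2 := h σ⁻¹ (inv_mem hσ) v
    rw [map_inv] at h2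
    rw [← h2]
    exact h1
  obtain ⟨a, -, ha⟩ := exists_eq_algebraMap_mul_of_ord_eq P0 hf hσf hord
  exact ⟨a, ha⟩

/-- **W1 for torsion classes.** If `t` is an `l`-torsion class fixed by `G_K`, there are a
`G_K`-stable divisor `E` of class `t` and a `G_K`-fixed function `f` with `div f = l E`. -/
theorem exists_rational_torsion_data [IsCurveOver Qb ↥(laurentBaseChange Qb F₀)]
    (P0 : Place Qb ↥(laurentBaseChange Qb F₀))
    (hP0 : ∀ σ : GQ, arithmeticGalois F₀ σ • P0 = P0)
    (hR : ∀ D : Divisor Qb ↥(laurentBaseChange Qb F₀), ∃ n : ℕ,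
      riemannRochSpace (D + n • Finsupp.single P0 (1 : ℤ)) ≠ ⊥)
    (K : IntermediateField ℚ Qb) [FiniteDimensional ℚ K] (l : ℕ)
    (t : Pic0 Qb ↥(laurentBaseChange Qb F₀)) (ht : l • t = 0)
    (hfix : ∀ σ ∈ K.fixingSubgroup, σ • t = t) :
    ∃ (E : Divisor.degZero (K := Qb) (F := ↥(laurentBaseChange Qb F₀)))
      (f : ↥(laurentBaseChange Qb F₀)),
      Pic0.mk E = t ∧ f ≠ 0 ∧
      (∀ v : Place Qb ↥(laurentBaseChange Qb F₀),
        v.ord f = l * (E : Divisor Qb ↥(laurentBaseChange Qb F₀)) v) ∧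
      (∀ σ ∈ K.fixingSubgroup,
        arithmeticGalois F₀ σ • (E : Divisor Qb ↥(laurentBaseChange Qb F₀)) = E) ∧
      (∀ σ ∈ K.fixingSubgroup, arithmeticRingAut F₀ σ f = f) := by
  obtain ⟨E, hE, hEfix⟩ := exists_galois_stable_divisor F₀ P0 hR t
  have hEK : ∀ σ ∈ K.fixingSubgroup,
      arithmeticGalois F₀ σ • (E : Divisor Qb ↥(laurentBaseChange Qb F₀)) = E :=
    fun σ hσ => hEfix σ (hP0 σ) (hfix σ hσ)
  -- `l E` is principal
  have hprin : (l • (E : Divisor Qb ↥(laurentBaseChange Qb F₀))) ∈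
      Divisor.principal (K := Qb) (F := ↥(laurentBaseChange Qb F₀)) := by
    rw [← hE] at ht
    have h1 : Pic0.mk (l • E) = 0 := by
      rw [← ht]
      exact map_nsmul (QuotientAddGroup.mk' _) l E
    have h2 := (QuotientAddGroup.eq_zero_iff _).mp h1
    rw [AddSubgroup.mem_addSubgroupOf] at h2
    exact h2
  obtain ⟨f, hf0, hf⟩ := hprin
  have hford : ∀ v : Place Qb ↥(laurentBaseChange Qb F₀),
      v.ord f = l * (E : Divisor Qb ↥(laurentBaseChange Qb F₀)) v := by
    intro v
    rw [← hf v, Finsupp.smul_apply, nsmul_eq_mul]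
  have hstab : ∀ σ ∈ K.fixingSubgroup, ∀ v : Place Qb ↥(laurentBaseChange Qb F₀),
      (arithmeticGalois F₀ σ • v).ord f = v.ord f := by
    intro σ hσ v
    rw [hford, hford]
    congr 1
    have h1 := SemilinearAut.divisor_smul_apply_smul (arithmeticGalois F₀ σ)
      (E : Divisor Qb ↥(laurentBaseChange Qb F₀)) v
    rw [hEK σ hσ] at h1
    exact h1
  obtain ⟨b, hb0, hb⟩ := exists_const_mul_fixed_of_ord F₀ P0 K f hf0 hstab
  have hb0' : algebraMap Qb ↥(laurentBaseChange Qb F₀) b ≠ 0 := by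
    simpa using hb0
  refine ⟨E, algebraMap Qb ↥(laurentBaseChange Qb F₀) b * f, hE, mul_ne_zero hb0' hf0, ?_,
    hEK, hb⟩
  intro v
  rw [v.ord_mul hb0' hf0, place_ord_algebraMap, zero_add, hford]

end Fermat.Agent.S17.WA.H396
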