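import Fermat.Agent.S17.W.Defs
import Fermat.Agent.S17.WA.W1H396
import Fermat.Agent.S17.WA.QPlaceH396
import Fermat.Agent.S27.A.Const
import Fermat.Agent.S27.A.Bridge

/-!
# S17 / WA — leaf WA1 `exists_twoDatum` (helper396)

Final theorem `Fermat.Agent.S17.WA.H396.exists_twoDatum` = statement of `WA/Skel.lean` (frozen v1 of
helper5016), with a complete proof:

* `exists_twoDatum_of_place` : the leaf for ANY Galois-fixed place `P0` and Riemann hypothesis
  `hR : ∀ D, ∃ n, L(D + n P0) ≠ 0` (from `W1H396.exists_rational_torsion_data`: unique effective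
  representative + Hilbert 90 for functions);
* `exists_riemannRochSpace_ne_bot` : `hR` from the landed S27 library (`S27.A.riemann'`,
  `S27.A.hyp_of_isCurveOver`);
* the place `q = 0` (`QPlaceH396.qPlace`, fixed by the arithmetic Galois action).

No dependence on the BR / FND skeletons.
-/

set_option autoImplicit false

namespace Fermat.Agent.S17.WA.H396

open AlgebraicCurve ModularCurve Fermat.Agent.S17.W

/-- Riemann's theorem in the form used by W1: for every divisor `D` and place `P0`,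
`L(D + n P0) ≠ 0` for some `n`. -/
theorem exists_riemannRochSpace_ne_bot {K F : Type*} [Field K] [Field F] [Algebra K F]
    [IsAlgClosed K] [CharZero K] [IsCurveOver K F] [Algebra.EssFiniteType K F]
    (P0 : Place K F) (D : Divisor K F) :
    ∃ n : ℕ, riemannRochSpace (D + n • Finsupp.single P0 (1 : ℤ)) ≠ ⊥ := by
  have H : Fermat.Agent.S27.A.Hyp K F := Fermat.Agent.S27.A.hyp_of_isCurveOver
  refine ⟨((genusFF K F : ℤ) - Divisor.degree D).toNat, ?_⟩
  intro hbot
  set n : ℕ := ((genusFF K F : ℤ) - Divisor.degree D).toNat with hn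
  have h := Fermat.Agent.S27.A.riemann' H (D + n • Finsupp.single P0 (1 : ℤ))
  have hell : Fermat.Agent.S27.A.ell (D + n • Finsupp.single P0 (1 : ℤ)) = 0 := by
    unfold Fermat.Agent.S27.A.ell
    rw [hbot]
    exact finrank_bot K F
  have hdeg : Divisor.degree (D + n • Finsupp.single P0 (1 : ℤ)) = Divisor.degree D + n := by
    rw [map_add, map_nsmul, Divisor.degree_single, IsCurveOver.deg_eq_one_of_isAlgClosed]
    simp
  rw [hell, hdeg] at h
  have hspec : (0 : ℤ) ≤ (Fermat.Agent.S27.A.spec (D + n • Finsupp.single P0 (1 : ℤ)) : ℤ) :=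
    Int.natCast_nonneg _
  have hn' : (genusFF K F : ℤ) - Divisor.degree D ≤ n := by
    rw [hn]; exact Int.self_le_toNat _
  push_cast at h
  omega

variable (F₀ : IntermediateField ℚ (LaurentSeries ℚ))
  [IsCurveOver (AlgebraicClosure ℚ) (FBar F₀)]
  [Algebra.EssFiniteType (AlgebraicClosure ℚ) (FBar F₀)]
variable (K₁ : IntermediateField ℚ (AlgebraicClosure ℚ)) [FiniteDimensional ℚ K₁]

omit [Algebra.EssFiniteType (AlgebraicClosure ℚ) (FBar F₀)] in
/-- WA1 for an arbitrary Galois-fixed place `P0` with Riemann's hypothesis at `P0`. -/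
theorem exists_twoDatum_of_place (P0 : Place (AlgebraicClosure ℚ) (FBar F₀))
    (hP0 : ∀ σ : GQ, arithmeticGalois F₀ σ • P0 = P0)
    (hR : ∀ D : Divisor (AlgebraicClosure ℚ) (FBar F₀), ∃ n : ℕ,
      riemannRochSpace (D + n • Finsupp.single P0 (1 : ℤ)) ≠ ⊥)
    (t : Pic0 (AlgebraicClosure ℚ) (FBar F₀)) (ht : (2 : ℕ) • t = 0)
    (hfix : ClassFixed F₀ K₁.fixingSubgroup t) :
    ∃ (E : Divisor (AlgebraicClosure ℚ) (FBar F₀)) (f : FBar F₀),
      IsTwoDatum F₀ K₁.fixingSubgroup t E f := by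
  obtain ⟨E, f, hE, hf0, hford, hEfix, hffix⟩ :=
    exists_rational_torsion_data F₀ P0 hP0 hR K₁ 2 t ht hfix
  refine ⟨(E : Divisor (AlgebraicClosure ℚ) (FBar F₀)), f, ⟨⟨E.2, hE⟩, hEfix, ?_, ⟨hf0, ?_⟩⟩⟩
  · intro σ hσ
    exact hffix σ hσ
  · intro v
    rw [Finsupp.smul_apply, hford v, nsmul_eq_mul]

/-- **WA1** (statement of `WA/Skel.lean`): a `K₁`-rational `2`-torsion class has a `K₁`-rational
datum `(E, f)`, `div f = 2E`. -/
theorem exists_twoDatum (t : Pic0 (AlgebraicClosure ℚ) (FBar F₀)) (ht : (2 : ℕ) • t = 0)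
    (hfix : ClassFixed F₀ K₁.fixingSubgroup t) :
    ∃ (E : Divisor (AlgebraicClosure ℚ) (FBar F₀)) (f : FBar F₀),
      IsTwoDatum F₀ K₁.fixingSubgroup t E f :=
  exists_twoDatum_of_place F₀ K₁ (qPlace (AlgebraicClosure ℚ) F₀)
    (arithmeticGalois_smul_qPlace (AlgebraicClosure ℚ) F₀)
    (exists_riemannRochSpace_ne_bot _) t ht hfix

end Fermat.Agent.S17.WA.H396
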