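import Mathlib
import Fermat.Prelude.Def_ModularCurve_ArithmeticGalois

/-!
# S17 / WA (helper396): Galois descent on `laurentBaseChange L F₀` (vendored)

Verbatim copy, with the namespace renamed to `Fermat.Agent.S17.WA.H396.Descent`, of
origin/helper7596 `Fermat/Agent/S17/FND/{GaloisDescent7596,LaurentDescent7596}.lean` (commit e70f5498;
proofs by helper7596), so that leaf WA2 has a closed import closure.

* `mem_span_fixed_of_finiteIndex` : abstract Galois descent (traces + Dedekind independence).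
* `finiteIndex_fixingSubgroup`, `exists_finite_fixing` (open stabilisers of functions).
* `mem_span_fixed` : for any subgroup `H` of `L ≃ₐ[ℚ] L`, every `H`-stable `L`-subspace of
  `laurentBaseChange L F₀` is spanned by its `H`-fixed vectors.
-/

set_option autoImplicit false

namespace Fermat.Agent.S17.WA.H396.Descent


section Abstract

variable {G L V : Type*} [Group G] [Field L] [AddCommGroup V] [Module L V]

/-- **Galois descent (span form).** -/
theorem mem_span_fixed_of_finiteIndex
    (φ : G →* RingAut L) (ψ : G →* AddMonoid.End V)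
    (hsemi : ∀ (g : G) (a : L) (v : V), ψ g (a • v) = φ g a • ψ g v)
    (M : Submodule L V) (hM : ∀ (g : G), ∀ x ∈ M, ψ g x ∈ M)
    (N : Subgroup G) [N.FiniteIndex]
    (hN : ∀ g : G, (∀ b : L, (∀ n ∈ N, φ n b = b) → φ g b = b) → g ∈ N)
    (v : V) (hvM : v ∈ M) (hv : ∀ n ∈ N, ψ n v = v) :
    v ∈ Submodule.span L {x : V | x ∈ M ∧ ∀ g : G, ψ g x = x} := by
  classical
  have : Finite (G ⧸ N) := Subgroup.finite_quotient_of_finiteIndex
  let _ : Fintype (G ⧸ N) := Fintype.ofFinite _
  let r : G ⧸ N → G := Quotient.out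
  have hr : ∀ q : G ⧸ N, (QuotientGroup.mk (r q) : G ⧸ N) = q := fun q => QuotientGroup.out_eq' q
  -- the monoid of `N`-fixed elements
  let E : Submonoid L :=
    { carrier := {b | ∀ n ∈ N, φ n b = b}
      one_mem' := fun n _ => map_one _
      mul_mem' := fun {a b} ha hb n hn => by rw [map_mul, ha n hn, hb n hn] }
  let χ : G ⧸ N → (E →* L) := fun q =>
    ((φ (r q) : L ≃+* L) : L →* L).comp E.subtype
  have hχapp : ∀ (q : G ⧸ N) (b : E), χ q b = φ (r q) (b : L) := fun _ _ => rfl
  have hχ : Function.Injective χ := by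
    intro q q' h
    have hmem : (r q')⁻¹ * r q ∈ N := by
      apply hN
      intro b hb
      have h1 : φ (r q) b = φ (r q') b := by
        have := DFunLike.congr_fun h ⟨b, hb⟩
        rwa [hχapp, hχapp] at this
      rw [map_mul, map_inv, RingAut.mul_apply, h1]
      exact (φ (r q')).symm_apply_apply b
    rw [← hr q, ← hr q']
    exact (QuotientGroup.eq.mpr hmem).symm
  have hli : LinearIndependent L (fun q : G ⧸ N => ((χ q : E →* L) : E → L)) :=
    (linearIndependent_monoidHom E L).comp χ hχ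
  let ev : E → (G ⧸ N → L) := fun b q => φ (r q) (b : L)
  have hW : Submodule.span L (Set.range ev) = ⊤ := by
    by_contra hne
    obtain ⟨f, hf0, hfW⟩ := Submodule.exists_le_ker_of_lt_top _ (lt_top_iff_ne_top.mpr hne)
    apply hf0
    have hc : ∀ q : G ⧸ N, f (fun j => if q = j then 1 else 0) = 0 := by
      apply Fintype.linearIndependent_iff.mp hli
      funext b
      have h1 : f (ev b) = 0 := LinearMap.mem_ker.mp (hfW (Submodule.subset_span ⟨b, rfl⟩))
      rw [LinearMap.pi_apply_eq_sum_univ] at h1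
      simp only [Finset.sum_apply, Pi.smul_apply, smul_eq_mul, Pi.zero_apply]
      refine Eq.trans (Finset.sum_congr rfl fun q _ => ?_) h1
      rw [hχapp, smul_eq_mul]
      exact mul_comm _ _
    apply LinearMap.ext
    intro x
    rw [LinearMap.pi_apply_eq_sum_univ, LinearMap.zero_apply]
    exact Finset.sum_eq_zero fun q _ => by rw [hc q, smul_zero]
  let Φ : (G ⧸ N → L) →ₗ[L] V :=
    { toFun := fun x => ∑ q, x q • ψ (r q) v
      map_add' := fun x y => by simp [add_smul, Finset.sum_add_distrib]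
      map_smul' := fun c x => by simp [mul_smul, Finset.smul_sum] }
  have hΦapp : ∀ x : G ⧸ N → L, Φ x = ∑ q, x q • ψ (r q) v := fun _ => rfl
  have hΦ : ∀ b : E, Φ (ev b) ∈ {x : V | x ∈ M ∧ ∀ g : G, ψ g x = x} := by
    intro b
    have hT : Φ (ev b) = ∑ q, ψ (r q) ((b : L) • v) := by
      rw [hΦapp]
      exact Finset.sum_congr rfl fun q _ => (hsemi _ _ _).symm
    have hbv : ∀ n ∈ N, ψ n ((b : L) • v) = (b : L) • v := fun n hn => by
      rw [hsemi, b.2 n hn, hv n hn]
    refine ⟨?_, fun g => ?_⟩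
    · rw [hT]
      exact M.sum_mem fun q _ => hM _ _ (M.smul_mem _ hvM)
    · rw [hT, map_sum]
      have key : ∀ q : G ⧸ N, ψ g (ψ (r q) ((b : L) • v)) = ψ (r (g • q)) ((b : L) • v) := by
        intro q
        have hmem : (r (g • q))⁻¹ * (g * r q) ∈ N := by
          rw [← QuotientGroup.eq, hr]
          conv_lhs => rw [← hr q]
          rfl
        have h2 : g * r q = r (g • q) * ((r (g • q))⁻¹ * (g * r q)) := by group
        have h3 : ψ g (ψ (r q) ((b : L) • v)) = ψ (g * r q) ((b : L) • v) := by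
          rw [map_mul]; rfl
        have h4 : ψ (r (g • q) * ((r (g • q))⁻¹ * (g * r q))) ((b : L) • v)
            = ψ (r (g • q)) (ψ ((r (g • q))⁻¹ * (g * r q)) ((b : L) • v)) := by
          rw [map_mul]; rfl
        rw [h3, h2, h4, hbv _ hmem]
      rw [Finset.sum_congr rfl fun q _ => key q]
      exact Equiv.sum_comp (MulAction.toPerm g) fun q => ψ (r q) ((b : L) • v)
  have h1 : (Pi.single (QuotientGroup.mk 1 : G ⧸ N) (1 : L) : G ⧸ N → L) ∈
      Submodule.span L (Set.range ev) := by
    rw [hW]; exact Submodule.mem_top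
  have h2 : Submodule.map Φ (Submodule.span L (Set.range ev)) ≤
      Submodule.span L {x : V | x ∈ M ∧ ∀ g : G, ψ g x = x} := by
    rw [Submodule.map_span]
    apply Submodule.span_mono
    rintro _ ⟨_, ⟨b, rfl⟩, rfl⟩
    exact hΦ b
  have h3 := h2 (Submodule.mem_map_of_mem h1)
  have h4 : Φ (Pi.single (QuotientGroup.mk 1 : G ⧸ N) (1 : L)) = v := by
    rw [hΦapp, Finset.sum_eq_single (QuotientGroup.mk 1 : G ⧸ N)]
    · rw [Pi.single_eq_same, one_smul]
      apply hv
      have h5 := QuotientGroup.eq.mp (hr (QuotientGroup.mk 1))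
      simpa using h5
    · intro q _ hq
      rw [Pi.single_eq_of_ne hq, zero_smul]
    · intro h; exact absurd (Finset.mem_univ _) h
  rwa [h4] at h3

end Abstract




open AlgebraicCurve ModularCurve

section FiniteIndex

variable {K L : Type*} [Field K] [Field L] [Algebra K L]

/-- The fixing subgroup of a finite-dimensional intermediate field has finite index. -/
theorem finiteIndex_fixingSubgroup (E : IntermediateField K L) [FiniteDimensional K E] :
    E.fixingSubgroup.FiniteIndex := by
  classical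
  have hfin : Finite (E →ₐ[K] L) := Fintype.finite (minpoly.AlgHom.fintype K E L)
  let f : (L ≃ₐ[K] L) ⧸ E.fixingSubgroup → (E →ₐ[K] L) := fun q =>
    ((Quotient.out q : L ≃ₐ[K] L) : L →ₐ[K] L).comp E.val
  have hf : Function.Injective f := by
    intro q q' h
    rw [← QuotientGroup.out_eq' q, ← QuotientGroup.out_eq' q', QuotientGroup.eq,
      IntermediateField.mem_fixingSubgroup_iff]
    intro x hx
    have h1 : (Quotient.out q : L ≃ₐ[K] L) x = (Quotient.out q' : L ≃ₐ[K] L) x :=
      DFunLike.congr_fun h ⟨x, hx⟩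
    show (Quotient.out q : L ≃ₐ[K] L)⁻¹ ((Quotient.out q' : L ≃ₐ[K] L) x) = x
    rw [← h1]
    exact (Quotient.out q : L ≃ₐ[K] L).symm_apply_apply x
  have : Finite ((L ≃ₐ[K] L) ⧸ E.fixingSubgroup) := Finite.of_injective f hf
  exact Subgroup.finiteIndex_of_finite_quotient

end FiniteIndex

section Laurent

variable {L : Type*} [Field L] [Algebra ℚ L] (F₀ : IntermediateField ℚ (LaurentSeries ℚ))

/-- **Open stabilisers.** -/
theorem exists_finite_fixing [Algebra.IsAlgebraic ℚ L] (x : laurentBaseChange L F₀) :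
    ∃ E : IntermediateField ℚ L, FiniteDimensional ℚ E ∧
      ∀ σ ∈ E.fixingSubgroup, arithmeticGalois F₀ σ • x = x := by
  obtain ⟨x, hx⟩ := x
  suffices h : ∃ E : IntermediateField ℚ L, FiniteDimensional ℚ E ∧
      ∀ σ ∈ E.fixingSubgroup, coeffMap (σ : L →+* L) x = x by
    obtain ⟨E, hE, hfix⟩ := h
    exact ⟨E, hE, fun σ hσ => Subtype.ext (hfix σ hσ)⟩
  rw [mem_laurentBaseChange_iff] at hx
  induction hx using Subfield.closure_induction with
  | mem y hy =>
      rcases hy with ⟨a, rfl⟩ | ⟨z, hz, rfl⟩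
      · refine ⟨IntermediateField.adjoin ℚ {a},
          IntermediateField.adjoin.finiteDimensional (Algebra.IsIntegral.isIntegral a), ?_⟩
        intro σ hσ
        rw [coeffMap_algebraMap]
        congr 1
        exact (IntermediateField.mem_fixingSubgroup_iff _ σ).mp hσ a
          (IntermediateField.mem_adjoin_simple_self ℚ a)
      · exact ⟨⊥, inferInstance, fun σ _ => coeffMap_coeffEmb σ z⟩
  | one => exact ⟨⊥, inferInstance, fun σ _ => map_one _⟩
  | add x y _ _ hx hy =>
      obtain ⟨E₁, h₁, hx⟩ := hx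
      obtain ⟨E₂, h₂, hy⟩ := hy
      refine ⟨E₁ ⊔ E₂, IntermediateField.finiteDimensional_sup E₁ E₂, fun σ hσ => ?_⟩
      rw [map_add, hx σ (IntermediateField.fixingSubgroup_le le_sup_left hσ),
        hy σ (IntermediateField.fixingSubgroup_le le_sup_right hσ)]
  | neg x _ hx =>
      obtain ⟨E₁, h₁, hx⟩ := hx
      exact ⟨E₁, h₁, fun σ hσ => by rw [map_neg, hx σ hσ]⟩
  | inv x _ hx =>
      obtain ⟨E₁, h₁, hx⟩ := hx
      exact ⟨E₁, h₁, fun σ hσ => by rw [map_inv₀, hx σ hσ]⟩
  | mul x y _ _ hx hy =>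
      obtain ⟨E₁, h₁, hx⟩ := hx
      obtain ⟨E₂, h₂, hy⟩ := hy
      refine ⟨E₁ ⊔ E₂, IntermediateField.finiteDimensional_sup E₁ E₂, fun σ hσ => ?_⟩
      rw [map_mul, hx σ (IntermediateField.fixingSubgroup_le le_sup_left hσ),
        hy σ (IntermediateField.fixingSubgroup_le le_sup_right hσ)]

/-- The action of a subgroup `H` of `L ≃ₐ[ℚ] L` on `L`, as a monoid hom to `RingAut L`. -/
def baseHom (H : Subgroup (L ≃ₐ[ℚ] L)) : H →* RingAut L where
  toFun σ := (σ : L ≃ₐ[ℚ] L).toRingEquiv
  map_one' := rfl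
  map_mul' _ _ := rfl

theorem baseHom_apply (H : Subgroup (L ≃ₐ[ℚ] L)) (σ : H) (a : L) :
    baseHom H σ a = (σ : L ≃ₐ[ℚ] L) a := rfl

/-- The action of a subgroup `H` of `L ≃ₐ[ℚ] L` on `laurentBaseChange L F₀`, as a monoid hom to
the additive endomorphisms. -/
noncomputable def fnHom (H : Subgroup (L ≃ₐ[ℚ] L)) : H →* AddMonoid.End (laurentBaseChange L F₀) :=
  (DistribMulAction.toAddMonoidEnd (SemilinearAut L (laurentBaseChange L F₀))
    (laurentBaseChange L F₀)).comp ((arithmeticGalois F₀).comp H.subtype)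

theorem fnHom_apply (H : Subgroup (L ≃ₐ[ℚ] L)) (σ : H) (x : laurentBaseChange L F₀) :
    fnHom F₀ H σ x = arithmeticGalois F₀ (σ : L ≃ₐ[ℚ] L) • x := rfl

theorem fnHom_semilinear (H : Subgroup (L ≃ₐ[ℚ] L)) (σ : H) (a : L)
    (v : laurentBaseChange L F₀) :
    fnHom F₀ H σ (a • v) = baseHom H σ a • fnHom F₀ H σ v := by
  rw [fnHom_apply, fnHom_apply, baseHom_apply, Algebra.smul_def, Algebra.smul_def, smul_mul',
    SemilinearAut.smul_algebraMap, baseAut_arithmeticGalois]
  rfl

set_option synthInstance.maxHeartbeats 400000 in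
set_option maxHeartbeats 1000000 in
/-- **Galois descent on `laurentBaseChange L F₀`.**  Every `H`-stable `L`-subspace is spanned by
its `H`-fixed vectors (`H` any subgroup of `L ≃ₐ[ℚ] L`). -/
theorem mem_span_fixed [Algebra.IsAlgebraic ℚ L] (H : Subgroup (L ≃ₐ[ℚ] L))
    (M : Submodule L (laurentBaseChange L F₀))
    (hM : ∀ σ ∈ H, ∀ x ∈ M, arithmeticGalois F₀ σ • x ∈ M)
    (w : laurentBaseChange L F₀) (hw : w ∈ M) :
    w ∈ Submodule.span L
      {x : laurentBaseChange L F₀ | x ∈ M ∧ ∀ σ ∈ H, arithmeticGalois F₀ σ • x = x} := by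
  classical
  obtain ⟨E, hE, hfix⟩ := exists_finite_fixing F₀ w
  have : E.fixingSubgroup.FiniteIndex := finiteIndex_fixingSubgroup E
  have key := mem_span_fixed_of_finiteIndex (baseHom H) (fnHom F₀ H) (fnHom_semilinear F₀ H)
    M (fun σ x hx => by rw [fnHom_apply]; exact hM _ σ.2 x hx)
    (E.fixingSubgroup.subgroupOf H)
    (fun σ hσ => by
      rw [Subgroup.mem_subgroupOf, IntermediateField.mem_fixingSubgroup_iff]
      intro b hb
      have h1 := hσ b (fun n hn => by
        rw [Subgroup.mem_subgroupOf, IntermediateField.mem_fixingSubgroup_iff] at hn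
        exact hn b hb)
      exact h1)
    w hw
    (fun n hn => by
      rw [fnHom_apply]
      exact hfix _ (Subgroup.mem_subgroupOf.mp hn))
  refine Submodule.span_mono ?_ key
  rintro x ⟨hxM, hx⟩
  exact ⟨hxM, fun σ hσ => hx ⟨σ, hσ⟩⟩

end Laurent


end Fermat.Agent.S17.WA.H396.Descent
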