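import Fermat.Agent.S17.WA.L1_396
import Fermat.Agent.S17.WA.DescentH396
import Fermat.Agent.S24.A564.PlaceBasic

/-!
# S17 / WA — leaf WA2 `exists_rep` (helper396): the rational moving lemma, fully closed

Final theorem `Fermat.Agent.S17.WA.H396.exists_rep` = statement of `WA/Skel.lean` (frozen v1 of
helper5016).  No black box: Riemann's theorem comes from the landed S27 library
(`S27.A.riemann'`, `S27.A.exists_spec_eq_zero`), the Galois-fixed place from `QPlaceH396`, the
stable representative from `W1H396`, Galois descent from `DescentH396`.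

Proof.  `D₁` = an `H`-stable representative of `x` (W1).  `B` = the divisor of zeros of `u - c`,
`u` a `G_ℚ`-fixed non-constant function and `c ∈ ℕ` such that no point of `supp E` is a zero of
`u - c`: `B` is effective, `G_ℚ`-stable, of positive degree and disjoint from `supp E`.  For `m`
large, `ℓ(D₁ + mB - P) = ℓ(D₁ + mB) - 1` for every `P` (Riemann–Roch, `i = 0`).  The `H`-fixed
functions of `V = L(D₁ + mB)` span `V` (descent), so they are contained in none of the proper
subspaces `L(D₁ + mB - P)`, `P ∈ supp E`, nor in `0`; an additive group which is contained in none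
of finitely many subspaces (char. 0) has an element outside all of them.  Such a `w` has
`ord_P w = -D₁(P)` on `supp E`, and `D := D₁ + div w` is `H`-stable of class `x`.

The geometric part (`exists_moved_rep`) is stated for an arbitrary set `S` of semilinear
automorphisms of a curve `F/K` (`K` algebraically closed of characteristic `0`) satisfying Galois
descent (`hdesc`).
-/

set_option autoImplicit false

namespace Fermat.Agent.S17.WA.H396

open AlgebraicCurve ModularCurve Fermat.Agent.S17.W

/-! ### Avoiding finitely many subspaces inside an additive subgroup -/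

/-- If an additive subgroup `A` of a vector space over a field of characteristic zero is contained
in none of the subspaces `W i`, `i ∈ s`, then some element of `A` lies in none of them. -/
theorem exists_mem_forall_notMem {K M : Type*} [Field K] [CharZero K] [AddCommGroup M]
    [Module K M] (A : AddSubgroup M) {ι : Type*} (s : Finset ι) (W : ι → Submodule K M)
    (h : ∀ i ∈ s, ∃ v ∈ A, v ∉ W i) : ∃ w ∈ A, ∀ i ∈ s, w ∉ W i := by
  classical
  induction s using Finset.induction_on with
  | empty => exact ⟨0, A.zero_mem, by simp⟩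
  | insert j s hj ih =>
    obtain ⟨w, hwA, hw⟩ := ih (fun i hi => h i (Finset.mem_insert_of_mem hi))
    obtain ⟨v, hvA, hv⟩ := h j (Finset.mem_insert_self j s)
    by_cases hwj : w ∉ W j
    · refine ⟨w, hwA, fun i hi => ?_⟩
      rcases Finset.mem_insert.mp hi with rfl | hi
      · exact hwj
      · exact hw i hi
    rw [not_not] at hwj
    have hsub : ∀ i ∈ (s : Set ι), {n : ℕ | v + n • w ∈ W i}.Subsingleton := by
      intro i hi n hn n' hn'
      by_contra hne
      have e : (v + n • w) - (v + n' • w) = ((n : K) - (n' : K)) • w := by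
        rw [sub_smul, Nat.cast_smul_eq_nsmul K, Nat.cast_smul_eq_nsmul K]
        abel
      have hdiff : ((n : K) - (n' : K)) • w ∈ W i := by
        rw [← e]
        exact (W i).sub_mem hn hn'
      have hne' : ((n : K) - (n' : K)) ≠ 0 := by
        rw [sub_ne_zero]
        exact_mod_cast hne
      exact hw i (Finset.mem_coe.mp hi) (((W i).smul_mem_iff hne').mp hdiff)
    have hfin : (⋃ i ∈ (s : Set ι), {n : ℕ | v + n • w ∈ W i}).Finite :=
      Set.Finite.biUnion s.finite_toSet (fun i hi => (hsub i hi).finite)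
    obtain ⟨n, hn⟩ := hfin.infinite_compl.nonempty
    refine ⟨v + n • w, A.add_mem hvA (A.nsmul_mem hwA n), fun i hi => ?_⟩
    rcases Finset.mem_insert.mp hi with rfl | hi
    · intro hmem
      exact hv (((W i).add_mem_iff_left ((W i).nsmul_mem hwj n)).mp hmem)
    · intro hmem
      apply hn
      simp only [Set.mem_iUnion]
      exact ⟨i, Finset.mem_coe.mpr hi, hmem⟩

/-! ### General facts on divisors and `L`-spaces -/

section General

variable {K F : Type*} [Field K] [Field F] [Algebra K F]

theorem smul_mem_riemannRochSpace (g : SemilinearAut K F) {D : Divisor K F} {f : F}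
    (hf : f ∈ riemannRochSpace D) : g • f ∈ riemannRochSpace (g • D) := by
  rw [mem_riemannRochSpace_iff] at hf ⊢
  intro v
  rcases hf (g⁻¹ • v) with h | h
  · left
    rw [h, smul_zero]
  · right
    have h1 := SemilinearAut.ord_smul g (g⁻¹ • v) f
    rw [smul_inv_smul] at h1
    rw [SemilinearAut.divisor_smul_apply, h1]
    exact h

theorem place_ord_neg (v : Place K F) (f : F) : v.ord (-f) = v.ord f := by
  simp [Place.ord, Valuation.map_neg]

theorem semilinear_smul_nsmul (g : SemilinearAut K F) (n : ℕ) (D : Divisor K F) :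
    g • (n • D) = n • (g • D) :=
  smul_comm g n D

/-- The order function of a fixed function is invariant. -/
theorem ord_inv_smul_of_fixed (g : SemilinearAut K F) {f : F} (hf : g • f = f)
    (v : Place K F) : (g⁻¹ • v).ord f = v.ord f := by
  have h1 := SemilinearAut.ord_smul g (g⁻¹ • v) f
  rw [smul_inv_smul, hf] at h1
  exact h1.symm

/-- A divisor defined by the orders of a fixed function is fixed. -/
theorem smul_divisor_eq_of_fixed (g : SemilinearAut K F) {f : F} (hf : g • f = f)
    {B : Divisor K F} (φ : ℤ → ℤ) (hB : ∀ v, B v = φ (v.ord f)) : g • B = B := by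
  ext v
  rw [SemilinearAut.divisor_smul_apply, hB, hB, ord_inv_smul_of_fixed g hf]

/-- The coefficient at a point of an effective divisor is at most its degree. -/
theorem le_degree_of_nonneg [IsAlgClosed K] [IsCurveOver K F] {Z : Divisor K F}
    (hZ : ∀ v, 0 ≤ Z v) (v₀ : Place K F) : Z v₀ ≤ Divisor.degree Z := by
  classical
  by_cases hv : v₀ ∈ Z.support
  · have hdeg : Divisor.degree Z = Z.sum fun v n => n * (v.deg : ℤ) := by
      simp [Divisor.degree, Finsupp.liftAddHom_apply]
    rw [hdeg, Finsupp.sum]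
    have h1 : Z v₀ = Z v₀ * ((v₀.deg : ℕ) : ℤ) := by
      rw [IsCurveOver.deg_eq_one_of_isAlgClosed]
      simp
    rw [h1]
    exact Finset.single_le_sum (f := fun v => Z v * ((v.deg : ℕ) : ℤ))
      (fun v _ => mul_nonneg (hZ v) (Int.natCast_nonneg _)) hv
  · rw [Finsupp.notMem_support_iff.mp hv]
    exact degree_nonneg_of_nonneg hZ

/-- The divisor of zeros of `u - c` for a suitable `c ∈ ℕ`: effective, of positive degree, and
disjoint from the support of a given divisor. -/
theorem exists_zero_divisor_avoiding [IsAlgClosed K] [CharZero K] [IsCurveOver K F]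
    (P0 : Place K F) (u : F) (hu : ∀ a : K, u ≠ algebraMap K F a) (E : Divisor K F) :
    ∃ (c : ℕ) (B : Divisor K F),
      (∀ v, B v = max (v.ord (u - algebraMap K F (c : K))) 0) ∧
      1 ≤ Divisor.degree B ∧ ∀ P ∈ E.support, B P = 0 := by
  classical
  have huc0 : ∀ c : ℕ, u - algebraMap K F (c : K) ≠ 0 := fun c h => hu (c : K) (sub_eq_zero.mp h)
  -- for each place, at most one `c` makes it a zero of `u - c`
  have hsub : ∀ P : Place K F,
      {c : ℕ | 0 < P.ord (u - algebraMap K F (c : K))}.Subsingleton := by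
    intro P c hc c' hc'
    by_contra hne
    have hdiff : (u - algebraMap K F (c : K)) + -(u - algebraMap K F (c' : K))
        = algebraMap K F ((c' : K) - (c : K)) := by
      rw [map_sub]
      ring
    have hne0 : algebraMap K F ((c' : K) - (c : K)) ≠ 0 := by
      rw [Ne, map_eq_zero, sub_eq_zero]
      exact_mod_cast fun h : c' = c => hne h.symm
    have h1 := Fermat.Agent.S24.A564.SO.Place_ord_add_ge P
      (f := u - algebraMap K F (c : K)) (g := -(u - algebraMap K F (c' : K)))
      (by rw [hdiff]; exact hne0)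
    rw [hdiff, place_ord_algebraMap, place_ord_neg] at h1
    have h2 : 0 < min (P.ord (u - algebraMap K F (c : K))) (P.ord (u - algebraMap K F (c' : K))) :=
      lt_min hc hc'
    omega
  have hfin : (⋃ P ∈ (E.support : Set (Place K F)),
      {c : ℕ | 0 < P.ord (u - algebraMap K F (c : K))}).Finite :=
    Set.Finite.biUnion E.support.finite_toSet (fun P _ => (hsub P).finite)
  obtain ⟨c, hc⟩ := hfin.infinite_compl.nonempty
  obtain ⟨Dc, hDc, -⟩ := HasPrincipalDivisors.exists_divisor (K := K)
    (u - algebraMap K F (c : K)) (huc0 c)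
  obtain ⟨B, hB⟩ : ∃ B : Divisor K F,
      ∀ v, B v = max (v.ord (u - algebraMap K F (c : K))) 0 :=
    ⟨Dc.mapRange (fun n : ℤ => max n 0) (by simp), fun v => by
      rw [Finsupp.mapRange_apply, hDc]⟩
  have hBeff : ∀ v, 0 ≤ B v := fun v => by rw [hB]; exact le_max_right _ _
  refine ⟨c, B, hB, ?_, ?_⟩
  · -- positive degree: `u - c` has a zero
    have hzero : ∃ v₀ : Place K F, 0 < v₀.ord (u - algebraMap K F (c : K)) := by
      by_contra hno
      push Not at hno
      have hmem : (u - algebraMap K F (c : K))⁻¹ ∈ riemannRochSpace (0 : Divisor K F) := by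
        rw [mem_riemannRochSpace_iff]
        intro v
        right
        rw [Place.ord_inv]
        have := hno v
        simp only [Finsupp.coe_zero, Pi.zero_apply, neg_zero]
        omega
      obtain ⟨a, ha⟩ := exists_eq_algebraMap_of_mem_riemannRochSpace_zero P0 hmem
      apply hu (a⁻¹ + (c : K))
      have h3 : u - algebraMap K F (c : K) = algebraMap K F a⁻¹ := by
        rw [map_inv₀, ← ha, inv_inv]
      rw [map_add, ← h3]
      ring
    obtain ⟨v₀, hv₀⟩ := hzero
    have h1 := le_degree_of_nonneg hBeff v₀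
    rw [hB v₀] at h1
    have h2 : v₀.ord (u - algebraMap K F (c : K))
        ≤ max (v₀.ord (u - algebraMap K F (c : K))) 0 := le_max_left _ _
    omega
  · intro P hP
    rw [hB]
    have hnot : ¬ 0 < P.ord (u - algebraMap K F (c : K)) := by
      intro hpos
      apply hc
      simp only [Set.mem_iUnion]
      exact ⟨P, Finset.mem_coe.mpr hP, hpos⟩
    exact max_eq_right (not_lt.mp hnot)

/-- **Moving lemma with symmetries.**  Let `S` be a set of semilinear automorphisms of the curve
`F/K` satisfying Galois descent (`hdesc`).  Let `D₁` be an `S`-stable divisor of degree `0`, `B` an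
effective `S`-stable divisor of positive degree whose support avoids `supp E`.  Then `D₁` is
linearly equivalent to an `S`-stable divisor `D` whose support avoids `supp E`. -/
theorem exists_moved_rep [IsAlgClosed K] [CharZero K] [IsCurveOver K F]
    [Algebra.EssFiniteType K F] (S : Set (SemilinearAut K F))
    (D₁ : Divisor.degZero (K := K) (F := F))
    (hD₁ : ∀ g ∈ S, g • (D₁ : Divisor K F) = D₁)
    (B E : Divisor K F) (hBdeg : 1 ≤ Divisor.degree B)
    (hBfix : ∀ g ∈ S, g • B = B) (hBE : ∀ P ∈ E.support, B P = 0)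
    (hdesc : ∀ M : Submodule K F, (∀ g ∈ S, ∀ x ∈ M, g • x ∈ M) →
      ∀ w ∈ M, w ∈ Submodule.span K {y : F | y ∈ M ∧ ∀ g ∈ S, g • y = y}) :
    ∃ D : Divisor K F,
      (∃ h : D ∈ Divisor.degZero (K := K) (F := F), Pic0.mk ⟨D, h⟩ = Pic0.mk D₁) ∧
      (∀ g ∈ S, g • D = D) ∧ Disjoint D.support E.support := by
  classical
  have hD₁deg : Divisor.degree (D₁ : Divisor K F) = 0 := D₁.2
  -- Riemann–Roch
  have H : Fermat.Agent.S27.A.Hyp K F := Fermat.Agent.S27.A.hyp_of_isCurveOver
  obtain ⟨c₀, hc₀⟩ := Fermat.Agent.S27.A.exists_spec_eq_zero H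
  obtain ⟨m, hm⟩ : ∃ m : ℕ, max c₀ (genusFF K F : ℤ) + 1 ≤ (m : ℤ) :=
    ⟨(max c₀ (genusFF K F : ℤ) + 1).toNat, Int.self_le_toNat _⟩
  have hmc : c₀ + 1 ≤ (m : ℤ) :=
    le_trans (by have := le_max_left c₀ (genusFF K F : ℤ); omega) hm
  have hmg : (genusFF K F : ℤ) + 1 ≤ (m : ℤ) :=
    le_trans (by have := le_max_right c₀ (genusFF K F : ℤ); omega) hm
  have hmd : (m : ℤ) ≤ m * Divisor.degree B :=
    le_mul_of_one_le_right (Int.natCast_nonneg m) hBdeg
  set A : Divisor K F := (D₁ : Divisor K F) + m • B with hA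
  have hdegA : Divisor.degree A = m * Divisor.degree B := by
    rw [hA, map_add, hD₁deg, map_nsmul, zero_add, nsmul_eq_mul]
  have hellA : (Fermat.Agent.S27.A.ell A : ℤ) = m * Divisor.degree B + 1 - genusFF K F := by
    have h := Fermat.Agent.S27.A.riemann' H A
    rw [hc₀ A (by rw [hdegA]; omega), hdegA] at h
    simpa using h
  have hellP : ∀ P : Place K F,
      (Fermat.Agent.S27.A.ell (A - Finsupp.single P (1 : ℤ)) : ℤ)
        = m * Divisor.degree B - genusFF K F := by
    intro P
    have hdeg : Divisor.degree (A - Finsupp.single P (1 : ℤ)) = m * Divisor.degree B - 1 := by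
      rw [map_sub, hdegA, Divisor.degree_single, IsCurveOver.deg_eq_one_of_isAlgClosed]
      simp
    have h := Fermat.Agent.S27.A.riemann' H (A - Finsupp.single P (1 : ℤ))
    rw [hc₀ _ (by rw [hdeg]; omega), hdeg] at h
    have h' : (Fermat.Agent.S27.A.ell (A - Finsupp.single P (1 : ℤ)) : ℤ)
        = m * Divisor.degree B - 1 + 1 - genusFF K F := by simpa using h
    omega
  -- stability of `V = L(A)` and descent
  have hAfix : ∀ g ∈ S, g • A = A := by
    intro g hg
    rw [hA, smul_add, semilinear_smul_nsmul, hD₁ g hg, hBfix g hg]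
  have hVstab : ∀ g ∈ S, ∀ w ∈ riemannRochSpace A, g • w ∈ riemannRochSpace A := by
    intro g hg w hw
    have := smul_mem_riemannRochSpace g hw
    rwa [hAfix g hg] at this
  have hspan := hdesc (riemannRochSpace A) hVstab
  -- the additive group of fixed vectors of `V`
  let AH : AddSubgroup F :=
    { carrier := {w | w ∈ riemannRochSpace A ∧ ∀ g ∈ S, g • w = w}
      zero_mem' := ⟨Submodule.zero_mem _, fun g _ => smul_zero _⟩
      add_mem' := fun {a b} ha hb =>
        ⟨Submodule.add_mem _ ha.1 hb.1, fun g hg => by rw [smul_add, ha.2 g hg, hb.2 g hg]⟩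
      neg_mem' := fun {a} ha =>
        ⟨Submodule.neg_mem _ ha.1, fun g hg => by rw [smul_neg, ha.2 g hg]⟩ }
  -- the subspaces to avoid
  let Ws : Finset (Submodule K F) :=
    insert ⊥ (E.support.image fun P => riemannRochSpace (A - Finsupp.single P (1 : ℤ)))
  have hkey : ∀ W ∈ Ws, ∃ v ∈ AH, v ∉ (id W : Submodule K F) := by
    intro W hW
    by_contra hcon
    push Not at hcon
    have hVW : riemannRochSpace A ≤ W := fun w hw =>
      (Submodule.span_le.mpr (fun y hy => hcon y hy)) (hspan w hw)
    rcases Finset.mem_insert.mp hW with rfl | hW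
    · have hbot : riemannRochSpace A = ⊥ := le_bot_iff.mp hVW
      have h0 : Fermat.Agent.S27.A.ell A = 0 := by
        unfold Fermat.Agent.S27.A.ell
        rw [hbot]
        exact finrank_bot K F
      rw [h0] at hellA
      push_cast at hellA
      omega
    · obtain ⟨P, -, rfl⟩ := Finset.mem_image.mp hW
      have hfinP := Fermat.Agent.S27.A.finite_ell H (A - Finsupp.single P (1 : ℤ))
      have hle : Fermat.Agent.S27.A.ell A
          ≤ Fermat.Agent.S27.A.ell (A - Finsupp.single P (1 : ℤ)) :=
        Submodule.finrank_mono hVW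
      have h1 := hellP P
      omega
  obtain ⟨w, hwA, hw⟩ := exists_mem_forall_notMem AH Ws id hkey
  have hwV : w ∈ riemannRochSpace A := hwA.1
  have hwfix : ∀ g ∈ S, g • w = w := hwA.2
  have hw0 : w ≠ 0 := by
    intro h0
    exact hw ⊥ (Finset.mem_insert_self _ _) (by rw [h0]; exact Submodule.zero_mem _)
  -- the representative
  obtain ⟨Ew, hEw, hEw0⟩ := HasPrincipalDivisors.exists_divisor (K := K) w hw0
  have hEwprin : Ew ∈ Divisor.principal (K := K) (F := F) := ⟨w, hw0, hEw⟩
  have hDdeg : (D₁ : Divisor K F) + Ew ∈ Divisor.degZero (K := K) (F := F) := by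
    rw [Divisor.mem_degZero, map_add, hD₁deg, hEw0, add_zero]
  refine ⟨(D₁ : Divisor K F) + Ew, ⟨hDdeg, ?_⟩, ?_, ?_⟩
  · refine (QuotientAddGroup.eq).mpr ?_
    rw [AddSubgroup.mem_addSubgroupOf]
    have : ((-(⟨(D₁ : Divisor K F) + Ew, hDdeg⟩ : Divisor.degZero (K := K) (F := F)) + D₁ :
        Divisor.degZero (K := K) (F := F)) : Divisor K F) = -Ew := by
      rw [AddSubgroup.coe_add, AddSubgroup.coe_neg]
      show -((D₁ : Divisor K F) + Ew) + (D₁ : Divisor K F) = -Ew
      abel
    rw [this]
    exact neg_mem hEwprin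
  · intro g hg
    rw [smul_add, hD₁ g hg, smul_divisor_eq_of_fixed g (hwfix g hg) id hEw]
  · rw [Finset.disjoint_left]
    intro P hPD hPE
    apply Finsupp.mem_support_iff.mp hPD
    have hBP : B P = 0 := hBE P hPE
    have hAP : A P = (D₁ : Divisor K F) P := by
      rw [hA, Finsupp.add_apply, Finsupp.smul_apply, hBP, smul_zero, add_zero]
    have h1 : -A P ≤ P.ord w := (mem_riemannRochSpace_iff.mp hwV P).resolve_left hw0
    have h2 : w ∉ riemannRochSpace (A - Finsupp.single P (1 : ℤ)) :=
      hw _ (Finset.mem_insert_of_mem (Finset.mem_image_of_mem _ hPE))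
    rw [mem_riemannRochSpace_iff] at h2
    simp only [not_forall, not_or, not_le] at h2
    obtain ⟨v, -, hv⟩ := h2
    rw [Finsupp.add_apply, hEw]
    by_cases hvP : v = P
    · subst hvP
      rw [Finsupp.sub_apply, Finsupp.single_apply, if_pos rfl] at hv
      omega
    · rw [Finsupp.sub_apply, Finsupp.single_apply, if_neg (Ne.symm hvP), sub_zero] at hv
      have h3 : -A v ≤ v.ord w := (mem_riemannRochSpace_iff.mp hwV v).resolve_left hw0
      omega

end General

/-! ### The Galois side -/

local notation "Qb" => AlgebraicClosure ℚ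

variable (F₀ : IntermediateField ℚ (LaurentSeries ℚ))
  [IsCurveOver (AlgebraicClosure ℚ) (FBar F₀)]

/-- A curve `FBar F₀` contains a non-constant function fixed by the whole Galois group. -/
theorem exists_fixed_nonconstant :
    ∃ u : FBar F₀, (∀ σ : GQ, arithmeticGalois F₀ σ • u = u) ∧
      ∀ a : Qb, u ≠ algebraMap Qb (FBar F₀) a := by
  by_contra hcon
  push Not at hcon
  have hle : laurentBaseChange Qb F₀ ≤ ⊥ := by
    unfold laurentBaseChange
    rw [IntermediateField.adjoin_le_iff]
    rintro _ ⟨z, hz, rfl⟩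
    obtain ⟨a, ha⟩ := hcon ⟨coeffEmb Qb z, coeffEmb_mem_laurentBaseChange Qb hz⟩
      (fun σ => Subtype.ext (coeffMap_coeffEmb σ z))
    rw [SetLike.mem_coe, IntermediateField.mem_bot]
    exact ⟨a, (congrArg Subtype.val ha).symm⟩
  have hsurj : Function.Surjective (algebraMap Qb (FBar F₀)) := by
    intro f
    obtain ⟨a, ha⟩ := IntermediateField.mem_bot.mp (hle f.2)
    exact ⟨a, Subtype.ext ha⟩
  have hsub := KaehlerDifferential.subsingleton_of_surjective Qb (FBar F₀) hsurj
  exact (not_subsingleton_iff_nontrivial.mpr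
    (IsCurveOver.instNontrivialKaehler (K := Qb) (F := FBar F₀))) hsub

variable [Algebra.EssFiniteType (AlgebraicClosure ℚ) (FBar F₀)]
variable (K₁ : IntermediateField ℚ (AlgebraicClosure ℚ)) [FiniteDimensional ℚ K₁]

set_option linter.unusedSectionVars false in
/-- **WA2** (statement of `WA/Skel.lean`): a `K₁`-rational class has a `K₁`-rational
representative prime to any given divisor. -/
theorem exists_rep (x : Pic0 (AlgebraicClosure ℚ) (FBar F₀))
    (hfix : ClassFixed F₀ K₁.fixingSubgroup x)
    (E : Divisor (AlgebraicClosure ℚ) (FBar F₀)) :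
    ∃ D : Divisor (AlgebraicClosure ℚ) (FBar F₀), IsRep F₀ K₁.fixingSubgroup x E D := by
  have hP0 := arithmeticGalois_smul_qPlace Qb F₀
  -- a stable representative
  obtain ⟨D₁, hD₁, hD₁fix⟩ := exists_galois_stable_divisor F₀ (qPlace Qb F₀)
    (exists_riemannRochSpace_ne_bot (qPlace Qb F₀)) x
  -- the auxiliary divisor
  obtain ⟨u, hufix, hunc⟩ := exists_fixed_nonconstant F₀
  obtain ⟨c, B, hB, hBdeg, hBE⟩ := exists_zero_divisor_avoiding (qPlace Qb F₀) u hunc E
  have hucfix : ∀ σ : GQ, arithmeticGalois F₀ σ • (u - algebraMap Qb (FBar F₀) (c : Qb))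
      = u - algebraMap Qb (FBar F₀) (c : Qb) := by
    intro σ
    rw [smul_sub, hufix σ, SemilinearAut.smul_algebraMap, baseAut_arithmeticGalois]
    congr 2
    exact map_natCast σ c
  -- the set of symmetries
  obtain ⟨S, hS⟩ : ∃ S : Set (SemilinearAut Qb (FBar F₀)),
      ∀ g, g ∈ S ↔ ∃ σ ∈ K₁.fixingSubgroup, arithmeticGalois F₀ σ = g :=
    ⟨{g | ∃ σ ∈ K₁.fixingSubgroup, arithmeticGalois F₀ σ = g}, fun g => Iff.rfl⟩
  have hIsAlg : Algebra.IsAlgebraic ℚ Qb := AlgebraicClosure.isAlgebraic ℚ
  obtain ⟨D, ⟨hDdeg, hDmk⟩, hDfix, hDdisj⟩ := exists_moved_rep S D₁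
    (fun g hg => by
      obtain ⟨σ, hσ, rfl⟩ := (hS g).mp hg
      exact hD₁fix σ (hP0 σ) (hfix σ hσ))
    B E hBdeg
    (fun g hg => by
      obtain ⟨σ, -, rfl⟩ := (hS g).mp hg
      exact smul_divisor_eq_of_fixed _ (hucfix σ) (fun n => max n 0) hB)
    hBE
    (fun M hM w hw => by
      have h1 := Descent.mem_span_fixed F₀ K₁.fixingSubgroup M
        (fun σ hσ y hy => hM _ ((hS _).mpr ⟨σ, hσ, rfl⟩) y hy) w hw
      refine Submodule.span_mono ?_ h1
      rintro y ⟨hyM, hy⟩
      refine ⟨hyM, fun g hg => ?_⟩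
      obtain ⟨σ, hσ, rfl⟩ := (hS g).mp hg
      exact hy σ hσ)
  exact ⟨D, ⟨hDdeg, hDmk.trans hD₁⟩, fun σ hσ => hDfix _ ((hS _).mpr ⟨σ, hσ, rfl⟩), hDdisj⟩

end Fermat.Agent.S17.WA.H396
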