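/-
S17 / WA leaf WA3 `exists_evalDiv_eq` (helper1594): the Kummer value `f(D)` is a nonzero
element of `K₁`.  Same statement as `Fermat/Agent/S17/WA/Skel.lean` (helper5016 skeleton v1).

Reusable general lemmas (any alg. closed `K`, `[IsCurveOver K F]`), about `W.evK` / `W.evalDiv`:
* `evK_spec`     : `algebraMap K κ(P) (evK P f) = residue f` for `f` regular at `P`;
* `evK_eq_iff`   : `evK P f = c ↔ f - c ∈ 𝔪_P` (characterisation, for `f` regular at `P`);
* `evK_ne_zero`  : `f ≠ 0`, `ord_P f = 0` ⇒ `evK P f ≠ 0`;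
* `evK_smul`     : `evK (g • P) (g • f) = baseAut g (evK P f)` for `g : SemilinearAut K F`
                   (Galois equivariance `σ (f(P)) = (σ f)(σ P)`), no regularity hypothesis;
* `evalDiv_smul` : `evalDiv (g • f) (g • D) = baseAut g (evalDiv f D)`;
* `evalDiv_ne_zero` : `evalDiv f D ≠ 0` if `ord_P f = 0` on `supp D`.
-/
import Fermat.Agent.S17.W.Defs
import Fermat.Agent.S24.A564.LocalDiff

set_option autoImplicit false

namespace Fermat.Agent.S17.WA.H1594

open AlgebraicCurve ModularCurve Fermat.Agent.S17.W Fermat.Agent.S24.A564.LD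

section General

variable {K F : Type*} [Field K] [Field F] [Algebra K F]

theorem algebraMap_residue_bijective [IsAlgClosed K] [IsCurveOver K F] (P : Place K F) :
    Function.Bijective (algebraMap K P.ResidueField) := by
  have : Module.Finite K P.ResidueField := IsCurveOver.finiteResidue P
  have : Algebra.IsIntegral K P.ResidueField := Algebra.IsIntegral.of_finite K P.ResidueField
  exact IsAlgClosed.algebraMap_bijective_of_isIntegral

theorem evK_of_mem (P : Place K F) {f : F} (h : f ∈ P.toValuationSubring) :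
    evK P f = Function.invFun (algebraMap K P.ResidueField)
      (IsLocalRing.residue P.toValuationSubring ⟨f, h⟩) := by
  unfold evK
  rw [dif_pos h]

theorem evK_of_not_mem (P : Place K F) {f : F} (h : f ∉ P.toValuationSubring) :
    evK P f = 0 := by
  unfold evK
  rw [dif_neg h]

/-- `evK P f` is the constant congruent to `f` modulo the maximal ideal. -/
theorem evK_spec [IsAlgClosed K] [IsCurveOver K F] (P : Place K F) {f : F}
    (h : f ∈ P.toValuationSubring) :
    algebraMap K P.ResidueField (evK P f) = IsLocalRing.residue P.toValuationSubring ⟨f, h⟩ := by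
  rw [evK_of_mem P h]
  exact Function.rightInverse_invFun (algebraMap_residue_bijective P).2 _

/-- Characterisation of the value at a place. -/
theorem evK_eq_iff [IsAlgClosed K] [IsCurveOver K F] (P : Place K F) {f : F}
    (h : f ∈ P.toValuationSubring) (c : K) :
    evK P f = c ↔ (⟨f, h⟩ - algebraMap K P.toValuationSubring c : P.toValuationSubring) ∈
      IsLocalRing.maximalIdeal P.toValuationSubring := by
  rw [← IsLocalRing.residue_eq_zero_iff, map_sub, sub_eq_zero, ← evK_spec P h]
  constructor
  · intro hc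
    rw [hc]
    rfl
  · intro hc
    exact (algebraMap_residue_bijective P).1 hc

theorem evK_ne_zero [IsAlgClosed K] [IsCurveOver K F] (P : Place K F) {f : F} (hf : f ≠ 0)
    (hord : P.ord f = 0) : evK P f ≠ 0 := by
  have hmem : f ∈ P.toValuationSubring := (ord_nonneg_iff P hf).mp (by rw [hord])
  intro h0
  have h1 := (evK_eq_iff P hmem 0).mp h0
  rw [map_zero, sub_zero] at h1
  have hne : (⟨f, hmem⟩ : P.toValuationSubring) ≠ 0 := fun h => hf (congrArg Subtype.val h)
  have h2 := (ord_pos_iff_mem_maximalIdeal P ⟨f, hmem⟩ hne).mpr h1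
  have h3 : P.ord f > 0 := h2
  omega

/-- **Galois equivariance of evaluation**: `(g f)(g P) = g (f(P))`. -/
theorem evK_smul [IsAlgClosed K] [IsCurveOver K F] (g : SemilinearAut K F) (P : Place K F)
    (f : F) : evK (g • P) (g • f) = SemilinearAut.baseAut g (evK P f) := by
  by_cases h : f ∈ P.toValuationSubring
  · have h' : g • f ∈ (g • P).toValuationSubring :=
      ValuationSubring.smul_mem_pointwise_smul g f P.toValuationSubring h
    apply (algebraMap_residue_bijective (g • P)).1
    rw [evK_spec (g • P) h', ← SemilinearAut.smulResidueRingEquiv_algebraMap g P, evK_spec P h]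
    rfl
  · have h' : g • f ∉ (g • P).toValuationSubring := by
      intro hmem
      apply h
      have h1 := (ValuationSubring.mem_pointwise_smul_iff_inv_smul_mem (g := g)
        (S := P.toValuationSubring) (x := g • f)).mp hmem
      rwa [inv_smul_smul] at h1
    rw [evK_of_not_mem P h, evK_of_not_mem (g • P) h', map_zero]

/-- Galois equivariance of `evalDiv`. -/
theorem evalDiv_smul [IsAlgClosed K] [IsCurveOver K F] (g : SemilinearAut K F) (f : F)
    (D : Divisor K F) : evalDiv (g • f) (g • D) = SemilinearAut.baseAut g (evalDiv f D) := by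
  unfold evalDiv
  rw [SemilinearAut.divisor_smul_def, Finsupp.prod_mapDomain_index_inj (MulAction.injective g),
    map_finsuppProd]
  refine Finsupp.prod_congr (fun P _ => ?_)
  rw [evK_smul, map_zpow₀]

theorem evalDiv_ne_zero [IsAlgClosed K] [IsCurveOver K F] {f : F} (hf : f ≠ 0)
    {D : Divisor K F} (hD : ∀ P ∈ D.support, P.ord f = 0) : evalDiv f D ≠ 0 := by
  unfold evalDiv Finsupp.prod
  rw [Finset.prod_ne_zero_iff]
  intro P hP
  exact zpow_ne_zero _ (evK_ne_zero P hf (hD P hP))

end General

section Galois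

variable (F₀ : IntermediateField ℚ (LaurentSeries ℚ))
  [IsCurveOver (AlgebraicClosure ℚ) (FBar F₀)]
  [Algebra.EssFiniteType (AlgebraicClosure ℚ) (FBar F₀)]
variable (K₁ : IntermediateField ℚ (AlgebraicClosure ℚ)) [FiniteDimensional ℚ K₁]

/-- `ℚ̄/ℚ` is Galois (for the algebra instance used by the Prelude). -/
theorem isGalois_Qbar_L3 : IsGalois ℚ (AlgebraicClosure ℚ) := by
  have h1 : Algebra.IsAlgebraic ℚ (AlgebraicClosure ℚ) := AlgebraicClosure.isAlgebraic ℚ
  have h2 : IsAlgClosure ℚ (AlgebraicClosure ℚ) := ⟨inferInstance, h1⟩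
  infer_instance

/-- Values of an `H`-fixed function on an `H`-fixed divisor are `H`-fixed. -/
theorem evalDiv_fixed {H : Subgroup GQ} {f : FBar F₀}
    {D : Divisor (AlgebraicClosure ℚ) (FBar F₀)} (hf : FunFixed F₀ H f) (hD : DivFixed F₀ H D)
    (σ : GQ) (hσ : σ ∈ H) : σ (evalDiv f D) = evalDiv f D := by
  have h := evalDiv_smul (arithmeticGalois F₀ σ) f D
  rw [hf σ hσ, hD σ hσ] at h
  exact h.symm

/-- WA3: the Kummer value `f(D)` is a nonzero element of `K₁`. -/
theorem exists_evalDiv_eq {t x : Pic0 (AlgebraicClosure ℚ) (FBar F₀)}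
    {E D : Divisor (AlgebraicClosure ℚ) (FBar F₀)} {f : FBar F₀}
    (h : IsTwoDatum F₀ K₁.fixingSubgroup t E f) (hD : IsRep F₀ K₁.fixingSubgroup x E D) :
    ∃ c : K₁ˣ, (((c : K₁ˣ) : K₁) : AlgebraicClosure ℚ) = evalDiv f D := by
  classical
  have hgal := isGalois_Qbar_L3
  have hfix : ∀ σ : GQ, σ ∈ K₁.fixingSubgroup → σ (evalDiv f D) = evalDiv f D :=
    fun σ hσ => evalDiv_fixed F₀ h.fixedf hD.fixed σ hσ
  have hmem : evalDiv f D ∈ K₁ := by
    have h1 := InfiniteGalois.fixedField_fixingSubgroup K₁
    rw [← h1, IntermediateField.mem_fixedField_iff]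
    exact hfix
  have hne : evalDiv f D ≠ 0 := by
    apply evalDiv_ne_zero h.div.1
    intro P hP
    have hPE : P ∉ E.support := fun hPE => (Finset.disjoint_left.mp hD.disj) hP hPE
    have hE0 : E P = 0 := Finsupp.notMem_support_iff.mp hPE
    have h2 := h.div.2 P
    rw [Finsupp.smul_apply, hE0, smul_zero] at h2
    exact h2.symm
  refine ⟨Units.mk0 ⟨evalDiv f D, hmem⟩ (fun h0 => hne (congrArg Subtype.val h0)), rfl⟩

end Galois

end Fermat.Agent.S17.WA.H1594
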