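/-
S17 / package WA (weak Mordell–Weil, part W3) — helper9418.

The Kummer calculus of helper5016's route, on top of the FROZEN FND interface
(`Fermat/Agent/S17/FND/{Defs,Skel}.lean`: `divF`, `evalAt`, `evalDiv`, `weil_reciprocity`,
`evalAt_smul`, `evalDiv_add`, `evalDiv_mul`, `evalDiv_neg`, `evalDiv_ne_zero`).

Data: `f ≠ 0` with `div f = l • E` (so `[E]` is an `l`-torsion class `t`, `f = f_t`).
* `evalDiv_add_divF`  (W3, well-definedness):  `f(D + div w) = f(D) * w(E)^l`.
* `kummer_pow`        (W3, Kummer radical):    `l • D' = D + div h  ⟹  f(D')^l = f(D) * h(E)^l`,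
                      i.e. `α := f(D') / h(E)` satisfies `α^l = f(D)`.
* `kummer_galois`     (W3, Galois formula):    for a semilinear `g` fixing `f`, `E`, `D`:
                      `g(α) = α * ( f(E_s) / f_s(E) )` with `E_s = g • D' - D'`, `f_s = g • h / h`
                      and `div f_s = l • E_s` (`divF_kummer_quot`): the Weil pairing of the
                      data `(E, f)` and `(E_s, f_s)`.
Auxiliary API: `UnitOn`, `evalDiv_nsmul`, `evalDiv_smul_smul` (semilinear equivariance),
`divF_smul`.
-/
import Fermat.Agent.S17.FND.Skel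

set_option autoImplicit false

noncomputable section

namespace Fermat.Agent.S17.WA.H9418

open AlgebraicCurve Fermat.Agent.S17.FND

variable {K F : Type*} [Field K] [Field F] [Algebra K F]

/-- `f` is a unit at every point of the support of `D`. -/
def UnitOn (f : F) (D : Divisor K F) : Prop := ∀ P ∈ D.support, P.ord f = 0

theorem UnitOn.add {f : F} {D E : Divisor K F} (hD : UnitOn f D) (hE : UnitOn f E) :
    UnitOn f (D + E) := by
  classical
  intro P hP
  rcases Finset.mem_union.mp (Finsupp.support_add hP) with h | h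
  · exact hD P h
  · exact hE P h

theorem UnitOn.neg {f : F} {D : Divisor K F} (hD : UnitOn f D) : UnitOn f (-D) := by
  intro P hP
  rw [Finsupp.support_neg] at hP
  exact hD P hP

theorem UnitOn.sub {f : F} {D E : Divisor K F} (hD : UnitOn f D) (hE : UnitOn f E) :
    UnitOn f (D - E) := by
  rw [sub_eq_add_neg]
  exact hD.add hE.neg

theorem UnitOn.nsmul {f : F} {D : Divisor K F} (hD : UnitOn f D) (l : ℕ) :
    UnitOn f (l • D) := by
  intro P hP
  exact hD P (Finsupp.support_smul hP)

theorem unitOn_zero (f : F) : UnitOn f (0 : Divisor K F) := by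
  intro P hP
  simp at hP

section Principal

variable [HasPrincipalDivisors K F]

theorem mem_support_divF {f : F} {P : Place K F} :
    P ∈ (divF f : Divisor K F).support ↔ P.ord f ≠ 0 := by
  rw [Finsupp.mem_support_iff, divF_apply]

theorem unitOn_divF_iff_disjoint {f g : F} :
    UnitOn f (divF g : Divisor K F) ↔
      Disjoint (divF f : Divisor K F).support (divF g : Divisor K F).support := by
  rw [Finset.disjoint_left]
  constructor
  · intro h P hPf hPg
    exact (mem_support_divF.mp hPf) (h P hPg)
  · intro h P hPg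
    by_contra hne
    exact h (mem_support_divF.mpr hne) hPg

theorem unitOn_of_divF_eq_nsmul {l : ℕ} (hl : l ≠ 0) {f h : F} {E : Divisor K F}
    (hfE : (divF f : Divisor K F) = l • E) :
    UnitOn h E ↔ UnitOn h (divF f : Divisor K F) := by
  have hsupp : (divF f : Divisor K F).support = E.support := by
    rw [hfE]
    ext P
    simp only [Finsupp.mem_support_iff, Finsupp.smul_apply, nsmul_eq_mul, ne_eq,
      mul_eq_zero, Nat.cast_eq_zero, hl, false_or]
  unfold UnitOn
  rw [hsupp]

/-- `div (g • f) = g • div f` for a semilinear automorphism. -/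
theorem divF_smul (g : SemilinearAut K F) (f : F) :
    (divF (g • f) : Divisor K F) = g • (divF f : Divisor K F) := by
  refine Finsupp.ext fun P => ?_
  rw [divF_apply, SemilinearAut.divisor_smul_apply, divF_apply]
  have := SemilinearAut.ord_smul g (g⁻¹ • P) f
  rwa [smul_inv_smul] at this

end Principal

theorem UnitOn.smul {f : F} {D : Divisor K F} (hD : UnitOn f D) (g : SemilinearAut K F) :
    UnitOn (g • f) (g • D) := by
  intro P hP
  have hP' : g⁻¹ • P ∈ D.support := by
    rw [Finsupp.mem_support_iff] at hP ⊢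
    rwa [SemilinearAut.divisor_smul_apply] at hP
  have h := SemilinearAut.ord_smul g (g⁻¹ • P) f
  rw [smul_inv_smul] at h
  rw [h]
  exact hD _ hP'

/-! ### `evalDiv` : multiples and semilinear equivariance (no hypotheses on `K`, `F`) -/

theorem evalDiv_zero_right (f : F) : evalDiv f (0 : Divisor K F) = 1 := by
  simp [evalDiv]

theorem evalDiv_nsmul (f : F) (D : Divisor K F) (l : ℕ) :
    evalDiv f (l • D) = evalDiv f D ^ l := by
  classical
  unfold evalDiv
  rw [Finsupp.prod_of_support_subset (l • D) (s := D.support) Finsupp.support_smul _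
    (fun P _ => zpow_zero _), Finsupp.prod, ← Finset.prod_pow]
  refine Finset.prod_congr rfl fun P _ => ?_
  rw [Finsupp.smul_apply, nsmul_eq_mul, mul_comm, zpow_mul, zpow_natCast]

section Equivariance

variable [IsAlgClosed K] [CharZero K] [IsCurveOver K F] [Algebra.EssFiniteType K F]

/-- Semilinear equivariance of the value on a divisor. -/
theorem evalDiv_smul_smul (g : SemilinearAut K F) (f : F) (D : Divisor K F) :
    evalDiv (g • f) (g • D) = SemilinearAut.baseAut g (evalDiv f D) := by
  classical
  unfold evalDiv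
  rw [SemilinearAut.divisor_smul_def,
    Finsupp.prod_mapDomain_index_inj (MulAction.injective g), Finsupp.prod, Finsupp.prod,
    map_prod]
  refine Finset.prod_congr rfl fun P _ => ?_
  rw [evalAt_smul, map_zpow₀]

/-! ### W3 -/

/-- **W3, well-definedness.**  If `div f = l • E` then `f(D + div w) = f(D) * w(E)^l`. -/
theorem evalDiv_add_divF {l : ℕ} {f w : F} (hf : f ≠ 0) (hw : w ≠ 0) {E D : Divisor K F}
    (hfE : (divF f : Divisor K F) = l • E) (hD : UnitOn f D)
    (hw' : UnitOn f (divF w : Divisor K F)) :
    evalDiv f (D + divF w) = evalDiv f D * evalDiv w E ^ l := by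
  rw [evalDiv_add hf hD hw', weil_reciprocity hf hw (unitOn_divF_iff_disjoint.mp hw'), hfE,
    evalDiv_nsmul]

/-- **W3, Kummer radical.**  If `div f = l • E` and `l • D' = D + div h`, then
`f(D')^l = f(D) * h(E)^l`. -/
theorem kummer_pow {l : ℕ} {f h : F} (hf : f ≠ 0) (hh : h ≠ 0) {E D D' : Divisor K F}
    (hfE : (divF f : Divisor K F) = l • E) (hD : UnitOn f D) (hD' : UnitOn f D')
    (hrel : l • D' = D + divF h) :
    evalDiv f D' ^ l = evalDiv f D * evalDiv h E ^ l := by
  have hdivh : (divF h : Divisor K F) = l • D' - D := by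
    rw [hrel]; abel
  have hU : UnitOn f (divF h : Divisor K F) := by
    rw [hdivh]
    exact (hD'.nsmul l).sub hD
  rw [← evalDiv_nsmul, hrel, evalDiv_add_divF hf hh hfE hD hU]

/-- `h` is a unit on `E` in the situation of `kummer_pow` (`l ≠ 0`). -/
theorem unitOn_of_kummer {l : ℕ} (hl : l ≠ 0) {f h : F} {E D D' : Divisor K F}
    (hfE : (divF f : Divisor K F) = l • E) (hD : UnitOn f D) (hD' : UnitOn f D')
    (hrel : l • D' = D + divF h) : UnitOn h E := by
  have hdivh : (divF h : Divisor K F) = l • D' - D := by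
    rw [hrel]; abel
  have hU : UnitOn f (divF h : Divisor K F) := by
    rw [hdivh]
    exact (hD'.nsmul l).sub hD
  rw [unitOn_of_divF_eq_nsmul hl hfE]
  intro P hP
  by_contra hne
  exact (mem_support_divF.mp hP) (hU P (mem_support_divF.mpr hne))

/-- In the situation of `kummer_pow`, `α = f(D') / h(E)` is an `l`-th root of `f(D)`. -/
theorem kummer_root_pow {l : ℕ} (hl : l ≠ 0) {f h : F} (hf : f ≠ 0) (hh : h ≠ 0)
    {E D D' : Divisor K F}
    (hfE : (divF f : Divisor K F) = l • E) (hD : UnitOn f D) (hD' : UnitOn f D')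
    (hrel : l • D' = D + divF h) :
    (evalDiv f D' / evalDiv h E) ^ l = evalDiv f D := by
  have hne : evalDiv h E ≠ 0 :=
    evalDiv_ne_zero (unitOn_of_kummer hl hfE hD hD' hrel) hh
  rw [div_pow, kummer_pow hf hh hfE hD hD' hrel, mul_div_assoc, div_self (pow_ne_zero _ hne),
    mul_one]

/-- The divisor of `f_s = g • h / h` is `l • (g • D' - D')` when `g` fixes `D`. -/
theorem divF_kummer_quot {l : ℕ} {h : F} (hh : h ≠ 0) {D D' : Divisor K F}
    (hrel : l • D' = D + divF h) (g : SemilinearAut K F) (hgD : g • D = D) :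
    (divF (g • h * h⁻¹) : Divisor K F) = l • (g • D' - D') := by
  have hgh : g • h ≠ 0 := by
    intro h0
    apply hh
    have := congrArg (fun y => g⁻¹ • y) h0
    simpa using this
  have hdivh : (divF h : Divisor K F) = l • D' - D := by
    rw [hrel]; abel
  rw [divF_mul hgh (inv_ne_zero hh), divF_inv, divF_smul, hdivh, smul_sub, hgD,
    smul_comm g l D', smul_sub]
  abel

/-- **W3, Galois formula.**  Let `div f = l • E`, `l • D' = D + div h`, and let the semilinear
automorphism `g` fix `f`, `E` and `D`.  Then for `α = f(D') / h(E)`: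
`g(α) = α * ( f(g • D' - D') / (g • h / h)(E) )`. -/
theorem kummer_galois {l : ℕ} (hl : l ≠ 0) {f h : F} (hf : f ≠ 0) (hh : h ≠ 0)
    {E D D' : Divisor K F}
    (hfE : (divF f : Divisor K F) = l • E) (hD : UnitOn f D) (hD' : UnitOn f D')
    (hrel : l • D' = D + divF h)
    (g : SemilinearAut K F) (hgf : g • f = f) (hgE : g • E = E) :
    SemilinearAut.baseAut g (evalDiv f D' / evalDiv h E)
      = (evalDiv f D' / evalDiv h E)
        * (evalDiv f (g • D' - D') / evalDiv (g • h * h⁻¹) E) := by
  have hgh : g • h ≠ 0 := by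
    intro h0
    apply hh
    have := congrArg (fun y => g⁻¹ • y) h0
    simpa using this
  have hUh : UnitOn h E := unitOn_of_kummer hl hfE hD hD' hrel
  have hUgh : UnitOn (g • h) E := by
    have := hUh.smul g
    rwa [hgE] at this
  have hUgD' : UnitOn f (g • D') := by
    have := hD'.smul g
    rwa [hgf] at this
  have hne : evalDiv h E ≠ 0 := evalDiv_ne_zero hUh hh
  have hne' : evalDiv f D' ≠ 0 := evalDiv_ne_zero hD' hf
  -- numerator
  have h1 : SemilinearAut.baseAut g (evalDiv f D') = evalDiv f D' * evalDiv f (g • D' - D') := by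
    rw [← evalDiv_smul_smul, hgf, ← evalDiv_add hf hD' (hUgD'.sub hD')]
    congr 1
    abel
  -- denominator
  have hUinv : UnitOn h⁻¹ E := by
    intro P hP
    rw [P.ord_inv, hUh P hP, neg_zero]
  have h2 : SemilinearAut.baseAut g (evalDiv h E) = evalDiv h E * evalDiv (g • h * h⁻¹) E := by
    rw [← evalDiv_smul_smul, hgE, ← evalDiv_mul hh (mul_ne_zero hgh (inv_ne_zero hh)) hUh
      (by
        intro P hP
        rw [P.ord_mul hgh (inv_ne_zero hh), hUgh P hP, hUinv P hP, add_zero])]
    congr 1
    rw [mul_comm (g • h), ← mul_assoc, mul_inv_cancel₀ hh, one_mul]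
  have hne2 : evalDiv (g • h * h⁻¹) E ≠ 0 := by
    intro h0
    rw [h0, mul_zero] at h2
    exact hne ((map_eq_zero _).mp h2)
  rw [map_div₀, h1, h2]
  field_simp

end Equivariance

end Fermat.Agent.S17.WA.H9418
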