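/-
S17 / package WA (weak Mordell–Weil, part W1, functions) — helper9418.

"Hilbert 90 for functions" WITHOUT Hilbert 90: in the Laurent model `F ⊆ L((q))` with the
coefficientwise Galois action, a function `f` that is multiplied by a constant under `σ`
becomes `σ`-FIXED after dividing by its leading Laurent coefficient (one normalisation that
works for all `σ` at once).

* `exists_const_of_ord_eq`   : (abstract) if `g • f` and `f` have the same divisor and functions
                               with trivial divisor are constants, then `g • f = c f`.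
* `smul_monic_eq_of_smul_eq_const_mul` : the monic normalisation is fixed.
* `exists_const_mul_fixed`   : one scalar `a ≠ 0` with `σ • (a f) = a f` for every `σ` under which
                               `f` is an eigenvector.
-/
import Mathlib
import Fermat.Prelude.Def_ModularCurve_ArithmeticGalois

set_option autoImplicit false

open AlgebraicCurve ModularCurve

namespace Fermat.Agent.S17.WA.H9418

section Abstract

variable {K F : Type*} [Field K] [Field F] [Algebra K F]

/-- If functions with trivial divisor are constants, a semilinear automorphism that preserves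
the divisor of `f` multiplies `f` by a constant. -/
theorem exists_const_of_ord_eq
    (hconst : ∀ u : F, u ≠ 0 → (∀ v : Place K F, v.ord u = 0) → ∃ a : K, u = algebraMap K F a)
    (g : SemilinearAut K F) {f : F} (hf : f ≠ 0)
    (h : ∀ v : Place K F, v.ord (g • f) = v.ord f) :
    ∃ c : K, c ≠ 0 ∧ g • f = algebraMap K F c * f := by
  have hgf : g • f ≠ 0 := by
    intro h0
    apply hf
    have := congrArg (fun y => g⁻¹ • y) h0
    simpa using this
  obtain ⟨c, hc⟩ := hconst (g • f * f⁻¹) (mul_ne_zero hgf (inv_ne_zero hf)) (fun v => by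
    rw [v.ord_mul hgf (inv_ne_zero hf), v.ord_inv, h v]
    ring)
  refine ⟨c, ?_, ?_⟩
  · rintro rfl
    rw [map_zero] at hc
    exact mul_ne_zero hgf (inv_ne_zero hf) hc
  · rw [← hc, mul_assoc, inv_mul_cancel₀ hf, mul_one]

end Abstract

section Laurent

variable {L : Type*} [Field L] [Algebra ℚ L]
variable (F₀ : IntermediateField ℚ (LaurentSeries ℚ))

/-- The leading Laurent coefficient of a nonzero element. -/
noncomputable def leadCoeff (f : laurentBaseChange L F₀) : L :=
  (f : LaurentSeries L).coeff (f : LaurentSeries L).order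

theorem leadCoeff_ne_zero {f : laurentBaseChange L F₀} (hf : f ≠ 0) : leadCoeff F₀ f ≠ 0 := by
  have hx : (f : LaurentSeries L) ≠ 0 := fun h => hf (Subtype.ext h)
  exact fun h => hx (HahnSeries.coeff_order_eq_zero.mp h)

theorem coe_algebraMap_mul (c : L) (f : laurentBaseChange L F₀) (k : ℤ) :
    ((algebraMap L (laurentBaseChange L F₀) c * f : laurentBaseChange L F₀) :
      LaurentSeries L).coeff k = c * (f : LaurentSeries L).coeff k := by
  have h1 : ((algebraMap L (laurentBaseChange L F₀) c * f : laurentBaseChange L F₀) :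
      LaurentSeries L) = algebraMap L (LaurentSeries L) c * (f : LaurentSeries L) := rfl
  rw [h1, algebraMap_laurentSeries_eq_single]
  have h2 : (HahnSeries.single (0 : ℤ) c * (f : LaurentSeries L)).coeff (k + 0)
      = c * (f : LaurentSeries L).coeff k := HahnSeries.coeff_single_mul_add
  rwa [add_zero] at h2

/-- If `σ • f = c f` for a constant `c`, then `σ` fixes `(leading coefficient)⁻¹ f`. -/
theorem smul_monic_eq_of_smul_eq_const_mul (σ : L ≃ₐ[ℚ] L) {f : laurentBaseChange L F₀}
    (hf : f ≠ 0) {c : L}
    (hc : arithmeticGalois F₀ σ • f = algebraMap L (laurentBaseChange L F₀) c * f) :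
    arithmeticGalois F₀ σ • (algebraMap L (laurentBaseChange L F₀) (leadCoeff F₀ f)⁻¹ * f)
      = algebraMap L (laurentBaseChange L F₀) (leadCoeff F₀ f)⁻¹ * f := by
  have hlead := leadCoeff_ne_zero F₀ hf
  -- compare the coefficients at the order of `f`
  have hcoeff : σ (leadCoeff F₀ f) = c * leadCoeff F₀ f := by
    have h1 := congrArg (fun y : laurentBaseChange L F₀ =>
      (y : LaurentSeries L).coeff (f : LaurentSeries L).order) hc
    rw [coe_arithmeticGalois_smul, coeffMap_coeff, coe_algebraMap_mul] at h1
    exact h1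
  have hσ : σ (leadCoeff F₀ f) ≠ 0 := (map_ne_zero _).mpr hlead
  have hc0 : c ≠ 0 := by
    rintro rfl
    rw [zero_mul] at hcoeff
    exact hσ hcoeff
  rw [smul_mul', SemilinearAut.smul_algebraMap, hc, ← mul_assoc, ← map_mul]
  congr 2
  show σ (leadCoeff F₀ f)⁻¹ * c = (leadCoeff F₀ f)⁻¹
  rw [map_inv₀, hcoeff, mul_inv, mul_comm c⁻¹, mul_assoc, inv_mul_cancel₀ hc0, mul_one]

/-- One normalisation for all `σ`: there is `a ≠ 0` such that `a f` is fixed by every `σ` under
which `f` is an eigenvector. -/
theorem exists_const_mul_fixed {f : laurentBaseChange L F₀} (hf : f ≠ 0) :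
    ∃ a : L, a ≠ 0 ∧ ∀ σ : L ≃ₐ[ℚ] L,
      (∃ c : L, arithmeticGalois F₀ σ • f = algebraMap L (laurentBaseChange L F₀) c * f) →
      arithmeticGalois F₀ σ • (algebraMap L (laurentBaseChange L F₀) a * f)
        = algebraMap L (laurentBaseChange L F₀) a * f :=
  ⟨(leadCoeff F₀ f)⁻¹, inv_ne_zero (leadCoeff_ne_zero F₀ hf), fun σ ⟨_, hc⟩ =>
    smul_monic_eq_of_smul_eq_const_mul F₀ σ hf hc⟩

end Laurent

end Fermat.Agent.S17.WA.H9418
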