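/-
S17 / package WA, leaf WA4 `evalDiv_rep_indep` — helper9418.

Statement = frozen skeleton `Fermat/Agent/S17/WA/Skel.lean` (origin/helper5016, v1), verbatim.

Proof.  `D - D' = div w₀` (same class).  For `σ ∈ H = Gal(ℚ̄/K₁)` the divisor of `σ w₀` equals
the divisor of `w₀` (`D`, `D'` are `H`-stable), so `σ w₀ = c_σ w₀` (functions without zeros and
poles are constants: FND `exists_eq_algebraMap_of_ord_nonneg`), hence the monic normalisation
`w = w₀ / lc(w₀)` is `H`-fixed (`MonicInv9418`, no Hilbert 90).  Weil reciprocity in the form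
`Kummer9418.evalDiv_add_divF`:  `f(D) = f(D' + div w) = f(D') * w(E)^2`, and `w(E)` is a nonzero
element of `ℚ̄` fixed by `H` (`evalDiv_smul_smul`), i.e. a unit of `K₁`
(`InfiniteGalois.fixedField_fixingSubgroup`).

External black boxes used (FROZEN interface `Fermat/Agent/S17/FND/Skel.lean`, origin/helper8457):
`weil_reciprocity`, `evalDiv_add`, `evalDiv_ne_zero`, `evalAt_smul`, `ord_algebraMap`,
`exists_eq_algebraMap_of_ord_nonneg`.  (`W.evK`/`W.evalDiv` are definitionally FND's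
`evalAt`/`evalDiv`.)
-/
import Fermat.Agent.S17.W.Defs
import Fermat.Agent.S17.WA.Kummer9418
import Fermat.Agent.S17.WA.MonicInv9418

set_option autoImplicit false

namespace Fermat.Agent.S17.WA.H9418

open AlgebraicCurve ModularCurve Fermat.Agent.S17.W

/-- The W-package evaluation is FND's evaluation. -/
theorem evK_eq_evalAt {K F : Type*} [Field K] [Field F] [Algebra K F] (P : Place K F) (f : F) :
    W.evK P f = FND.evalAt P f := rfl

/-- The W-package value on divisors is FND's. -/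
theorem evalDiv_eq_fnd {K F : Type*} [Field K] [Field F] [Algebra K F] (f : F)
    (D : Divisor K F) : W.evalDiv f D = FND.evalDiv f D := rfl

/-- An element of `ℚ̄` fixed by `Gal(ℚ̄/K₁)` lies in `K₁`. -/
theorem mem_of_fixed (K₁ : IntermediateField ℚ (AlgebraicClosure ℚ)) {c : AlgebraicClosure ℚ}
    (hc : ∀ σ ∈ K₁.fixingSubgroup, σ c = c) : c ∈ K₁ := by
  haveI : Algebra.IsAlgebraic ℚ (AlgebraicClosure ℚ) := AlgebraicClosure.isAlgebraic ℚ
  haveI : IsAlgClosure ℚ (AlgebraicClosure ℚ) := ⟨inferInstance, inferInstance⟩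
  haveI : IsGalois ℚ (AlgebraicClosure ℚ) := IsAlgClosure.isGalois ℚ (AlgebraicClosure ℚ)
  have h := InfiniteGalois.fixedField_fixingSubgroup K₁
  rw [← h, IntermediateField.mem_fixedField_iff]
  exact hc

variable (F₀ : IntermediateField ℚ (LaurentSeries ℚ))
  [IsCurveOver (AlgebraicClosure ℚ) (FBar F₀)]
  [Algebra.EssFiniteType (AlgebraicClosure ℚ) (FBar F₀)]
variable (K₁ : IntermediateField ℚ (AlgebraicClosure ℚ)) [FiniteDimensional ℚ K₁]

/-- Rational generator: two `H`-stable degree-zero divisors of the same class differ by the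
divisor of an `H`-FIXED function. -/
theorem exists_fixed_generator (H : Subgroup GQ)
    {x : Pic0 (AlgebraicClosure ℚ) (FBar F₀)}
    {D D' : Divisor (AlgebraicClosure ℚ) (FBar F₀)}
    (hD : IsClassOf D x) (hD' : IsClassOf D' x)
    (hfix : DivFixed F₀ H D) (hfix' : DivFixed F₀ H D') :
    ∃ w : FBar F₀, w ≠ 0 ∧ FunFixed F₀ H w ∧ D = D' + FND.divF w := by
  classical
  obtain ⟨hDdeg, hDx⟩ := hD
  obtain ⟨hD'deg, hD'x⟩ := hD'
  have hq : (Pic0.mk ⟨D', hD'deg⟩ : Pic0 (AlgebraicClosure ℚ) (FBar F₀))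
      = Pic0.mk ⟨D, hDdeg⟩ := by rw [hDx, hD'x]
  have hq' := (QuotientAddGroup.eq (s := (Divisor.principal (K := AlgebraicClosure ℚ)
    (F := FBar F₀)).addSubgroupOf (Divisor.degZero (K := AlgebraicClosure ℚ)
      (F := FBar F₀)))).mp hq
  rw [AddSubgroup.mem_addSubgroupOf] at hq'
  obtain ⟨w₀, hw₀, hw₀v⟩ := hq'
  have hdiff : ∀ v : Place (AlgebraicClosure ℚ) (FBar F₀), (-D' + D) v = v.ord w₀ := hw₀v
  -- the divisor of `w₀` is `H`-stable
  have hord : ∀ σ ∈ H, ∀ v : Place (AlgebraicClosure ℚ) (FBar F₀),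
      v.ord (arithmeticGalois F₀ σ • w₀) = v.ord w₀ := by
    intro σ hσ v
    have h1 := SemilinearAut.ord_smul (arithmeticGalois F₀ σ) ((arithmeticGalois F₀ σ)⁻¹ • v) w₀
    rw [smul_inv_smul] at h1
    rw [h1, ← hdiff, ← hdiff, ← SemilinearAut.divisor_smul_apply, smul_add, smul_neg,
      hfix σ hσ, hfix' σ hσ]
  have hconst : ∀ u : FBar F₀, u ≠ 0 →
      (∀ v : Place (AlgebraicClosure ℚ) (FBar F₀), v.ord u = 0) →
      ∃ a : AlgebraicClosure ℚ, u = algebraMap (AlgebraicClosure ℚ) (FBar F₀) a :=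
    fun u _ hu => FND.exists_eq_algebraMap_of_ord_nonneg (fun P => (hu P).ge)
  set a : AlgebraicClosure ℚ := (leadCoeff F₀ w₀)⁻¹ with ha
  have ha0 : a ≠ 0 := inv_ne_zero (leadCoeff_ne_zero F₀ hw₀)
  refine ⟨algebraMap (AlgebraicClosure ℚ) (FBar F₀) a * w₀,
    mul_ne_zero ((map_ne_zero _).mpr ha0) hw₀, ?_, ?_⟩
  · intro σ hσ
    obtain ⟨c, _, hc⟩ := exists_const_of_ord_eq hconst (arithmeticGalois F₀ σ) hw₀ (hord σ hσ)
    exact smul_monic_eq_of_smul_eq_const_mul F₀ σ hw₀ hc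
  · refine Finsupp.ext fun v => ?_
    rw [Finsupp.add_apply, FND.divF_apply, v.ord_mul ((map_ne_zero _).mpr ha0) hw₀,
      FND.ord_algebraMap, zero_add, ← hdiff, Finsupp.add_apply, Finsupp.neg_apply]
    ring

/-- **WA4.**  The Kummer value does not depend on the representative, up to squares of `K₁`. -/
theorem evalDiv_rep_indep {t x : Pic0 (AlgebraicClosure ℚ) (FBar F₀)}
    {E D D' : Divisor (AlgebraicClosure ℚ) (FBar F₀)} {f : FBar F₀}
    (h : IsTwoDatum F₀ K₁.fixingSubgroup t E f) (hD : IsRep F₀ K₁.fixingSubgroup x E D)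
    (hD' : IsRep F₀ K₁.fixingSubgroup x E D') :
    ∃ c : K₁ˣ, evalDiv f D = evalDiv f D' * (((c : K₁ˣ) : K₁) : AlgebraicClosure ℚ) ^ 2 := by
  classical
  obtain ⟨w, hw, hwfix, hDw⟩ :=
    exists_fixed_generator F₀ K₁.fixingSubgroup hD.cls hD'.cls hD.fixed hD'.fixed
  have hf : f ≠ 0 := h.div.1
  have hfE : (FND.divF f : Divisor (AlgebraicClosure ℚ) (FBar F₀)) = 2 • E := by
    refine Finsupp.ext fun v => ?_
    rw [FND.divF_apply, h.div.2 v]
  -- `f` is a unit on divisors prime to `E`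
  have hunit : ∀ {A : Divisor (AlgebraicClosure ℚ) (FBar F₀)},
      Disjoint A.support E.support → UnitOn f A := by
    intro A hA P hP
    have hPE : P ∉ E.support := Finset.disjoint_left.mp hA hP
    have hE0 : E P = 0 := Finsupp.notMem_support_iff.mp hPE
    rw [← h.div.2 P, Finsupp.smul_apply, hE0, smul_zero]
  have hUD : UnitOn f D := hunit hD.disj
  have hUD' : UnitOn f D' := hunit hD'.disj
  have hdivw : (FND.divF w : Divisor (AlgebraicClosure ℚ) (FBar F₀)) = D - D' := by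
    rw [hDw]; abel
  have hUw : UnitOn f (FND.divF w : Divisor (AlgebraicClosure ℚ) (FBar F₀)) := by
    rw [hdivw]
    exact hUD.sub hUD'
  -- `w` is a unit on `E`
  have hwE : ∀ P ∈ E.support, P.ord w = 0 := by
    intro P hP
    have h1 : P ∉ D.support := fun hPD => Finset.disjoint_left.mp hD.disj hPD hP
    have h2 : P ∉ D'.support := fun hPD => Finset.disjoint_left.mp hD'.disj hPD hP
    rw [← FND.divF_apply, hdivw, Finsupp.sub_apply, Finsupp.notMem_support_iff.mp h1,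
      Finsupp.notMem_support_iff.mp h2, sub_zero]
  have hc0 : FND.evalDiv w E ≠ 0 := FND.evalDiv_ne_zero hwE hw
  -- `w(E)` is fixed by `Gal(ℚ̄/K₁)`
  have hcfix : ∀ σ ∈ K₁.fixingSubgroup, σ (FND.evalDiv w E) = FND.evalDiv w E := by
    intro σ hσ
    have h1 := evalDiv_smul_smul (arithmeticGalois F₀ σ) w E
    rw [hwfix σ hσ, h.fixedE σ hσ, baseAut_arithmeticGalois] at h1
    exact h1.symm
  have hcmem : FND.evalDiv w E ∈ K₁ := mem_of_fixed K₁ hcfix
  refine ⟨Units.mk0 (⟨FND.evalDiv w E, hcmem⟩ : K₁) (fun h0 => hc0 (congrArg Subtype.val h0)), ?_⟩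
  rw [evalDiv_eq_fnd, evalDiv_eq_fnd, hDw, evalDiv_add_divF hf hw hfE hUD' hUw]
  rfl

end Fermat.Agent.S17.WA.H9418
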