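/-
S17 / package WA — leaf WA5 (a and b), helper6418.
`evalDiv_add`, `evalDiv_neg`: statements verbatim from `WA/Skel.lean` v1 (sub-architect helper5016).
Bookkeeping on `Finsupp.prod`; the only non-formal input is that `evK P f ≠ 0` at a place `P`
with `ord_P f = 0` (residue field of `P` is `ℚ̄`, Prelude `IsCurveOver.finiteResidue`).
-/
import Fermat.Agent.S17.W.Defs

set_option autoImplicit false

namespace Fermat.Agent.S17.WA.H6418

open AlgebraicCurve ModularCurve Fermat.Agent.S17.W

section General

variable {K F : Type*} [Field K] [Field F] [Algebra K F]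

/-- Membership in the valuation ring of a place from `ord = 0` (for `f ≠ 0`), together with the
fact that `f` is then a unit there. -/
theorem isUnit_of_ord_eq_zero (P : Place K F) {f : F} (hf : f ≠ 0) (h0 : P.ord f = 0) :
    ∃ u : P.toValuationSubringˣ, ((u : P.toValuationSubring) : F) = f := by
  obtain ⟨π, hπ⟩ := IsDiscreteValuationRing.exists_irreducible P.toValuationSubring
  obtain ⟨u, hu⟩ := P.exists_unit_mul_zpow hf hπ
  rw [h0, zpow_zero, mul_one] at hu
  exact ⟨u, hu.symm⟩

/-- `evK P f ≠ 0` when `f` is a unit at `P` and the residue field of `P` is `K`. -/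
theorem evK_ne_zero_of_ord_eq_zero (P : Place K F)
    (hsurj : Function.Surjective (algebraMap K P.ResidueField)) {f : F} (hf : f ≠ 0)
    (h0 : P.ord f = 0) : evK P f ≠ 0 := by
  obtain ⟨u, hu⟩ := isUnit_of_ord_eq_zero P hf h0
  have hmem : f ∈ P.toValuationSubring := hu ▸ (u : P.toValuationSubring).2
  intro hev
  unfold evK at hev
  rw [dif_pos hmem] at hev
  have hres : IsLocalRing.residue P.toValuationSubring ⟨f, hmem⟩ ≠ 0 := by
    have hunit : IsUnit (⟨f, hmem⟩ : P.toValuationSubring) := by
      have : (⟨f, hmem⟩ : P.toValuationSubring) = (u : P.toValuationSubring) :=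
        Subtype.ext hu.symm
      rw [this]
      exact u.isUnit
    exact (hunit.map (IsLocalRing.residue P.toValuationSubring)).ne_zero
  apply hres
  have h2 := Function.invFun_eq (hsurj (IsLocalRing.residue P.toValuationSubring ⟨f, hmem⟩))
  rw [hev, map_zero] at h2
  exact h2.symm

/-- `evalDiv` is additive in the divisor as soon as the values at the points of both supports
are nonzero. -/
theorem evalDiv_add_of_ne_zero (f : F) (D D' : Divisor K F)
    (h : ∀ P : Place K F, P ∈ D.support ∨ P ∈ D'.support → evK P f ≠ 0) :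
    evalDiv f (D + D') = evalDiv f D * evalDiv f D' := by
  classical
  unfold evalDiv
  exact Finsupp.prod_add_index (fun a _ => zpow_zero _)
    (fun a ha b₁ b₂ => zpow_add₀ (h a (Finset.mem_union.mp ha)) b₁ b₂)

/-- `evalDiv` of the opposite divisor (no hypothesis). -/
theorem evalDiv_neg_general (f : F) (D : Divisor K F) :
    evalDiv f (-D) = (evalDiv f D)⁻¹ := by
  classical
  unfold evalDiv
  rw [Finsupp.prod_neg_index (fun a => zpow_zero _)]
  simp only [Finsupp.prod, zpow_neg]
  exact Finset.prod_inv_distrib (s := D.support) (f := fun a => evK a f ^ D a)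

theorem isClassOf_add {D D' : Divisor K F} {x x' : Pic0 K F} (h : IsClassOf D x)
    (h' : IsClassOf D' x') : IsClassOf (D + D') (x + x') := by
  obtain ⟨hD, rfl⟩ := h
  obtain ⟨hD', rfl⟩ := h'
  exact ⟨add_mem hD hD', rfl⟩

theorem isClassOf_neg {D : Divisor K F} {x : Pic0 K F} (h : IsClassOf D x) :
    IsClassOf (-D) (-x) := by
  obtain ⟨hD, rfl⟩ := h
  exact ⟨neg_mem hD, rfl⟩

end General

variable (F₀ : IntermediateField ℚ (LaurentSeries ℚ))
  [IsCurveOver (AlgebraicClosure ℚ) (FBar F₀)]
  [Algebra.EssFiniteType (AlgebraicClosure ℚ) (FBar F₀)]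
variable (K₁ : IntermediateField ℚ (AlgebraicClosure ℚ)) [FiniteDimensional ℚ K₁]

/-- The residue field of every place of `FBar F₀` is `ℚ̄`. -/
theorem algebraMap_residue_surjective (P : Place (AlgebraicClosure ℚ) (FBar F₀)) :
    Function.Surjective (algebraMap (AlgebraicClosure ℚ) P.ResidueField) := by
  have : Module.Finite (AlgebraicClosure ℚ) P.ResidueField := IsCurveOver.finiteResidue P
  have : Algebra.IsIntegral (AlgebraicClosure ℚ) P.ResidueField :=
    Algebra.IsIntegral.of_finite (AlgebraicClosure ℚ) P.ResidueField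
  exact (IsAlgClosed.algebraMap_bijective_of_isIntegral
    (k := AlgebraicClosure ℚ) (K := P.ResidueField)).2

/-- The datum function does not vanish (and has no pole) at the points of a representative
prime to `E`. -/
theorem evK_ne_zero_of_isRep {H : Subgroup GQ} {t x : Pic0 (AlgebraicClosure ℚ) (FBar F₀)}
    {E D : Divisor (AlgebraicClosure ℚ) (FBar F₀)} {f : FBar F₀}
    (h : IsTwoDatum F₀ H t E f) (hD : IsRep F₀ H x E D)
    (P : Place (AlgebraicClosure ℚ) (FBar F₀)) (hP : P ∈ D.support) : evK P f ≠ 0 := by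
  classical
  have hPE : P ∉ E.support := fun hPE => (Finset.disjoint_left.mp hD.disj) hP hPE
  have hE0 : E P = 0 := Finsupp.notMem_support_iff.mp hPE
  have h0 : P.ord f = 0 := by
    have := h.div.2 P
    rw [Finsupp.smul_apply, hE0, smul_zero] at this
    exact this.symm
  exact evK_ne_zero_of_ord_eq_zero P (algebraMap_residue_surjective F₀ P) h.div.1 h0

/-- WA5a: Kummer values are multiplicative in the representative. -/
theorem evalDiv_add {t x x' : Pic0 (AlgebraicClosure ℚ) (FBar F₀)}
    {E D D' : Divisor (AlgebraicClosure ℚ) (FBar F₀)} {f : FBar F₀}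
    (h : IsTwoDatum F₀ K₁.fixingSubgroup t E f) (hD : IsRep F₀ K₁.fixingSubgroup x E D)
    (hD' : IsRep F₀ K₁.fixingSubgroup x' E D') :
    IsRep F₀ K₁.fixingSubgroup (x + x') E (D + D') ∧
      evalDiv f (D + D') = evalDiv f D * evalDiv f D' := by
  classical
  refine ⟨⟨isClassOf_add hD.cls hD'.cls, ?_, ?_⟩, ?_⟩
  · intro σ hσ
    rw [smul_add, hD.fixed σ hσ, hD'.fixed σ hσ]
  · exact Finset.disjoint_of_subset_left Finsupp.support_add
      (Finset.disjoint_union_left.mpr ⟨hD.disj, hD'.disj⟩)
  · refine evalDiv_add_of_ne_zero f D D' fun P hP => ?_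
    rcases hP with hP | hP
    · exact evK_ne_zero_of_isRep F₀ h hD P hP
    · exact evK_ne_zero_of_isRep F₀ h hD' P hP

/-- WA5b: Kummer values of the opposite class. -/
theorem evalDiv_neg {t x : Pic0 (AlgebraicClosure ℚ) (FBar F₀)}
    {E D : Divisor (AlgebraicClosure ℚ) (FBar F₀)} {f : FBar F₀}
    (h : IsTwoDatum F₀ K₁.fixingSubgroup t E f) (hD : IsRep F₀ K₁.fixingSubgroup x E D) :
    IsRep F₀ K₁.fixingSubgroup (-x) E (-D) ∧ evalDiv f (-D) = (evalDiv f D)⁻¹ := by
  classical
  refine ⟨⟨isClassOf_neg hD.cls, ?_, ?_⟩, evalDiv_neg_general f D⟩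
  · intro σ hσ
    rw [smul_neg, hD.fixed σ hσ]
  · rw [Finsupp.support_neg]
    exact hD.disj

end Fermat.Agent.S17.WA.H6418
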