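/-
S17 / WA6 (Kummer formula) — CORE, helper6986.

`weilTrivial_of_evalDiv_sq_core` is the statement of leaf WA6 of the frozen skeleton
`Fermat/Agent/S17/WA/Skel.lean` (sub-architect helper5016) with the two foundation inputs as
EXPLICIT hypotheses, stated for the `W.Defs` objects:

* `hwa`  : weak approximation (prescribed orders at finitely many places)   [FND leaf A];
* `hrec` : Weil reciprocity `f(div g) = g(div f)` for disjoint divisors     [FND leaf D].

Everything else (values `evK`, `evalDiv`: multiplicativity, non-vanishing, semilinear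
equivariance; class bookkeeping in `Pic0`) is proved here from Mathlib + Prelude (+ the five
lemmas of the landed `S24/A564/PlaceBasic`).  The file has no `sorry`.

Proof (paper: origin/helper5016:notes/MAZUR_S17_scout_helper5016.md, W3).  Choose `D'` of class
`y` prime to `E` (moving lemma from `hwa`); `2D' - D = div u`.  Reciprocity for `f, u`:
`f(D')^2 / f(D) = u(E)^2`, so `α := f(D') / u(E)` has `α^2 = f(D) = c^2`, `α = ± c ∈ K₁` and
`σ α = α`.  By equivariance `σ α = f(σD') / (σu)(E)`.  Hence `f(σD' - D') = (σu / u)(E)` and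
`div (σu / u) = 2 (σD' - D')`: this is `WeilTrivial t (σ y - y)` with `(E, σD' - D', f, σu / u)`.
-/
import Fermat.Agent.S17.W.Defs
import Fermat.Agent.S24.A564.PlaceBasic

set_option autoImplicit false

noncomputable section

namespace Fermat.Agent.S17.WA.H6986

open AlgebraicCurve ModularCurve Fermat.Agent.S17.W
open Fermat.Agent.S24.A564.SO

/-! ## Values at a place -/

section Values

variable {K F : Type*} [Field K] [Field F] [Algebra K F]

/-- Residue fields are `K` when `K` is algebraically closed and `F` is a curve over `K`. -/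
theorem resBij [IsAlgClosed K] [IsCurveOver K F] (P : Place K F) :
    Function.Bijective (algebraMap K P.ResidueField) := by
  have : Module.Finite K P.ResidueField := IsCurveOver.finiteResidue P
  have : Algebra.IsIntegral K P.ResidueField := Algebra.IsIntegral.of_finite K P.ResidueField
  exact IsAlgClosed.algebraMap_bijective_of_isIntegral

theorem evK_spec {P : Place K F} (hb : Function.Bijective (algebraMap K P.ResidueField))
    {f : F} (hf : f ∈ P.toValuationSubring) :
    algebraMap K P.ResidueField (evK P f)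
      = IsLocalRing.residue P.toValuationSubring ⟨f, hf⟩ := by
  unfold evK
  rw [dif_pos hf]
  exact Function.invFun_eq (hb.2 _)

theorem evK_of_not_mem {P : Place K F} {f : F} (hf : f ∉ P.toValuationSubring) :
    evK P f = 0 := by
  unfold evK
  rw [dif_neg hf]

theorem evK_one {P : Place K F} (hb : Function.Bijective (algebraMap K P.ResidueField)) :
    evK P (1 : F) = 1 := by
  apply hb.1
  rw [evK_spec hb (one_mem _), map_one]
  exact map_one (IsLocalRing.residue P.toValuationSubring)

theorem evK_mul {P : Place K F} (hb : Function.Bijective (algebraMap K P.ResidueField))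
    {f g : F} (hf : f ∈ P.toValuationSubring) (hg : g ∈ P.toValuationSubring) :
    evK P (f * g) = evK P f * evK P g := by
  apply hb.1
  rw [map_mul, evK_spec hb hf, evK_spec hb hg, evK_spec hb (mul_mem hf hg), ← map_mul]
  rfl

theorem mem_of_ord_eq_zero (P : Place K F) {f : F} (h0 : P.ord f = 0) :
    f ∈ P.toValuationSubring :=
  Place_mem_of_ord_nonneg P h0.ge

theorem inv_mem_of_ord_eq_zero (P : Place K F) {f : F} (h0 : P.ord f = 0) :
    f⁻¹ ∈ P.toValuationSubring :=
  Place_mem_of_ord_nonneg P (by rw [P.ord_inv, h0, neg_zero])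

theorem evK_mul_inv {P : Place K F} (hb : Function.Bijective (algebraMap K P.ResidueField))
    {f : F} (hf : f ≠ 0) (h0 : P.ord f = 0) : evK P f * evK P f⁻¹ = 1 := by
  rw [← evK_mul hb (mem_of_ord_eq_zero P h0) (inv_mem_of_ord_eq_zero P h0),
    mul_inv_cancel₀ hf, evK_one hb]

theorem evK_ne_zero {P : Place K F} (hb : Function.Bijective (algebraMap K P.ResidueField))
    {f : F} (hf : f ≠ 0) (h0 : P.ord f = 0) : evK P f ≠ 0 :=
  left_ne_zero_of_mul_eq_one (evK_mul_inv hb hf h0)

theorem evK_inv {P : Place K F} (hb : Function.Bijective (algebraMap K P.ResidueField))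
    {f : F} (hf : f ≠ 0) (h0 : P.ord f = 0) : evK P f⁻¹ = (evK P f)⁻¹ :=
  eq_inv_of_mul_eq_one_right (evK_mul_inv hb hf h0)

/-- Semilinear equivariance of the value: `(g f)(g P) = g (f(P))`. -/
theorem evK_smul (g : SemilinearAut K F) (P : Place K F)
    (hb : Function.Bijective (algebraMap K (g • P).ResidueField)) (f : F) :
    evK (g • P) (g • f) = SemilinearAut.baseAut g (evK P f) := by
  by_cases hf : f ∈ P.toValuationSubring
  · have hgf : g • f ∈ (g • P).toValuationSubring :=
      ValuationSubring.smul_mem_pointwise_smul g f P.toValuationSubring hf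
    have hbP : Function.Surjective (algebraMap K P.ResidueField) := by
      intro r
      obtain ⟨a, ha⟩ := hb.2 (SemilinearAut.smulResidueRingEquiv g P r)
      refine ⟨(SemilinearAut.baseAut g).symm a, ?_⟩
      apply (SemilinearAut.smulResidueRingEquiv g P).injective
      rw [SemilinearAut.smulResidueRingEquiv_algebraMap, RingEquiv.apply_symm_apply, ha]
    have hspec : algebraMap K P.ResidueField (evK P f)
        = IsLocalRing.residue P.toValuationSubring ⟨f, hf⟩ := by
      unfold evK
      rw [dif_pos hf]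
      exact Function.invFun_eq (hbP _)
    apply hb.1
    rw [evK_spec hb hgf, ← SemilinearAut.smulResidueRingEquiv_algebraMap g P, hspec]
    rfl
  · have hgf : g • f ∉ (g • P).toValuationSubring := by
      intro h
      apply hf
      have h2 := (ValuationSubring.mem_pointwise_smul_iff_inv_smul_mem (g := g)
        (S := P.toValuationSubring) (x := g • f)).mp h
      rwa [inv_smul_smul] at h2
    rw [evK_of_not_mem hf, evK_of_not_mem hgf, map_zero]

end Values

/-! ## Values on divisors -/

section EvalDiv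

variable {K F : Type*} [Field K] [Field F] [Algebra K F]

theorem evalDiv_ne_zero {f : F} {D : Divisor K F} (h : ∀ P ∈ D.support, evK P f ≠ 0) :
    evalDiv f D ≠ 0 := by
  unfold evalDiv Finsupp.prod
  exact Finset.prod_ne_zero_iff.mpr fun P hP => zpow_ne_zero _ (h P hP)

theorem evalDiv_add {f : F} {D E : Divisor K F} (hD : ∀ P ∈ D.support, evK P f ≠ 0)
    (hE : ∀ P ∈ E.support, evK P f ≠ 0) :
    evalDiv f (D + E) = evalDiv f D * evalDiv f E := by
  classical
  unfold evalDiv
  refine Finsupp.prod_add_index (fun P _ => zpow_zero _) fun P hP m n => ?_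
  rcases Finset.mem_union.mp hP with hP | hP
  · exact zpow_add₀ (hD P hP) m n
  · exact zpow_add₀ (hE P hP) m n

theorem evalDiv_neg (f : F) (D : Divisor K F) : evalDiv f (-D) = (evalDiv f D)⁻¹ := by
  unfold evalDiv
  rw [Finsupp.prod_neg_index fun P => zpow_zero _]
  unfold Finsupp.prod
  rw [← Finset.prod_inv_distrib]
  exact Finset.prod_congr rfl fun P _ => zpow_neg _ _

theorem evalDiv_sub {f : F} {D E : Divisor K F} (hD : ∀ P ∈ D.support, evK P f ≠ 0)
    (hE : ∀ P ∈ E.support, evK P f ≠ 0) :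
    evalDiv f (D - E) = evalDiv f D / evalDiv f E := by
  rw [sub_eq_add_neg, evalDiv_add hD (by rwa [Finsupp.support_neg]), evalDiv_neg,
    div_eq_mul_inv]

theorem evalDiv_two_nsmul {f : F} {D : Divisor K F} (hD : ∀ P ∈ D.support, evK P f ≠ 0) :
    evalDiv f (2 • D) = evalDiv f D ^ 2 := by
  rw [two_nsmul, evalDiv_add hD hD, sq]

theorem evalDiv_mul_fun {f g : F} {D : Divisor K F}
    (h : ∀ P ∈ D.support, evK P (f * g) = evK P f * evK P g) :
    evalDiv (f * g) D = evalDiv f D * evalDiv g D := by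
  unfold evalDiv
  rw [← Finsupp.prod_mul]
  exact Finsupp.prod_congr fun P hP => by rw [h P hP, mul_zpow]

/-- Semilinear equivariance of values on divisors. -/
theorem evalDiv_smul (g : SemilinearAut K F)
    (hb : ∀ P : Place K F, Function.Bijective (algebraMap K P.ResidueField))
    (f : F) (D : Divisor K F) :
    evalDiv (g • f) (g • D) = SemilinearAut.baseAut g (evalDiv f D) := by
  unfold evalDiv
  rw [SemilinearAut.divisor_smul_def,
    Finsupp.prod_mapDomain_index_inj (MulAction.injective g)]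
  unfold Finsupp.prod
  rw [map_prod]
  refine Finset.prod_congr rfl fun P _ => ?_
  show evK (g • P) (g • f) ^ (D P) = SemilinearAut.baseAut g (evK P f ^ (D P))
  rw [evK_smul g P (hb _) f, map_zpow₀]

end EvalDiv

/-! ## Classes -/

section Classes

variable {K F : Type*} [Field K] [Field F] [Algebra K F]

theorem isClassOf_add {D D' : Divisor K F} {x x' : Pic0 K F} (h : IsClassOf D x)
    (h' : IsClassOf D' x') : IsClassOf (D + D') (x + x') := by
  obtain ⟨hd, rfl⟩ := h
  obtain ⟨hd', rfl⟩ := h'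
  exact ⟨add_mem hd hd', rfl⟩

theorem isClassOf_neg {D : Divisor K F} {x : Pic0 K F} (h : IsClassOf D x) :
    IsClassOf (-D) (-x) := by
  obtain ⟨hd, rfl⟩ := h
  exact ⟨neg_mem hd, rfl⟩

theorem isClassOf_sub {D D' : Divisor K F} {x x' : Pic0 K F} (h : IsClassOf D x)
    (h' : IsClassOf D' x') : IsClassOf (D - D') (x - x') := by
  rw [sub_eq_add_neg, sub_eq_add_neg]
  exact isClassOf_add h (isClassOf_neg h')

theorem isClassOf_two_nsmul {D : Divisor K F} {x : Pic0 K F} (h : IsClassOf D x) :
    IsClassOf (2 • D) ((2 : ℕ) • x) := by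
  rw [_root_.two_nsmul, _root_.two_nsmul]
  exact isClassOf_add h h

/-- A divisor of class `0` is principal. -/
theorem exists_isDivOf_of_isClassOf_zero {D : Divisor K F} (h : IsClassOf D (0 : Pic0 K F)) :
    ∃ u : F, IsDivOf u D := by
  obtain ⟨hd, h0⟩ := h
  have h1 : (⟨D, hd⟩ : Divisor.degZero (K := K) (F := F)) ∈
      (Divisor.principal (K := K) (F := F)).addSubgroupOf (Divisor.degZero (K := K) (F := F)) :=
    (QuotientAddGroup.eq_zero_iff _).mp h0
  rw [AddSubgroup.mem_addSubgroupOf] at h1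
  obtain ⟨u, hu0, hu⟩ := h1
  exact ⟨u, hu0, hu⟩

/-- A principal divisor has class `0`. -/
theorem isClassOf_zero_of_isDivOf [HasPrincipalDivisors K F] {D : Divisor K F} {u : F}
    (h : IsDivOf u D) : IsClassOf D (0 : Pic0 K F) := by
  obtain ⟨D₁, hD₁, hdeg⟩ := HasPrincipalDivisors.exists_divisor (K := K) u h.1
  have hDD : D = D₁ := Finsupp.ext fun v => by rw [h.2 v, hD₁ v]
  have hd : D ∈ Divisor.degZero (K := K) (F := F) := by
    rw [Divisor.mem_degZero, hDD]
    exact hdeg
  refine ⟨hd, (QuotientAddGroup.eq_zero_iff _).mpr ?_⟩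
  rw [AddSubgroup.mem_addSubgroupOf]
  exact ⟨u, h.1, h.2⟩

/-- Moving lemma from weak approximation: every class has a representative prime to a given
divisor. -/
theorem exists_isClassOf_disjoint [HasPrincipalDivisors K F]
    (hwa : ∀ (S : Finset (Place K F)) (n : Place K F → ℤ),
      ∃ w : F, w ≠ 0 ∧ ∀ v ∈ S, v.ord w = n v)
    (y : Pic0 K F) (E : Divisor K F) :
    ∃ D' : Divisor K F, IsClassOf D' y ∧ Disjoint D'.support E.support := by
  obtain ⟨D₀, rfl⟩ := Pic0.mk_surjective y
  obtain ⟨w, hw0, hw⟩ := hwa E.support fun v => -((D₀ : Divisor K F) v)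
  obtain ⟨D₁, hD₁, -⟩ := HasPrincipalDivisors.exists_divisor (K := K) w hw0
  have h1 : IsClassOf D₁ (0 : Pic0 K F) := isClassOf_zero_of_isDivOf ⟨hw0, hD₁⟩
  have h0 : IsClassOf (D₀ : Divisor K F) (Pic0.mk D₀) := ⟨D₀.2, rfl⟩
  refine ⟨(D₀ : Divisor K F) + D₁, by simpa using isClassOf_add h0 h1, ?_⟩
  rw [Finset.disjoint_right]
  intro v hv
  rw [Finsupp.mem_support_iff, not_not, Finsupp.add_apply, hD₁ v, hw v hv, add_neg_cancel]

end Classes

/-! ## The Kummer formula -/

section Kummer

variable (F₀ : IntermediateField ℚ (LaurentSeries ℚ))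

theorem isClassOf_galois {D : Divisor (AlgebraicClosure ℚ) (FBar F₀)}
    {y : Pic0 (AlgebraicClosure ℚ) (FBar F₀)} (σ : GQ) (h : IsClassOf D y) :
    IsClassOf (arithmeticGalois F₀ σ • D) (σ • y) := by
  obtain ⟨hd, rfl⟩ := h
  exact ⟨SemilinearAut.smul_mem_degZero _ hd, rfl⟩

variable [IsCurveOver (AlgebraicClosure ℚ) (FBar F₀)]
variable (K₁ : IntermediateField ℚ (AlgebraicClosure ℚ))

/-- WA6 with the foundation inputs (weak approximation, Weil reciprocity) as hypotheses. -/
theorem weilTrivial_of_evalDiv_sq_core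
    (hwa : ∀ (S : Finset (Place (AlgebraicClosure ℚ) (FBar F₀)))
      (n : Place (AlgebraicClosure ℚ) (FBar F₀) → ℤ),
      ∃ w : FBar F₀, w ≠ 0 ∧ ∀ v ∈ S, v.ord w = n v)
    (hrec : ∀ (f g : FBar F₀) (Df Dg : Divisor (AlgebraicClosure ℚ) (FBar F₀)),
      IsDivOf f Df → IsDivOf g Dg → Disjoint Df.support Dg.support →
        evalDiv f Dg = evalDiv g Df)
    {t x : Pic0 (AlgebraicClosure ℚ) (FBar F₀)}
    {E D : Divisor (AlgebraicClosure ℚ) (FBar F₀)} {f : FBar F₀}
    (h : IsTwoDatum F₀ K₁.fixingSubgroup t E f) (hD : IsRep F₀ K₁.fixingSubgroup x E D)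
    (c : K₁) (hc : evalDiv f D = ((c : K₁) : AlgebraicClosure ℚ) ^ 2)
    (y : Pic0 (AlgebraicClosure ℚ) (FBar F₀)) (hy : (2 : ℕ) • y = x)
    (σ : GQ) (hσ : σ ∈ K₁.fixingSubgroup) :
    WeilTrivial t (σ • y - y) := by
  classical
  have hb : ∀ P : Place (AlgebraicClosure ℚ) (FBar F₀),
      Function.Bijective (algebraMap (AlgebraicClosure ℚ) P.ResidueField) := fun P => resBij P
  have hf0 : f ≠ 0 := h.div.1
  have hfE : ∀ v : Place (AlgebraicClosure ℚ) (FBar F₀), v.ord f = 2 * E v := fun v => by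
    rw [← h.div.2 v, Finsupp.smul_apply, nsmul_eq_mul]
    norm_num
  have hGE : arithmeticGalois F₀ σ • E = E := h.fixedE σ hσ
  have hGf : arithmeticGalois F₀ σ • f = f := h.fixedf σ hσ
  have hGD : arithmeticGalois F₀ σ • D = D := hD.fixed σ hσ
  -- the representative `D'` of `y`, prime to `E`
  obtain ⟨D', hD'cls, hD'disj⟩ := exists_isClassOf_disjoint hwa y E
  -- `f` is a unit at every point outside `supp E`
  have hf_unit : ∀ P : Place (AlgebraicClosure ℚ) (FBar F₀), P ∉ E.support → evK P f ≠ 0 :=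
    fun P hP => evK_ne_zero (hb P) hf0 (by
      rw [hfE P, Finsupp.notMem_support_iff.mp hP, mul_zero])
  have hfD' : ∀ P ∈ D'.support, evK P f ≠ 0 := fun P hP =>
    hf_unit P (Finset.disjoint_left.mp hD'disj hP)
  have hfD : ∀ P ∈ D.support, evK P f ≠ 0 := fun P hP =>
    hf_unit P (Finset.disjoint_left.mp hD.disj hP)
  -- `σ D'` is prime to `E` as well
  have hGD'E : ∀ P ∈ (arithmeticGalois F₀ σ • D').support, P ∉ E.support := by
    intro P hP hPE
    rw [Finsupp.mem_support_iff, SemilinearAut.divisor_smul_apply] at hP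
    have h1 : (arithmeticGalois F₀ σ)⁻¹ • P ∈ D'.support := Finsupp.mem_support_iff.mpr hP
    have h2 : (arithmeticGalois F₀ σ)⁻¹ • P ∈ E.support := by
      rw [Finsupp.mem_support_iff, ← SemilinearAut.divisor_smul_apply, hGE]
      exact Finsupp.mem_support_iff.mp hPE
    exact Finset.disjoint_left.mp hD'disj h1 h2
  have hfGD' : ∀ P ∈ (arithmeticGalois F₀ σ • D').support, evK P f ≠ 0 := fun P hP =>
    hf_unit P (hGD'E P hP)
  -- `2 D' - D = div u`
  have hcls0 : IsClassOf (2 • D' - D) (0 : Pic0 (AlgebraicClosure ℚ) (FBar F₀)) := by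
    have h1 := isClassOf_sub (isClassOf_two_nsmul hD'cls) hD.cls
    rwa [hy, sub_self] at h1
  obtain ⟨u, hu⟩ := exists_isDivOf_of_isClassOf_zero hcls0
  have hu0 : u ≠ 0 := hu.1
  have huD : ∀ v : Place (AlgebraicClosure ℚ) (FBar F₀), v.ord u = 2 * D' v - D v := fun v => by
    rw [← hu.2 v, Finsupp.sub_apply, Finsupp.smul_apply, nsmul_eq_mul]
    norm_num
  have hD'E : ∀ P ∈ E.support, D' P = 0 := fun P hP =>
    Finsupp.notMem_support_iff.mp (Finset.disjoint_right.mp hD'disj hP)
  have hDE : ∀ P ∈ E.support, D P = 0 := fun P hP =>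
    Finsupp.notMem_support_iff.mp (Finset.disjoint_right.mp hD.disj hP)
  have hu_ord : ∀ P ∈ E.support, P.ord u = 0 := fun P hP => by
    rw [huD P, hD'E P hP, hDE P hP]
    norm_num
  have huE : ∀ P ∈ E.support, evK P u ≠ 0 := fun P hP => evK_ne_zero (hb P) hu0 (hu_ord P hP)
  -- the conjugate function `σ u`
  have hGu0 : arithmeticGalois F₀ σ • u ≠ 0 := by
    intro h0
    apply hu0
    have h1 := congrArg (fun z => (arithmeticGalois F₀ σ)⁻¹ • z) h0
    simpa using h1
  have hGu_ord : ∀ v : Place (AlgebraicClosure ℚ) (FBar F₀),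
      v.ord (arithmeticGalois F₀ σ • u) = ((arithmeticGalois F₀ σ)⁻¹ • v).ord u := fun v => by
    have h1 := SemilinearAut.ord_smul (arithmeticGalois F₀ σ) ((arithmeticGalois F₀ σ)⁻¹ • v) u
    rwa [smul_inv_smul] at h1
  have hGinvE : ∀ P ∈ E.support, (arithmeticGalois F₀ σ)⁻¹ • P ∈ E.support := fun P hP => by
    rw [Finsupp.mem_support_iff, ← SemilinearAut.divisor_smul_apply, hGE]
    exact Finsupp.mem_support_iff.mp hP
  have hGu_ordE : ∀ P ∈ E.support, P.ord (arithmeticGalois F₀ σ • u) = 0 := fun P hP => by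
    rw [hGu_ord P]
    exact hu_ord _ (hGinvE P hP)
  have hGuE : ∀ P ∈ E.support, evK P (arithmeticGalois F₀ σ • u) ≠ 0 := fun P hP =>
    evK_ne_zero (hb P) hGu0 (hGu_ordE P hP)
  -- Weil reciprocity for `f` and `u`
  have hdisj1 : Disjoint (2 • E).support (2 • D' - D).support := by
    rw [Finset.disjoint_left]
    intro P hP hP2
    have hPE : P ∈ E.support := Finsupp.support_smul hP
    rw [Finsupp.mem_support_iff, Finsupp.sub_apply, Finsupp.smul_apply, hD'E P hPE,
      hDE P hPE] at hP2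
    exact hP2 (by norm_num)
  have hrec1 : evalDiv f (2 • D' - D) = evalDiv u (2 • E) := hrec f u _ _ h.div hu hdisj1
  have h2D' : ∀ P ∈ (2 • D').support, evK P f ≠ 0 := fun P hP => hfD' P (Finsupp.support_smul hP)
  rw [evalDiv_sub h2D' hfD, evalDiv_two_nsmul hfD', evalDiv_two_nsmul huE, hc] at hrec1
  -- `α = f(D') / u(E)` is `± c`
  have hB0 : evalDiv u E ≠ 0 := evalDiv_ne_zero huE
  have hA0 : evalDiv f D' ≠ 0 := evalDiv_ne_zero hfD'
  have hc0 : ((c : K₁) : AlgebraicClosure ℚ) ^ 2 ≠ 0 := by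
    rw [← hc]
    exact evalDiv_ne_zero hfD
  have hα2 : (evalDiv f D' / evalDiv u E) ^ 2 = ((c : K₁) : AlgebraicClosure ℚ) ^ 2 := by
    have hc0' : ((c : K₁) : AlgebraicClosure ℚ) ≠ 0 := fun h0 => hc0 (by rw [h0]; norm_num)
    rw [div_pow, ← hrec1]
    field_simp
  have hσc : σ ((c : K₁) : AlgebraicClosure ℚ) = ((c : K₁) : AlgebraicClosure ℚ) :=
    (IntermediateField.mem_fixingSubgroup_iff K₁ σ).mp hσ _ c.2
  have hσα : σ (evalDiv f D' / evalDiv u E) = evalDiv f D' / evalDiv u E := by
    rcases sq_eq_sq_iff_eq_or_eq_neg.mp hα2 with h1 | h1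
    · rw [h1, hσc]
    · rw [h1, map_neg, hσc]
  -- equivariance
  have hσA : σ (evalDiv f D') = evalDiv f (arithmeticGalois F₀ σ • D') := by
    have h1 := evalDiv_smul (arithmeticGalois F₀ σ) hb f D'
    rw [hGf] at h1
    rw [h1]
    rfl
  have hσB : σ (evalDiv u E) = evalDiv (arithmeticGalois F₀ σ • u) E := by
    have h1 := evalDiv_smul (arithmeticGalois F₀ σ) hb u E
    rw [hGE] at h1
    rw [h1]
    rfl
  rw [map_div₀, hσA, hσB] at hσα
  have hGB0 : evalDiv (arithmeticGalois F₀ σ • u) E ≠ 0 := evalDiv_ne_zero hGuE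
  -- the data of the conclusion
  refine ⟨E, arithmeticGalois F₀ σ • D' - D', f,
    (arithmeticGalois F₀ σ • u) * u⁻¹, h.cls, isClassOf_sub (isClassOf_galois F₀ σ hD'cls) hD'cls, h.div,
    ⟨mul_ne_zero hGu0 (inv_ne_zero hu0), fun v => ?_⟩, ?_, ?_⟩
  · -- `div (σ u / u) = 2 (σ D' - D')`
    rw [Place.ord_mul v hGu0 (inv_ne_zero hu0), Place.ord_inv, hGu_ord v, huD, huD,
      Finsupp.smul_apply, Finsupp.sub_apply, SemilinearAut.divisor_smul_apply, nsmul_eq_mul]
    have h1 : D ((arithmeticGalois F₀ σ)⁻¹ • v) = D v := by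
      rw [← SemilinearAut.divisor_smul_apply, hGD]
    rw [h1]
    push_cast
    ring
  · -- supports
    rw [Finset.disjoint_left]
    intro P hPE hP
    rcases Finset.mem_union.mp (Finsupp.support_sub hP) with hP1 | hP1
    · exact hGD'E P hP1 hPE
    · exact Finset.disjoint_left.mp hD'disj hP1 hPE
  · -- values
    have hmul : ∀ P ∈ E.support, evK P ((arithmeticGalois F₀ σ • u) * u⁻¹)
        = evK P (arithmeticGalois F₀ σ • u) * evK P u⁻¹ := fun P hP =>
      evK_mul (hb P) (mem_of_ord_eq_zero P (hGu_ordE P hP))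
        (inv_mem_of_ord_eq_zero P (hu_ord P hP))
    have hinv : evalDiv u⁻¹ E = (evalDiv u E)⁻¹ := by
      unfold evalDiv Finsupp.prod
      rw [← Finset.prod_inv_distrib]
      refine Finset.prod_congr rfl fun P hP => ?_
      show evK P u⁻¹ ^ (E P) = (evK P u ^ (E P))⁻¹
      rw [evK_inv (hb P) hu0 (hu_ord P hP), inv_zpow]
    rw [evalDiv_sub hfGD' hfD', evalDiv_mul_fun hmul, hinv, ← div_eq_mul_inv,
      div_eq_div_iff hA0 hB0]
    rw [div_eq_div_iff hGB0 hB0] at hσα
    rw [hσα, mul_comm]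

end Kummer

end Fermat.Agent.S17.WA.H6986
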