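/-
S17 / WA6 (Kummer formula) — leaf delivery, helper6986.

`weilTrivial_of_evalDiv_sq` has EXACTLY the statement of leaf WA6 of the frozen skeleton
`Fermat/Agent/S17/WA/Skel.lean` (sub-architect helper5016).  It is the sorry-free core
`weilTrivial_of_evalDiv_sq_core` (`L6Core_6986.lean`) fed with two statements of the frozen FND
skeleton v0 (`Fermat/Agent/S17/FND/Skel.lean`, sub-architect helper8457):
  * `FND.exists_ord_eq`      (leaf A, weak approximation),
  * `FND.weil_reciprocity`   (leaf D).
`W.evK`/`W.evalDiv` and `FND.evalAt`/`FND.evalDiv` are definitionally equal.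
If the FND interface changes, only this file has to be adapted (the core takes the two inputs
as explicit hypotheses in `W.Defs` terms).
-/
import Fermat.Agent.S17.WA.L6Core_6986
import Fermat.Agent.S17.FND.Skel

set_option autoImplicit false

namespace Fermat.Agent.S17.WA.H6986

open AlgebraicCurve ModularCurve Fermat.Agent.S17.W

section Bridge

variable {K F : Type*} [Field K] [Field F] [Algebra K F]

theorem evK_eq_evalAt (P : Place K F) (f : F) : evK P f = FND.evalAt P f := rfl

theorem evalDiv_eq_fnd (f : F) (D : Divisor K F) : evalDiv f D = FND.evalDiv f D := rfl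

/-- Weil reciprocity in the `W.Defs` form, from the FND skeleton statement. -/
theorem weil_reciprocity_W [IsAlgClosed K] [CharZero K] [IsCurveOver K F]
    [Algebra.EssFiniteType K F] (f g : F) (Df Dg : Divisor K F)
    (hf : IsDivOf f Df) (hg : IsDivOf g Dg) (hdisj : Disjoint Df.support Dg.support) :
    evalDiv f Dg = evalDiv g Df := by
  have hDf : Df = FND.divF f := Finsupp.ext fun v => by rw [hf.2 v, FND.divF_apply]
  have hDg : Dg = FND.divF g := Finsupp.ext fun v => by rw [hg.2 v, FND.divF_apply]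
  rw [evalDiv_eq_fnd, evalDiv_eq_fnd, hDf, hDg]
  exact FND.weil_reciprocity hf.1 hg.1 (by rwa [← hDf, ← hDg])

end Bridge

variable (F₀ : IntermediateField ℚ (LaurentSeries ℚ))
  [IsCurveOver (AlgebraicClosure ℚ) (FBar F₀)]
  [Algebra.EssFiniteType (AlgebraicClosure ℚ) (FBar F₀)]
variable (K₁ : IntermediateField ℚ (AlgebraicClosure ℚ)) [FiniteDimensional ℚ K₁]

/-- WA6 (Kummer formula): if the Kummer value `f_t(D)` of `x` is a square in `K₁` and `2y = x`,
then the Weil pairing of `t` with `σ y - y` is trivial for every `σ ∈ Gal(ℚ̄/K₁)`. -/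
theorem weilTrivial_of_evalDiv_sq {t x : Pic0 (AlgebraicClosure ℚ) (FBar F₀)}
    {E D : Divisor (AlgebraicClosure ℚ) (FBar F₀)} {f : FBar F₀}
    (h : IsTwoDatum F₀ K₁.fixingSubgroup t E f) (hD : IsRep F₀ K₁.fixingSubgroup x E D)
    (c : K₁) (hc : evalDiv f D = ((c : K₁) : AlgebraicClosure ℚ) ^ 2)
    (y : Pic0 (AlgebraicClosure ℚ) (FBar F₀)) (hy : (2 : ℕ) • y = x)
    (σ : GQ) (hσ : σ ∈ K₁.fixingSubgroup) :
    WeilTrivial t (σ • y - y) :=
  weilTrivial_of_evalDiv_sq_core F₀ K₁ (fun S n => FND.exists_ord_eq S n)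
    (fun f g Df Dg hf hg hdisj => weil_reciprocity_W f g Df Dg hf hg hdisj) h hD c hc y hy σ hσ

end Fermat.Agent.S17.WA.H6986
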