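/-
S17 / package WA — skeleton v1, INTEGRATED and CLOSED (sub-architect helper5016).  STATEMENTS UNCHANGED
(frozen v1 = commit 0f7cbe21 of origin/helper5016).  Every leaf is the pinned delivery:
  WA1  helper396   `WA/L1_396.lean`   (+ `W1H396`, `QPlaceH396`, `Hilbert90H396`, `StableDivisorH396`; landed S27.A)
  WA2  helper396   `WA/L2_396.lean`   (+ `DescentH396`; landed S24)
  WA3  helper1594  `WA/L3_1594.lean`
  WA4  helper9418  `WA/L4_9418.lean`  (+ `Kummer9418`, `MonicInv9418`; FND `weil_reciprocity`)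
  WA5  helper6418  `WA/L5_6418.lean`
  WA6  helper6986  `WA/L6_6986.lean`  (+ `L6Core_6986`; FND `weil_reciprocity`, `exists_ord_eq`)
-/
import Fermat.Agent.S17.W.Defs
import Fermat.Agent.S17.WA.L1_396
import Fermat.Agent.S17.WA.L2_396
import Fermat.Agent.S17.WA.L3_1594
import Fermat.Agent.S17.WA.L4_9418
import Fermat.Agent.S17.WA.L5_6418
import Fermat.Agent.S17.WA.L6_6986

set_option autoImplicit false

namespace Fermat.Agent.S17.WA

open AlgebraicCurve ModularCurve Fermat.Agent.S17.W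

variable (F₀ : IntermediateField ℚ (LaurentSeries ℚ))
  [IsCurveOver (AlgebraicClosure ℚ) (FBar F₀)]
  [Algebra.EssFiniteType (AlgebraicClosure ℚ) (FBar F₀)]
variable (K₁ : IntermediateField ℚ (AlgebraicClosure ℚ)) [FiniteDimensional ℚ K₁]

/-- WA1: a `K₁`-rational `2`-torsion class has a `K₁`-rational datum `(E, f)`, `div f = 2E`. -/
theorem exists_twoDatum (t : Pic0 (AlgebraicClosure ℚ) (FBar F₀)) (ht : (2 : ℕ) • t = 0)
    (hfix : ClassFixed F₀ K₁.fixingSubgroup t) :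
    ∃ (E : Divisor (AlgebraicClosure ℚ) (FBar F₀)) (f : FBar F₀),
      IsTwoDatum F₀ K₁.fixingSubgroup t E f :=
  H396.exists_twoDatum F₀ K₁ t ht hfix

/-- WA2: a `K₁`-rational class has a `K₁`-rational representative prime to any given divisor. -/
theorem exists_rep (x : Pic0 (AlgebraicClosure ℚ) (FBar F₀))
    (hfix : ClassFixed F₀ K₁.fixingSubgroup x)
    (E : Divisor (AlgebraicClosure ℚ) (FBar F₀)) :
    ∃ D : Divisor (AlgebraicClosure ℚ) (FBar F₀), IsRep F₀ K₁.fixingSubgroup x E D :=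
  H396.exists_rep F₀ K₁ x hfix E

/-- WA3: the Kummer value `f(D)` is a nonzero element of `K₁`. -/
theorem exists_evalDiv_eq {t x : Pic0 (AlgebraicClosure ℚ) (FBar F₀)}
    {E D : Divisor (AlgebraicClosure ℚ) (FBar F₀)} {f : FBar F₀}
    (h : IsTwoDatum F₀ K₁.fixingSubgroup t E f) (hD : IsRep F₀ K₁.fixingSubgroup x E D) :
    ∃ c : K₁ˣ, (((c : K₁ˣ) : K₁) : AlgebraicClosure ℚ) = evalDiv f D :=
  H1594.exists_evalDiv_eq F₀ K₁ h hD

/-- WA4: the Kummer value does not depend on the representative, up to squares of `K₁`. -/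
theorem evalDiv_rep_indep {t x : Pic0 (AlgebraicClosure ℚ) (FBar F₀)}
    {E D D' : Divisor (AlgebraicClosure ℚ) (FBar F₀)} {f : FBar F₀}
    (h : IsTwoDatum F₀ K₁.fixingSubgroup t E f) (hD : IsRep F₀ K₁.fixingSubgroup x E D)
    (hD' : IsRep F₀ K₁.fixingSubgroup x E D') :
    ∃ c : K₁ˣ, evalDiv f D = evalDiv f D' * (((c : K₁ˣ) : K₁) : AlgebraicClosure ℚ) ^ 2 :=
  H9418.evalDiv_rep_indep F₀ K₁ h hD hD'

/-- WA5a: Kummer values are multiplicative in the representative. -/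
theorem evalDiv_add {t x x' : Pic0 (AlgebraicClosure ℚ) (FBar F₀)}
    {E D D' : Divisor (AlgebraicClosure ℚ) (FBar F₀)} {f : FBar F₀}
    (h : IsTwoDatum F₀ K₁.fixingSubgroup t E f) (hD : IsRep F₀ K₁.fixingSubgroup x E D)
    (hD' : IsRep F₀ K₁.fixingSubgroup x' E D') :
    IsRep F₀ K₁.fixingSubgroup (x + x') E (D + D') ∧
      evalDiv f (D + D') = evalDiv f D * evalDiv f D' :=
  H6418.evalDiv_add F₀ K₁ h hD hD'

/-- WA5b: Kummer values of the opposite class. -/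
theorem evalDiv_neg {t x : Pic0 (AlgebraicClosure ℚ) (FBar F₀)}
    {E D : Divisor (AlgebraicClosure ℚ) (FBar F₀)} {f : FBar F₀}
    (h : IsTwoDatum F₀ K₁.fixingSubgroup t E f) (hD : IsRep F₀ K₁.fixingSubgroup x E D) :
    IsRep F₀ K₁.fixingSubgroup (-x) E (-D) ∧ evalDiv f (-D) = (evalDiv f D)⁻¹ :=
  H6418.evalDiv_neg F₀ K₁ h hD

/-- WA6 (Kummer formula): if the Kummer value `f_t(D)` of `x` is a square in `K₁` and `2y = x`,
then the Weil pairing of `t` with `σ y - y` is trivial for every `σ ∈ Gal(ℚ̄/K₁)`. -/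
theorem weilTrivial_of_evalDiv_sq {t x : Pic0 (AlgebraicClosure ℚ) (FBar F₀)}
    {E D : Divisor (AlgebraicClosure ℚ) (FBar F₀)} {f : FBar F₀}
    (h : IsTwoDatum F₀ K₁.fixingSubgroup t E f) (hD : IsRep F₀ K₁.fixingSubgroup x E D)
    (c : K₁) (hc : evalDiv f D = ((c : K₁) : AlgebraicClosure ℚ) ^ 2)
    (y : Pic0 (AlgebraicClosure ℚ) (FBar F₀)) (hy : (2 : ℕ) • y = x)
    (σ : GQ) (hσ : σ ∈ K₁.fixingSubgroup) :
    WeilTrivial t (σ • y - y) :=
  H6986.weilTrivial_of_evalDiv_sq F₀ K₁ h hD c hc y hy σ hσ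

end Fermat.Agent.S17.WA
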