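/-
S17 / package WA (helper396): Hilbert 90 for functions (W1, second half), self-contained.

* `exists_eq_of_cocycle` : a 1-cocycle `c : G_K → ℚ̄ˣ` on an open subgroup `G_K = K.fixingSubgroup`
  of `Gal(ℚ̄/ℚ)` which is trivial on a smaller open subgroup is a coboundary: `c σ * σ b = b`.
* `exists_finite_fixing` : every element of `laurentBaseChange ℚ̄ F₀` is fixed (coefficientwise) by an
  open subgroup.
* `exists_const_mul_fixed` : if `σ f = (constant) * f` for all `σ ∈ G_K` (e.g. `div f` is `G_K`-stable),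
  then a constant multiple `b * f`, `b ≠ 0`, is `G_K`-fixed.
Imports: Mathlib + Prelude only.
-/
import Mathlib
import Fermat.Prelude.Def_ModularCurve_ArithmeticGalois

set_option autoImplicit false

open IntermediateField ModularCurve

namespace Fermat.Agent.S17.WA.H396

local notation "Qb" => AlgebraicClosure ℚ
local notation "GQ" => (AlgebraicClosure ℚ ≃ₐ[ℚ] AlgebraicClosure ℚ)

local instance instIsAlgebraicQb : Algebra.IsAlgebraic ℚ Qb := AlgebraicClosure.isAlgebraic ℚ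

local instance instNormalQb : Normal ℚ Qb :=
  normal_iff.2 fun x => ⟨(Algebra.IsAlgebraic.isAlgebraic x).isIntegral, IsAlgClosed.splits _⟩

/-- An extension of an embedding `φ : L → ℚ̄` of an intermediate field to an automorphism of `ℚ̄`. -/
noncomputable def liftAut (L : IntermediateField ℚ Qb) (φ : L →ₐ[ℚ] Qb) : GQ :=
  (Algebra.IsAlgebraic.algEquivEquivAlgHom ℚ Qb).symm (φ.liftNormal Qb)

theorem liftAut_apply (L : IntermediateField ℚ Qb) (φ : L →ₐ[ℚ] Qb) (x : L) :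
    liftAut L φ (x : Qb) = φ x := by
  have h := AlgHom.liftNormal_commutes φ Qb x
  have h2 : ∀ y : Qb, liftAut L φ y = φ.liftNormal Qb y := by
    intro y
    have := (Algebra.IsAlgebraic.algEquivEquivAlgHom ℚ Qb).apply_symm_apply (φ.liftNormal Qb)
    exact congrArg (fun g : Qb →ₐ[ℚ] Qb => g y) this
  rw [h2]
  exact h

/-- Hilbert 90 for an open subgroup of the absolute Galois group of `ℚ`, for cocycles that are
trivial on an open subgroup. -/
theorem exists_eq_of_cocycle (K K' : IntermediateField ℚ Qb) [FiniteDimensional ℚ K]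
    [FiniteDimensional ℚ K'] (c : GQ → Qb)
    (hc0 : ∀ σ ∈ K.fixingSubgroup, c σ ≠ 0)
    (hc : ∀ σ ∈ K.fixingSubgroup, ∀ τ ∈ K.fixingSubgroup, c (σ * τ) = c σ * σ (c τ))
    (h1 : ∀ σ ∈ K.fixingSubgroup, σ ∈ K'.fixingSubgroup → c σ = 1) :
    ∃ b : Qb, b ≠ 0 ∧ ∀ σ ∈ K.fixingSubgroup, c σ * σ b = b := by
  classical
  set L : IntermediateField ℚ Qb := K ⊔ K' with hL
  have hKL : K ≤ L := le_sup_left
  have hK'L : K' ≤ L := le_sup_right
  -- the embeddings of `L` that are the identity on `K`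
  let Φ : Finset (L →ₐ[ℚ] Qb) :=
    Finset.univ.filter (fun φ => ∀ x : L, (x : Qb) ∈ K → φ x = (x : Qb))
  have hΦ : ∀ φ : L →ₐ[ℚ] Qb, φ ∈ Φ ↔ ∀ x : L, (x : Qb) ∈ K → φ x = (x : Qb) := by
    intro φ; simp [Φ]
  -- (F1)
  have F1 : ∀ φ ∈ Φ, liftAut L φ ∈ K.fixingSubgroup := by
    intro φ hφ
    rw [IntermediateField.mem_fixingSubgroup_iff]
    intro x hx
    have := liftAut_apply L φ ⟨x, hKL hx⟩
    rw [this]
    exact (hΦ φ).1 hφ ⟨x, hKL hx⟩ hx
  -- (F2)
  have F2 : ∀ τ ∈ K.fixingSubgroup, ∀ φ ∈ Φ, ((τ : Qb →ₐ[ℚ] Qb).comp φ) ∈ Φ := by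
    intro τ hτ φ hφ
    refine (hΦ _).2 ?_
    intro x hx
    rw [AlgHom.comp_apply, (hΦ φ).1 hφ x hx]
    exact (IntermediateField.mem_fixingSubgroup_iff K τ).1 hτ _ hx
  -- (F3)
  have F3 : ∀ σ ∈ K.fixingSubgroup, ∀ σ' ∈ K.fixingSubgroup,
      (∀ x : L, σ (x : Qb) = σ' (x : Qb)) → c σ = c σ' := by
    intro σ hσ σ' hσ' hagree
    have hh : σ'⁻¹ * σ ∈ K.fixingSubgroup := mul_mem (inv_mem hσ') hσ
    have hh' : σ'⁻¹ * σ ∈ K'.fixingSubgroup := by
      rw [IntermediateField.mem_fixingSubgroup_iff]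
      intro x hx
      have := hagree ⟨x, hK'L hx⟩
      show σ'⁻¹ (σ x) = x
      rw [this]
      exact σ'.symm_apply_apply x
    have h1' := h1 _ hh hh'
    have hmul : σ = σ' * (σ'⁻¹ * σ) := by group
    rw [hmul, hc σ' hσ' _ hh, h1', map_one, mul_one]
  -- (F4) non-vanishing
  have hincl : (L.val : L →ₐ[ℚ] Qb) ∈ Φ := (hΦ _).2 (fun x _ => rfl)
  have F4 : ∃ z : L, ∑ φ ∈ Φ, c (liftAut L φ) * φ z ≠ 0 := by
    by_contra hcon
    have hcon' : ∀ z : L, ∑ φ ∈ Φ, c (liftAut L φ) * φ z = 0 := by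
      intro z
      by_contra hz
      exact hcon ⟨z, hz⟩
    have hli : LinearIndependent Qb (fun φ : L →ₐ[ℚ] Qb => (φ : L → Qb)) :=
      LinearIndependent.comp (ι' := L →ₐ[ℚ] Qb)
        (linearIndependent_monoidHom L Qb) (fun φ => (φ : L →* Qb))
        (fun x y h => by ext a; exact DFunLike.ext_iff.1 h a)
    have hsum : ∑ φ ∈ Φ, c (liftAut L φ) • (φ : L → Qb) = 0 := by
      funext z
      simp only [Finset.sum_apply, Pi.smul_apply, smul_eq_mul, Pi.zero_apply]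
      exact hcon' z
    have := linearIndependent_iff'.1 hli Φ (fun φ => c (liftAut L φ)) hsum _ hincl
    exact hc0 _ (F1 _ hincl) this
  obtain ⟨z, hz⟩ := F4
  refine ⟨∑ φ ∈ Φ, c (liftAut L φ) * φ z, hz, ?_⟩
  intro τ hτ
  rw [map_sum, Finset.mul_sum]
  -- reindex by `φ ↦ τ ∘ φ`
  have hτinv : τ⁻¹ ∈ K.fixingSubgroup := inv_mem hτ
  refine Finset.sum_bij' (fun φ _ => (τ : Qb →ₐ[ℚ] Qb).comp φ)
    (fun ψ _ => ((τ⁻¹ : GQ) : Qb →ₐ[ℚ] Qb).comp ψ) ?_ ?_ ?_ ?_ ?_
  · intro φ hφ; exact F2 τ hτ φ hφ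
  · intro ψ hψ; exact F2 τ⁻¹ hτinv ψ hψ
  · intro φ _
    ext x
    show τ⁻¹ (τ (φ x)) = φ x
    exact τ.symm_apply_apply _
  · intro ψ _
    ext x
    show τ (τ⁻¹ (ψ x)) = ψ x
    exact τ.apply_symm_apply _
  · intro φ hφ
    have hsφ := F1 φ hφ
    have hsτφ := F1 _ (F2 τ hτ φ hφ)
    have hagree : ∀ x : L, (τ * liftAut L φ) (x : Qb)
        = liftAut L ((τ : Qb →ₐ[ℚ] Qb).comp φ) (x : Qb) := by
      intro x
      rw [liftAut_apply]
      show τ (liftAut L φ (x : Qb)) = _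
      rw [liftAut_apply]
      rfl
    have hceq := F3 _ (mul_mem hτ hsφ) _ hsτφ hagree
    rw [hc τ hτ _ hsφ] at hceq
    rw [map_mul, ← mul_assoc, hceq]
    rfl

/-- Every element of `laurentBaseChange ℚ̄ F₀` is fixed, coefficientwise, by an open subgroup. -/
theorem exists_finite_fixing (F₀ : IntermediateField ℚ (LaurentSeries ℚ))
    {x : LaurentSeries Qb} (hx : x ∈ laurentBaseChange Qb F₀) :
    ∃ K : IntermediateField ℚ Qb, FiniteDimensional ℚ K ∧
      ∀ σ ∈ K.fixingSubgroup, coeffMap ((σ : GQ) : Qb →+* Qb) x = x := by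
  rw [mem_laurentBaseChange_iff] at hx
  induction hx using Subfield.closure_induction with
  | mem y hy =>
      rcases hy with ⟨a, rfl⟩ | ⟨z, hz, rfl⟩
      · refine ⟨ℚ⟮a⟯, IntermediateField.adjoin.finiteDimensional
          (Algebra.IsAlgebraic.isAlgebraic a).isIntegral, fun σ hσ => ?_⟩
        rw [coeffMap_algebraMap]
        congr 1
        exact (IntermediateField.mem_fixingSubgroup_iff _ σ).1 hσ a
          (IntermediateField.mem_adjoin_simple_self ℚ a)
      · exact ⟨⊥, inferInstance, fun σ _ => coeffMap_coeffEmb σ z⟩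
  | one => exact ⟨⊥, inferInstance, fun σ _ => map_one _⟩
  | add x y _ _ hx hy =>
      obtain ⟨K₁, hK₁, h₁⟩ := hx
      obtain ⟨K₂, hK₂, h₂⟩ := hy
      refine ⟨K₁ ⊔ K₂, IntermediateField.finiteDimensional_sup K₁ K₂, fun σ hσ => ?_⟩
      rw [IntermediateField.fixingSubgroup_sup] at hσ
      rw [map_add, h₁ σ hσ.1, h₂ σ hσ.2]
  | neg x _ hx =>
      obtain ⟨K₁, hK₁, h₁⟩ := hx
      exact ⟨K₁, hK₁, fun σ hσ => by rw [map_neg, h₁ σ hσ]⟩
  | inv x _ hx =>
      obtain ⟨K₁, hK₁, h₁⟩ := hx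
      exact ⟨K₁, hK₁, fun σ hσ => by rw [map_inv₀, h₁ σ hσ]⟩
  | mul x y _ _ hx hy =>
      obtain ⟨K₁, hK₁, h₁⟩ := hx
      obtain ⟨K₂, hK₂, h₂⟩ := hy
      refine ⟨K₁ ⊔ K₂, IntermediateField.finiteDimensional_sup K₁ K₂, fun σ hσ => ?_⟩
      rw [IntermediateField.fixingSubgroup_sup] at hσ
      rw [map_mul, h₁ σ hσ.1, h₂ σ hσ.2]

/-- Version of `exists_finite_fixing` for the Prelude action `arithmeticRingAut`. -/
theorem exists_finite_fixing' (F₀ : IntermediateField ℚ (LaurentSeries ℚ))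
    (f : ↥(laurentBaseChange Qb F₀)) :
    ∃ K : IntermediateField ℚ Qb, FiniteDimensional ℚ K ∧
      ∀ σ ∈ K.fixingSubgroup, arithmeticRingAut F₀ σ f = f := by
  obtain ⟨K, hK, h⟩ := exists_finite_fixing F₀ f.2
  exact ⟨K, hK, fun σ hσ => Subtype.ext (h σ hσ)⟩

theorem arithmeticRingAut_mul_apply (F₀ : IntermediateField ℚ (LaurentSeries ℚ)) (σ τ : GQ)
    (f : ↥(laurentBaseChange Qb F₀)) :
    arithmeticRingAut F₀ (σ * τ) f = arithmeticRingAut F₀ σ (arithmeticRingAut F₀ τ f) := by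
  apply Subtype.ext
  show coeffMap ((σ * τ : GQ) : Qb →+* Qb) (f : LaurentSeries Qb)
      = coeffMap (σ : Qb →+* Qb) (coeffMap (τ : Qb →+* Qb) (f : LaurentSeries Qb))
  rw [coeffMap_coeffMap]
  exact coeffMap_congr (RingHom.ext fun _ => rfl) _

/-- **Hilbert 90 for functions.** If every `σ` in the open subgroup `G_K` multiplies `f ≠ 0` by a
constant (for instance because `div f` is `G_K`-stable), then some nonzero constant multiple of `f`
is `G_K`-fixed. -/
theorem exists_const_mul_fixed (F₀ : IntermediateField ℚ (LaurentSeries ℚ))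
    (K : IntermediateField ℚ Qb) [FiniteDimensional ℚ K]
    (f : ↥(laurentBaseChange Qb F₀)) (hf : f ≠ 0)
    (h : ∀ σ ∈ K.fixingSubgroup, ∃ a : Qb,
      arithmeticRingAut F₀ σ f = algebraMap Qb ↥(laurentBaseChange Qb F₀) a * f) :
    ∃ b : Qb, b ≠ 0 ∧ ∀ σ ∈ K.fixingSubgroup,
      arithmeticRingAut F₀ σ (algebraMap Qb ↥(laurentBaseChange Qb F₀) b * f)
        = algebraMap Qb ↥(laurentBaseChange Qb F₀) b * f := by
  classical
  let c : GQ → Qb := fun σ => if hσ : σ ∈ K.fixingSubgroup then Classical.choose (h σ hσ) else 1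
  have hcspec : ∀ σ ∈ K.fixingSubgroup,
      arithmeticRingAut F₀ σ f = algebraMap Qb ↥(laurentBaseChange Qb F₀) (c σ) * f := by
    intro σ hσ
    have := Classical.choose_spec (h σ hσ)
    have hcσ : c σ = Classical.choose (h σ hσ) := dif_pos hσ
    rw [hcσ]
    exact this
  have hinj : Function.Injective (algebraMap Qb ↥(laurentBaseChange Qb F₀)) :=
    (algebraMap Qb ↥(laurentBaseChange Qb F₀)).injective
  have hc0 : ∀ σ ∈ K.fixingSubgroup, c σ ≠ 0 := by
    intro σ hσ h0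
    have h2 := hcspec σ hσ
    rw [h0, map_zero, zero_mul] at h2
    exact hf ((arithmeticRingAut F₀ σ).injective (by rw [h2, map_zero]))
  have hc : ∀ σ ∈ K.fixingSubgroup, ∀ τ ∈ K.fixingSubgroup, c (σ * τ) = c σ * σ (c τ) := by
    intro σ hσ τ hτ
    have h3 := hcspec (σ * τ) (mul_mem hσ hτ)
    rw [arithmeticRingAut_mul_apply, hcspec τ hτ, map_mul, arithmeticRingAut_algebraMap,
      hcspec σ hσ, ← mul_assoc, ← map_mul] at h3
    have h4 := mul_right_cancel₀ hf h3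
    have h5 := hinj h4
    rw [← h5, mul_comm]
  obtain ⟨K', hK', hfix⟩ := exists_finite_fixing' F₀ f
  have h1 : ∀ σ ∈ K.fixingSubgroup, σ ∈ K'.fixingSubgroup → c σ = 1 := by
    intro σ hσ hσ'
    have h2 := hcspec σ hσ
    rw [hfix σ hσ'] at h2
    have h3 : (1 : ↥(laurentBaseChange Qb F₀)) * f
        = algebraMap Qb ↥(laurentBaseChange Qb F₀) (c σ) * f := by rw [one_mul]; exact h2
    have h4 := mul_right_cancel₀ hf h3
    rw [← map_one (algebraMap Qb ↥(laurentBaseChange Qb F₀))] at h4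
    exact (hinj h4).symm
  obtain ⟨b, hb0, hb⟩ := exists_eq_of_cocycle K K' c hc0 hc h1
  refine ⟨b, hb0, fun σ hσ => ?_⟩
  rw [map_mul, arithmeticRingAut_algebraMap, hcspec σ hσ, ← mul_assoc, ← map_mul,
    mul_comm (σ b), hb σ hσ]

end Fermat.Agent.S17.WA.H396
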